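import Fermat.Agent.S13.helper613_Skeleton
import Fermat.Agent.S13.helper3073_AtPFrey
import Fermat.Agent.S05
import Fermat.Agent.Lib.helper822_TorsionFinite
import Fermat.Agent.S13.helper4462_OpenStab
import Fermat.Agent.S13.helper613_TorsionCount
import Fermat.Agent.S13.helper965_UnipTwo
import Fermat.Agent.S13.helper4507_NoFixed
import Fermat.Agent.Lib.helper2299_MinkowskiInertia

/-!
# S12, the place `p` (helper1118)

For a Frey package `P`, EVERY Galois-stable line `N` of the `p`-torsion of the Frey curve lies in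
the kernel of reduction at EVERY valuation subring of `ℚ̄` over `p`
(`stable_line_inKer_at_p`): a nonzero point of `N` has a non-integral `x`-coordinate.
No case distinction (`p ∣ abc` or not), no toric line at `p`, no Newton polygon.

Proof, from landed S13/S05 ingredients only.  Let `K_A` be the points of `E[p]` in the kernel of
reduction at `A`.
* `helper3073.kerAdd_frey`: `K_A` is closed under addition, so `N ∩ K_A` is `0` or `N`.
* The alternative is the same at all places over `p` (`inKer_all_of_one`): the product of the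
  `x`-coordinates of the nonzero points of `N` is a rational number (rational-product trick of
  `helper3073.at_p_core`).
* If `N ∩ K_A = 0` at all places over `p`, then inertia at `p` fixes `N` pointwise
  (`helper3073.inertiaKer_frey`: `σ x - x ∈ N ∩ K_A`).  Inertia at odd `q ≠ p` acts trivially
  (S05), inertia at `2` is unipotent (`helper965.unip_two`), hence trivial on the line `N`.
  By Minkowski `G_ℚ` fixes `N` pointwise, contradicting `helper4507.no_fixed`.
-/

set_option autoImplicit false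
open WeierstrassCurve WeierstrassCurve.Affine WeierstrassCurve.Affine.Point

namespace Fermat.Agent.S12.helper1118

open Fermat.Agent.S13.helper613 (GQ Vp fixSub kerSub)
open Fermat.Agent.S13.helper3073 (InKer Pt Tors xc KerAdd)

noncomputable section

/-- If one nonzero point of a Galois-stable line `N` lies in the kernel of reduction at one place
over `p`, then all of `N` lies in the kernel of reduction at every place over `p`. -/
theorem inKer_all_of_one {W : WeierstrassCurve ℚ} {p : ℕ} [Fact p.Prime] [Finite (Tors W p)]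
    (hK : KerAdd W p) (N : Submodule (ZMod p) (Tors W p)) (hN : IsGaloisStable ℚ N)
    {n : Tors W p} (hgen : ∀ Q ∈ N, ∃ k : ZMod p, Q = k • n)
    {A₀ : ValuationSubring (AlgebraicClosure ℚ)} (hA₀ : A₀.LiesOverPrime p)
    {Q₀ : Tors W p} (hQ₀N : Q₀ ∈ N) (hQ₀0 : Q₀ ≠ 0) (hQ₀k : InKer A₀ (Q₀ : Pt W))
    {A : ValuationSubring (AlgebraicClosure ℚ)} (hA : A.LiesOverPrime p) :
    ∀ Q ∈ N, InKer A (Q : Pt W) := by
  classical
  have hp : p.Prime := Fact.out
  have : Fintype (Tors W p) := Fintype.ofFinite _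
  set S : Finset (Tors W p) := Finset.univ.filter (fun Q : Tors W p => Q ∈ N ∧ Q ≠ 0) with hS
  set X : Finset (AlgebraicClosure ℚ) := S.image (fun Q : Tors W p => xc (Q : Pt W)) with hX
  have hmemX : ∀ ξ ∈ X, ∃ Q : Tors W p, Q ∈ N ∧ Q ≠ 0 ∧ xc (Q : Pt W) = ξ := by
    intro ξ hξ
    rw [hX, Finset.mem_image] at hξ
    obtain ⟨Q, hQ, rfl⟩ := hξ
    rw [hS, Finset.mem_filter] at hQ
    exact ⟨Q, hQ.2.1, hQ.2.2, rfl⟩
  have hXmem : ∀ Q : Tors W p, Q ∈ N → Q ≠ 0 → xc (Q : Pt W) ∈ X := by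
    intro Q hQN hQ0
    rw [hX, Finset.mem_image]
    exact ⟨Q, by rw [hS, Finset.mem_filter]; exact ⟨Finset.mem_univ _, hQN, hQ0⟩, rfl⟩
  have hXne : X.Nonempty := ⟨_, hXmem Q₀ hQ₀N hQ₀0⟩
  have himage : ∀ σ : AlgebraicClosure ℚ ≃ₐ[ℚ] AlgebraicClosure ℚ, X.image σ = X := by
    intro σ
    apply Finset.eq_of_subset_of_card_le
    · intro ξ hξ
      rw [Finset.mem_image] at hξ
      obtain ⟨η, hη, rfl⟩ := hξ
      obtain ⟨Q, hQN, hQ0, rfl⟩ := hmemX η hη
      have h2 : σ (xc (Q : Pt W)) = xc ((σ • Q : Tors W p) : Pt W) :=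
        (Fermat.Agent.S13.helper3073.xc_smul σ _).symm
      rw [h2]
      exact hXmem _ (hN σ Q hQN) (fun h => hQ0 ((smul_eq_zero_iff_eq σ).mp h))
    · rw [Finset.card_image_of_injective _ σ.injective]
  have hfix : ∀ σ : AlgebraicClosure ℚ ≃ₐ[ℚ] AlgebraicClosure ℚ,
      σ (∏ ξ ∈ X, ξ) = ∏ ξ ∈ X, ξ := by
    intro σ
    rw [map_prod]
    conv_rhs => rw [← himage σ]
    rw [Finset.prod_image (fun a _ b _ hab => σ.injective hab)]
  obtain ⟨r, hr⟩ := Fermat.Agent.S51.helper2811.fixed_mem_range _ hfix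
  rw [eq_ratCast] at hr
  have hXA : ∀ A : ValuationSubring (AlgebraicClosure ℚ),
      (∀ Q ∈ N, InKer A (Q : Pt W)) → ∀ ξ ∈ X, ξ ∉ A := by
    intro A hall ξ hξ
    obtain ⟨Q, hQN, hQ0, rfl⟩ := hmemX ξ hξ
    rcases hall Q hQN with h | h
    · exact absurd (Subtype.ext h) hQ0
    · exact h
  have hrA₀ : (r : AlgebraicClosure ℚ) ∉ A₀ := by
    rw [hr]
    exact Fermat.Agent.S13.helper3073.prod_not_mem A₀ X
      (hXA A₀ (fun Q hQ =>
        Fermat.Agent.S13.helper3073.inKer_of_line hK hgen hA₀ hQ₀N hQ₀0 hQ₀k hQ)) hXne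
  have hden : p ∣ r.den := by
    by_contra h2
    exact hrA₀ (Fermat.Agent.S13.helper3073.ratCast_mem_of_not_dvd hp hA₀ r h2)
  have hrA : (r : AlgebraicClosure ℚ) ∉ A :=
    Fermat.Agent.S13.helper3073.ratCast_not_mem_of_dvd hp hA r hden
  have hex : ∃ ξ ∈ X, ξ ∉ A := by
    by_contra hcon
    push Not at hcon
    exact hrA (hr ▸ prod_mem hcon)
  obtain ⟨ξ, hξX, hξA⟩ := hex
  obtain ⟨Q₁, hQ₁N, hQ₁0, rfl⟩ := hmemX ξ hξX
  exact fun Q hQ =>
    Fermat.Agent.S13.helper3073.inKer_of_line hK hgen hA hQ₁N hQ₁0 (Or.inr hξA) hQ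

/-- No Galois-stable line of the `p`-torsion of a Frey curve is fixed pointwise by inertia at all
places over `p`: otherwise it would be fixed pointwise by `G_ℚ` (Minkowski). -/
theorem not_inertia_trivial_at_p (P : FreyPackage)
    (N : Submodule (ZMod P.p) (Vp P)) (hN : IsGaloisStable ℚ N) (h0 : N ≠ ⊥) (h1 : N ≠ ⊤)
    (hp : ∀ A : ValuationSubring (AlgebraicClosure ℚ), A.LiesOverPrime P.p →
      ∀ σ ∈ A.inertiaSubgroupIn ℚ, ∀ x ∈ N, σ • x = x) : False := by
  have : Fact P.p.Prime := ⟨P.pp⟩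
  have : Finite (Vp P) := Fermat.Agent.Lib.helper822.finite_torsionBy _ P.p P.pp.ne_zero
  have hcard : Nat.card (Vp P) = P.p ^ 2 :=
    Fermat.Agent.S13.helper613.card_eq_sq_of_proper_submodule
      (Fermat.Agent.S13.helper613.frey_card_le P) N h0 h1
  have hV : Module.finrank (ZMod P.p) (Vp P) = 2 := Fermat.Agent.S13.helper613.finrank_eq_two hcard
  have hker : IsOpen (kerSub P : Set GQ) :=
    Fermat.Agent.S13.helper613.isOpen_kerSub (Fermat.Agent.S13.helper4462.open_stab P)
  have hopen1 : IsOpen (fixSub N : Set GQ) :=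
    Subgroup.isOpen_mono (Fermat.Agent.S13.helper613.kerSub_le_fixSub N) hker
  have htop : fixSub N = ⊤ := by
    refine Fermat.Agent.Lib.helper2299.minkowski_inertia _ hopen1 fun q hq A hA σ hσ => ?_
    by_cases hqp : q = P.p
    · subst hqp
      exact hp A hA σ hσ
    · by_cases hq2 : q = 2
      · subst hq2
        exact Fermat.Agent.S13.helper613.unipotent_fix_line hV N hN h0 h1 σ
          (Fermat.Agent.S13.helper965.unip_two P A hA σ hσ)
      · exact fun x _ => Fermat.Agent.S05.result P hq hq2 hqp A hA σ hσ x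
  obtain ⟨n, hn, hn0⟩ := (Submodule.ne_bot_iff N).mp h0
  refine hn0 (Fermat.Agent.S13.helper4507.no_fixed P n fun σ => ?_)
  have hσ : σ ∈ fixSub N := htop ▸ Subgroup.mem_top σ
  exact hσ n hn

/-- **The place `p`.** Every Galois-stable line of the `p`-torsion of a Frey curve lies in the
kernel of reduction at every valuation subring of `ℚ̄` over `p`. -/
theorem stable_line_inKer_at_p (P : FreyPackage)
    (N : Submodule (ZMod P.p) (Vp P)) (hN : IsGaloisStable ℚ N) (h0 : N ≠ ⊥) (h1 : N ≠ ⊤)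
    (A : ValuationSubring (AlgebraicClosure ℚ)) (hA : A.LiesOverPrime P.p)
    (Q : Vp P) (hQ : Q ∈ N) : InKer A (Q : Pt P.freyCurve) := by
  classical
  have : Fact P.p.Prime := ⟨P.pp⟩
  have : Finite (Vp P) := Fermat.Agent.Lib.helper822.finite_torsionBy _ P.p P.pp.ne_zero
  have hcard : Nat.card (Vp P) = P.p ^ 2 :=
    Fermat.Agent.S13.helper613.card_eq_sq_of_proper_submodule
      (Fermat.Agent.S13.helper613.frey_card_le P) N h0 h1
  obtain ⟨n, -, -, hgen⟩ := Fermat.Agent.S51.helper2811.exists_generator_of_proper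
    (by rw [hcard]; exact Nat.pow_lt_pow_right P.pp.one_lt (by norm_num)) N h0 h1
  by_cases hcase : ∃ A₀ : ValuationSubring (AlgebraicClosure ℚ), A₀.LiesOverPrime P.p ∧
      ∃ Q₀ ∈ N, Q₀ ≠ 0 ∧ InKer A₀ (Q₀ : Pt P.freyCurve)
  · obtain ⟨A₀, hA₀, Q₀, hQ₀N, hQ₀0, hQ₀k⟩ := hcase
    exact inKer_all_of_one (Fermat.Agent.S13.helper3073.kerAdd_frey P) N hN hgen hA₀ hQ₀N hQ₀0
      hQ₀k hA Q hQ
  · exfalso
    push Not at hcase
    refine not_inertia_trivial_at_p P N hN h0 h1 fun A' hA' σ hσ x hx => ?_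
    have h2 : σ • x - x ∈ N := N.sub_mem (hN σ x hx) hx
    have h3 := Fermat.Agent.S13.helper3073.inertiaKer_frey P A' hA' σ hσ x
    by_contra hne
    exact hcase A' hA' (σ • x - x) h2 (sub_ne_zero.mpr hne) h3

/-- Coordinate form: a nonzero point of a Galois-stable line has a non-integral `x`-coordinate at
every place over `p`. -/
theorem xc_not_mem_at_p (P : FreyPackage)
    (N : Submodule (ZMod P.p) (Vp P)) (hN : IsGaloisStable ℚ N) (h0 : N ≠ ⊥) (h1 : N ≠ ⊤)
    (A : ValuationSubring (AlgebraicClosure ℚ)) (hA : A.LiesOverPrime P.p)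
    (Q : Vp P) (hQ : Q ∈ N) (hQ0 : Q ≠ 0) : xc (Q : Pt P.freyCurve) ∉ A := by
  rcases stable_line_inKer_at_p P N hN h0 h1 A hA Q hQ with h | h
  · exact absurd (Subtype.ext h) hQ0
  · exact h

/-- Valuation form of `xc_not_mem_at_p`. -/
theorem one_lt_valuation_xc_at_p (P : FreyPackage)
    (N : Submodule (ZMod P.p) (Vp P)) (hN : IsGaloisStable ℚ N) (h0 : N ≠ ⊥) (h1 : N ≠ ⊤)
    (A : ValuationSubring (AlgebraicClosure ℚ)) (hA : A.LiesOverPrime P.p)
    (Q : Vp P) (hQ : Q ∈ N) (hQ0 : Q ≠ 0) : 1 < A.valuation (xc (Q : Pt P.freyCurve)) := by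
  have h := xc_not_mem_at_p P N hN h0 h1 A hA Q hQ hQ0
  rwa [← ValuationSubring.valuation_le_one_iff, not_le] at h

end

end Fermat.Agent.S12.helper1118
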