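import Fermat.Agent.S12.helper135_UnitsLocal
import Fermat.Agent.S13.helper613_DivPoly
import Fermat.Prelude.Def_EllipticCurve_ZeroComponentAt

/-!
# S12, leaf (c) UNITS, global half (helper135)

For a Frey package `P`, a prime `ℓ`, a valuation subring `O` of `ℚ̄` over `ℓ` and an affine
`p`-torsion point `(x, y)` of the Frey curve (minimal model
`y² + x y = x³ + a₂ x² + a₄ x`), with `A = a ^ p`, `B = b ^ p`, `C = c ^ p`:

* `val_x_le_one` (`ℓ ≠ p`): `x` is `O`-integral (odd division polynomial, leading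
  coefficient `-p`);
* `three_units` (`ℓ ≠ p`): `x`, `4 x - A`, `x + B / 4` are units of `O`, provided the point does
  not reduce to the singular point when `ℓ ∣ a b c` (duplication formula; no group structure on
  the reduction, no node-valuation theory);
* `not_node_of_nonsingular` : the frozen `InZeroComponentAt` gives the non-node hypothesis;
* `units_of_zc` : the unit conditions `x⁻¹ ∈ O`, `(x + B / 4)⁻¹ ∈ O`,
  `v (4 - A x⁻¹) = 1`, `v (4 - C (x + B / 4)⁻¹) = 1` at every place, from the zero-component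
  hypothesis at the primes `ℓ ≠ p` dividing `a b c` and the kernel-of-reduction statement at `p`.
-/

set_option autoImplicit false

namespace Fermat.Agent.S12.helper135

open Polynomial WeierstrassCurve WeierstrassCurve.Affine WeierstrassCurve.Affine.Point
open Fermat.Agent.Lib.helper1080
open Fermat.Agent.S13.helper3034 (A2 A4)

local notation "Qb" => AlgebraicClosure ℚ

noncomputable section

/-! ### Integers -/

/-- The integer `b ^ p / 4`. -/
def B4 (P : FreyPackage) : ℤ := P.b ^ P.p / 4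

theorem four_mul_B4 (P : FreyPackage) : 4 * B4 P = P.b ^ P.p :=
  Int.mul_ediv_cancel'
    (Dvd.dvd.trans (by norm_num) (Fermat.Agent.S13.helper3034.thirtytwo_dvd_b_pow P))

theorem cast_B4 (P : FreyPackage) : ((B4 P : ℤ) : Qb) = (P.b : Qb) ^ P.p / 4 := by
  have h := congrArg (fun z : ℤ => (z : Qb)) (four_mul_B4 P)
  push_cast at h
  rw [eq_div_iff (by norm_num : (4 : Qb) ≠ 0)]
  linear_combination h

theorem two_dvd_B4 (P : FreyPackage) : (2 : ℤ) ∣ B4 P := by
  obtain ⟨k, hk⟩ := Fermat.Agent.S13.helper3034.thirtytwo_dvd_b_pow P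
  have h := four_mul_B4 P
  exact ⟨4 * k, by omega⟩

theorem two_dvd_A4 (P : FreyPackage) : (2 : ℤ) ∣ A4 P := by
  obtain ⟨k, hk⟩ := Fermat.Agent.S13.helper3034.thirtytwo_dvd_b_pow P
  have h := Fermat.Agent.S13.helper3034.sixteen_mul_A4 P
  rw [hk] at h
  exact ⟨-(P.a ^ P.p) * k, by linarith⟩

theorem not_dvd_of_gcd {x y : ℤ} (hxy : gcd x y = 1) {q : ℕ} (hq : q.Prime)
    (hx : (q : ℤ) ∣ x) : ¬ (q : ℤ) ∣ y := by
  intro hy
  have h1 : (q : ℤ) ∣ gcd x y := dvd_gcd hx hy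
  rw [hxy] at h1
  have h2 : (q : ℤ) ≤ 1 := Int.le_of_dvd one_pos h1
  have := hq.two_le
  omega

theorem dvd_of_dvd_pow' {q : ℕ} (hq : q.Prime) {x : ℤ} {n : ℕ} (h : (q : ℤ) ∣ x ^ n) :
    (q : ℤ) ∣ x :=
  (Nat.prime_iff_prime_int.mp hq).dvd_of_dvd_pow h

theorem dvd_B4_iff (P : FreyPackage) {q : ℕ} (hq : q.Prime) (hq2 : q ≠ 2) :
    (q : ℤ) ∣ B4 P ↔ (q : ℤ) ∣ P.b := by
  have hqi : Prime (q : ℤ) := Nat.prime_iff_prime_int.mp hq
  constructor
  · intro h
    have h1 : (q : ℤ) ∣ P.b ^ P.p := by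
      rw [← four_mul_B4]; exact Dvd.dvd.mul_left h 4
    exact dvd_of_dvd_pow' hq h1
  · intro h
    have h1 : (q : ℤ) ∣ 4 * B4 P := by
      rw [four_mul_B4]; exact dvd_pow h P.hp0
    rcases hqi.dvd_or_dvd h1 with h2 | h2
    · exfalso
      have h3 : (q : ℤ) ∣ 2 ^ 2 := by norm_num; exact h2
      have h4 : (q : ℤ) ∣ 2 := hqi.dvd_of_dvd_pow h3
      have h5 : q ∣ 2 := by exact_mod_cast h4
      exact hq2 ((Nat.prime_dvd_prime_iff_eq hq Nat.prime_two).mp h5)
    · exact h2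

/-! ### The Frey curve over `ℚ̄` has Frey shape -/

theorem freyShape (P : FreyPackage) :
    FreyShape ((P.freyCurve)⁄Qb) ((P.a : Qb) ^ P.p) ((P.b : Qb) ^ P.p / 4) where
  a₁ := Fermat.Agent.S13.helper3034.map_a₁ P
  a₃ := Fermat.Agent.S13.helper3034.map_a₃ P
  a₆ := Fermat.Agent.S13.helper3034.map_a₆ P
  a₂ := by
    have e : ((P.freyCurve)⁄Qb).a₂ = (A2 P : Qb) := Fermat.Agent.S13.helper3034.map_a₂ P
    rw [e]
    have h := congrArg (fun z : ℤ => (z : Qb)) (Fermat.Agent.S13.helper3034.four_mul_A2 P)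
    push_cast at h
    linear_combination h
  a₄ := by
    have e : ((P.freyCurve)⁄Qb).a₄ = (A4 P : Qb) := Fermat.Agent.S13.helper3034.map_a₄ P
    rw [e]
    have h := congrArg (fun z : ℤ => (z : Qb)) (Fermat.Agent.S13.helper3034.sixteen_mul_A4 P)
    push_cast at h
    linear_combination (1 / 4 : Qb) * h

theorem cast_flt (P : FreyPackage) :
    (P.a : Qb) ^ P.p + 4 * ((P.b : Qb) ^ P.p / 4) = (P.c : Qb) ^ P.p := by
  have h := congrArg (fun z : ℤ => (z : Qb)) P.hFLT
  push_cast at h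
  linear_combination h

/-! ### Valuations of integers -/

section IntVal

variable {ℓ : ℕ} (hℓ : ℓ.Prime) {O : ValuationSubring Qb} (hO : O.LiesOverPrime ℓ)

include hℓ hO

theorem val_int_eq_one {n : ℤ} (h : ¬ (ℓ : ℤ) ∣ n) : O.valuation (n : Qb) = 1 :=
  Fermat.Agent.S05.helper4205.valuation_intCast_eq_one hℓ hO h

theorem val_int_lt_one {n : ℤ} (h : (ℓ : ℤ) ∣ n) : O.valuation (n : Qb) < 1 := by
  rw [← ValuationSubring.mem_nonunits_iff]
  exact (Fermat.Agent.S05.helper4205.intCast_mem_nonunits_iff hℓ hO n).mpr h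

theorem val_int_pow_eq_one {n : ℤ} (h : ¬ (ℓ : ℤ) ∣ n) (k : ℕ) :
    O.valuation ((n : Qb) ^ k) = 1 := by
  rw [map_pow, val_int_eq_one hℓ hO h, one_pow]

theorem val_int_pow_lt_one {n : ℤ} (h : (ℓ : ℤ) ∣ n) {k : ℕ} (hk : k ≠ 0) :
    O.valuation ((n : Qb) ^ k) < 1 := by
  have h1 : O.valuation (((n ^ k : ℤ) : Qb)) < 1 := val_int_lt_one hℓ hO (dvd_pow h hk)
  simpa using h1

theorem val_two_eq_one (h2 : ℓ ≠ 2) : O.valuation (2 : Qb) = 1 := by
  have h : ¬ (ℓ : ℤ) ∣ (2 : ℤ) := by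
    intro hd
    have h5 : ℓ ∣ 2 := by exact_mod_cast hd
    exact h2 ((Nat.prime_dvd_prime_iff_eq hℓ Nat.prime_two).mp h5)
  have := val_int_eq_one hℓ hO h
  simpa using this

end IntVal

theorem val_int_le_one (O : ValuationSubring Qb) (n : ℤ) : O.valuation (n : Qb) ≤ 1 :=
  Fermat.Agent.S13.helper3034.vInt_le_one O.valuation n

/-! ### Integrality away from `p` -/

/-- **(c0)** The abscissa of an affine `p`-torsion point of the Frey curve is integral at every
place not over `p`. -/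
theorem val_x_le_one (P : FreyPackage) {ℓ : ℕ} (hℓ : ℓ.Prime) (hℓp : ℓ ≠ P.p)
    (O : ValuationSubring Qb) (hO : O.LiesOverPrime ℓ) {x y : Qb}
    (h : ((P.freyCurve)⁄Qb).Nonsingular x y)
    (hx : P.p • (Point.some x y h : ((P.freyCurve)⁄Qb).Point) = 0) :
    O.valuation x ≤ 1 := by
  obtain ⟨m, hm⟩ := P.hp_odd
  set W : WeierstrassCurve Qb := P.freyCurve.map (algebraMap ℚ Qb) with hW
  have hmap : psiOdd W m =
      (psiOdd (Fermat.Agent.S13.helper613.freyInt P) m).map (Int.castRingHom Qb) := by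
    rw [psiOdd_map, Fermat.Agent.S13.helper613.freyInt_map]
  have hLC := psiOdd_isLC W m
  have hpK : ((P.p : ℕ) : Qb) ≠ 0 := Nat.cast_ne_zero.mpr P.pp.ne_zero
  have hcoeff : (psiOdd W m).coeff (2 * m ^ 2 + 2 * m) = -((P.p : ℕ) : Qb) := by
    rw [hLC.2, hm]
    push_cast
    ring
  have hcoeff0 : (psiOdd W m).coeff (2 * m ^ 2 + 2 * m) ≠ 0 := by
    rw [hcoeff]
    exact neg_ne_zero.mpr hpK
  have hdeg : (psiOdd W m).natDegree = 2 * m ^ 2 + 2 * m :=
    le_antisymm hLC.1 (le_natDegree_of_ne_zero hcoeff0)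
  have hlc : O.valuation (psiOdd W m).leadingCoeff = 1 := by
    rw [leadingCoeff, hdeg, hcoeff, Valuation.map_neg]
    exact Fermat.Agent.S05.helper4205.valuation_natCast_eq_one hℓ hO
      (fun hd => hℓp ((Nat.prime_dvd_prime_iff_eq hℓ P.pp).mp hd))
  refine val_root_le_one O.valuation (psiOdd W m) (fun i => ?_) hlc ?_
  · rw [hmap, coeff_map]
    exact Fermat.Agent.S13.helper3034.vInt_le_one O.valuation _
  · rw [hm] at hx
    exact (odd_nsmul_eq_zero_iff W h m).mp hx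

/-- The double of an affine `p`-torsion point is an affine `p`-torsion point. -/
theorem exists_double (P : FreyPackage) {x y : Qb} (h : ((P.freyCurve)⁄Qb).Nonsingular x y)
    (hx : P.p • (Point.some x y h : ((P.freyCurve)⁄Qb).Point) = 0) :
    y ≠ ((P.freyCurve)⁄Qb).negY x y ∧
      ∃ (y₂ : Qb) (h₂ : ((P.freyCurve)⁄Qb).Nonsingular
          (((P.freyCurve)⁄Qb).addX x x (((P.freyCurve)⁄Qb).slope x x y y)) y₂),
        P.p • (Point.some _ y₂ h₂ : ((P.freyCurve)⁄Qb).Point) = 0 := by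
  have hy : y ≠ ((P.freyCurve)⁄Qb).negY x y := by
    intro hy
    have h2 : (Point.some x y h : ((P.freyCurve)⁄Qb).Point) + Point.some x y h = 0 :=
      Point.add_self_of_Y_eq hy
    obtain ⟨m, hm⟩ := P.hp_odd
    have h3 : P.p • (Point.some x y h : ((P.freyCurve)⁄Qb).Point) = Point.some x y h := by
      rw [hm, add_smul, one_smul, mul_comm, mul_smul, two_smul, h2, nsmul_zero, zero_add]
    rw [h3] at hx
    exact Point.some_ne_zero h hx
  refine ⟨hy, _, nonsingular_add h h fun hxy => hy hxy.right, ?_⟩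
  rw [← Point.add_self_of_Y_ne (h₁ := h) hy, nsmul_add, hx, add_zero]

/-! ### The three units away from `p` -/

/-- **(c1)–(c3)** For a prime `ℓ ≠ p` and an affine `p`-torsion point `(x, y)` of the Frey curve
which, if `ℓ ∣ a b c`, does not reduce to the singular point at `O`, the numbers `x`, `4 x - A`,
`x + B / 4` are units of `O`. -/
theorem three_units (P : FreyPackage) {ℓ : ℕ} (hℓ : ℓ.Prime) (hℓp : ℓ ≠ P.p)
    (O : ValuationSubring Qb) (hO : O.LiesOverPrime ℓ) {x y : Qb}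
    (h : ((P.freyCurve)⁄Qb).Nonsingular x y)
    (hx : P.p • (Point.some x y h : ((P.freyCurve)⁄Qb).Point) = 0)
    (hns : (ℓ : ℤ) ∣ P.a * P.b * P.c →
      ¬ (O.valuation (y - (3 * x ^ 2 + 2 * (A2 P : Qb) * x + (A4 P : Qb))) < 1 ∧
          O.valuation (2 * y + x) < 1)) :
    O.valuation x = 1 ∧ O.valuation (4 * x - (P.a : Qb) ^ P.p) = 1 ∧
      O.valuation (x + (P.b : Qb) ^ P.p / 4) = 1 := by
  have hS := freyShape P
  have hqi : Prime (ℓ : ℤ) := Nat.prime_iff_prime_int.mp hℓ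
  have e₂ : ((P.freyCurve)⁄Qb).a₂ = (A2 P : Qb) := Fermat.Agent.S13.helper3034.map_a₂ P
  have e₄ : ((P.freyCurve)⁄Qb).a₄ = (A4 P : Qb) := Fermat.Agent.S13.helper3034.map_a₄ P
  have hvx := val_x_le_one P hℓ hℓp O hO h hx
  have ha₂ : O.valuation ((P.freyCurve)⁄Qb).a₂ ≤ 1 := by rw [e₂]; exact val_int_le_one O _
  have hns' : (ℓ : ℤ) ∣ P.a * P.b * P.c →
      ¬ (O.valuation (y - (3 * x ^ 2 + 2 * ((P.freyCurve)⁄Qb).a₂ * x + ((P.freyCurve)⁄Qb).a₄)) < 1 ∧
          O.valuation (2 * y + x) < 1) := by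
    rw [e₂, e₄]; exact hns
  by_cases h2 : ℓ = 2
  · -- residue characteristic two
    subst h2
    have hv2 : O.valuation (2 : Qb) < 1 :=
      Fermat.Agent.S13.helper3034.valuation_two_lt_one O hO
    have hA : O.valuation ((P.a : Qb) ^ P.p) = 1 :=
      val_int_pow_eq_one hℓ hO (by exact_mod_cast Fermat.Agent.S13.helper3034.not_two_dvd_a P) _
    have hB : O.valuation ((P.b : Qb) ^ P.p / 4) < 1 := by
      rw [← cast_B4]
      exact val_int_lt_one hℓ hO (by exact_mod_cast two_dvd_B4 P)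
    have ha₄ : O.valuation ((P.freyCurve)⁄Qb).a₄ < 1 := by
      rw [e₄]
      exact val_int_lt_one hℓ hO (by exact_mod_cast two_dvd_A4 P)
    exact hS.units_two O.valuation hv2 hA hB ha₂ ha₄ h.1 hvx
      (hns' (by exact_mod_cast P.two_dvd_abc))
  · -- odd residue characteristic
    have hv2 : O.valuation (2 : Qb) = 1 := val_two_eq_one hℓ hO h2
    obtain ⟨hy, y₂, h₂, hx₂⟩ := exists_double P h hx
    have hX₂ := val_x_le_one P hℓ hℓp O hO h₂ hx₂
    have hdup := hS.dup h.1 hy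
    have hC : (P.a : Qb) ^ P.p + 4 * ((P.b : Qb) ^ P.p / 4) = (P.c : Qb) ^ P.p := cast_flt P
    by_cases ha : (ℓ : ℤ) ∣ P.a
    · have hb : ¬ (ℓ : ℤ) ∣ P.b := not_dvd_of_gcd P.hgcdab hℓ ha
      have hc : ¬ (ℓ : ℤ) ∣ P.c := not_dvd_of_gcd P.hgcdac hℓ ha
      have hvA : O.valuation ((P.a : Qb) ^ P.p) < 1 := val_int_pow_lt_one hℓ hO ha P.hp0
      have hvB : O.valuation ((P.b : Qb) ^ P.p / 4) = 1 := by
        rw [← cast_B4]
        exact val_int_eq_one hℓ hO (fun hd => hb ((dvd_B4_iff P hℓ h2).mp hd))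
      have hvC : O.valuation ((P.a : Qb) ^ P.p + 4 * ((P.b : Qb) ^ P.p / 4)) = 1 := by
        rw [hC]; exact val_int_pow_eq_one hℓ hO hc _
      exact hS.units_of_A_small O.valuation hv2 hvA hvB hvC ha₂ h.1 hvx hX₂ hdup
        (hns' (Dvd.dvd.mul_right (Dvd.dvd.mul_right ha _) _))
    · have hvA : O.valuation ((P.a : Qb) ^ P.p) = 1 := val_int_pow_eq_one hℓ hO ha _
      by_cases hb : (ℓ : ℤ) ∣ P.b
      · have hc : ¬ (ℓ : ℤ) ∣ P.c := not_dvd_of_gcd P.hgcdbc hℓ hb
        have hvB : O.valuation ((P.b : Qb) ^ P.p / 4) < 1 := by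
          rw [← cast_B4]
          exact val_int_lt_one hℓ hO ((dvd_B4_iff P hℓ h2).mpr hb)
        have hvC : O.valuation ((P.a : Qb) ^ P.p + 4 * ((P.b : Qb) ^ P.p / 4)) = 1 := by
          rw [hC]; exact val_int_pow_eq_one hℓ hO hc _
        exact hS.units_of_B_small O.valuation hv2 hvA hvB hvC ha₂ h.1 hvx hX₂ hdup
          (hns' (Dvd.dvd.mul_right (Dvd.dvd.mul_left hb _) _))
      · have hvB : O.valuation ((P.b : Qb) ^ P.p / 4) = 1 := by
          rw [← cast_B4]
          exact val_int_eq_one hℓ hO (fun hd => hb ((dvd_B4_iff P hℓ h2).mp hd))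
        by_cases hc : (ℓ : ℤ) ∣ P.c
        · have hvC : O.valuation ((P.a : Qb) ^ P.p + 4 * ((P.b : Qb) ^ P.p / 4)) < 1 := by
            rw [hC]; exact val_int_pow_lt_one hℓ hO hc P.hp0
          exact hS.units_of_C_small O.valuation hv2 hvA hvB hvC h.1 hvx hX₂ hdup
            (hns' (Dvd.dvd.mul_left hc _))
        · have hvC : O.valuation ((P.a : Qb) ^ P.p + 4 * ((P.b : Qb) ^ P.p / 4)) = 1 := by
            rw [hC]; exact val_int_pow_eq_one hℓ hO hc _
          exact hS.units_good O.valuation hv2 hvA hvB hvC hvx hX₂ hdup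

/-! ### The zero-component hypothesis -/

theorem residue_eq_zero_of_val_lt (O : ValuationSubring Qb) (z : O)
    (h : O.valuation (z : Qb) < 1) : IsLocalRing.residue O z = 0 :=
  (IsLocalRing.residue_eq_zero_iff z).mpr ((O.valuation_lt_one_iff z).mpr h)

/-- A point with integral coordinates whose reduction is a nonsingular point of the reduction of
the integral Frey model does not reduce to the node: one of the two partial derivatives is a
unit. -/
theorem not_node_of_nonsingular (P : FreyPackage) (O : ValuationSubring Qb) {x y : Qb}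
    (hx : x ∈ O) (hy : y ∈ O)
    (hns : (P.freyCurveInt.map (Int.castRingHom (IsLocalRing.ResidueField O))).toAffine.Nonsingular
      (IsLocalRing.residue O ⟨x, hx⟩) (IsLocalRing.residue O ⟨y, hy⟩)) :
    ¬ (O.valuation (y - (3 * x ^ 2 + 2 * (A2 P : Qb) * x + (A4 P : Qb))) < 1 ∧
        O.valuation (2 * y + x) < 1) := by
  rintro ⟨h1, h2⟩
  rw [Affine.nonsingular_iff'] at hns
  obtain ⟨-, hns⟩ := hns
  have ha₁ : (P.freyCurveInt.map (Int.castRingHom (IsLocalRing.ResidueField O))).a₁ = 1 := by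
    simp [FreyPackage.freyCurveInt]
  have ha₂ : (P.freyCurveInt.map (Int.castRingHom (IsLocalRing.ResidueField O))).a₂ =
      ((A2 P : ℤ) : IsLocalRing.ResidueField O) := rfl
  have ha₃ : (P.freyCurveInt.map (Int.castRingHom (IsLocalRing.ResidueField O))).a₃ = 0 := by
    simp [FreyPackage.freyCurveInt]
  have ha₄ : (P.freyCurveInt.map (Int.castRingHom (IsLocalRing.ResidueField O))).a₄ =
      ((A4 P : ℤ) : IsLocalRing.ResidueField O) := rfl
  rw [ha₁, ha₂, ha₃, ha₄] at hns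
  have e1 : IsLocalRing.residue O
      ((⟨y, hy⟩ : O) - (3 * (⟨x, hx⟩ : O) ^ 2 + 2 * ((A2 P : ℤ) : O) * (⟨x, hx⟩ : O) +
        ((A4 P : ℤ) : O))) = 0 :=
    residue_eq_zero_of_val_lt O _ (by
      have e : ((((⟨y, hy⟩ : O) - (3 * (⟨x, hx⟩ : O) ^ 2 + 2 * ((A2 P : ℤ) : O) * (⟨x, hx⟩ : O) +
          ((A4 P : ℤ) : O)) : O)) : Qb) =
          y - (3 * x ^ 2 + 2 * (A2 P : Qb) * x + (A4 P : Qb)) := by
        push_cast
        rfl
      rw [e]
      exact h1)
  have e2 : IsLocalRing.residue O (2 * (⟨y, hy⟩ : O) + (⟨x, hx⟩ : O)) = 0 :=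
    residue_eq_zero_of_val_lt O _ (by
      have e : (((2 * (⟨y, hy⟩ : O) + (⟨x, hx⟩ : O) : O)) : Qb) = 2 * y + x := by
        push_cast
        rfl
      rw [e]
      exact h2)
  simp only [map_sub, map_add, map_mul, map_pow, map_intCast, map_ofNat] at e1 e2
  rcases hns with h | h
  · apply h
    rw [one_mul]
    exact e1
  · apply h
    rw [one_mul, add_zero]
    exact e2

/-- The frozen predicate `WeierstrassCurve.InZeroComponentAt`, with the rational model as a
parameter: `W.InZeroComponentAt O S` is `ZC W O S` for the model `W.map (Int.castRingHom ℚ)`. -/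
def ZC (Wℤ : WeierstrassCurve ℤ) {Wℚ : WeierstrassCurve ℚ} (O : ValuationSubring Qb)
    (S : (Wℚ⁄Qb).Point) : Prop :=
  S = 0 ∨ ∃ (x y : Qb) (h : (Wℚ⁄Qb).toAffine.Nonsingular x y),
    S = .some x y h ∧
      (x ∉ O ∨ ∃ (hx : x ∈ O) (hy : y ∈ O),
        (Wℤ.map (Int.castRingHom (IsLocalRing.ResidueField O))).toAffine.Nonsingular
          (IsLocalRing.residue O ⟨x, hx⟩) (IsLocalRing.residue O ⟨y, hy⟩))

theorem inZeroComponentAt_iff_zc (W : WeierstrassCurve ℤ) (O : ValuationSubring Qb)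
    (S : ((W.map (Int.castRingHom ℚ))⁄Qb).Point) : W.InZeroComponentAt O S ↔ ZC W O S :=
  Iff.rfl

/-! ### The unit conditions -/

/-- **Leaf (c) UNITS.** Let `N` be a set of `p`-torsion points of the Frey curve (rational model
`Wℚ = P.freyCurve`) such that

* `hZ` : at every prime `ℓ ≠ p` dividing `a b c`, every point of `N` lies in the zero component
  at every place over `ℓ`;
* `hP` : at every place over `p`, every affine point of `N` lies in the kernel of reduction.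

Then the unit conditions hold for every affine point `(x, y)` of `N` at every place `O` of `ℚ̄`
over every prime `ℓ`. -/
theorem units_of_zc (P : FreyPackage) (Wℚ : WeierstrassCurve ℚ) (hW : Wℚ = P.freyCurve)
    (N : Submodule (ZMod P.p) (Submodule.torsionBy ℤ (Wℚ⁄Qb).Point P.p))
    (hZ : ∀ ℓ : ℕ, ℓ.Prime → ℓ ≠ P.p → (ℓ : ℤ) ∣ P.a * P.b * P.c →
      ∀ O : ValuationSubring Qb, O.LiesOverPrime ℓ →
        ∀ S ∈ N, ZC P.freyCurveInt O (S : (Wℚ⁄Qb).Point))
    (hP : ∀ O : ValuationSubring Qb, O.LiesOverPrime P.p → ∀ S ∈ N,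
      ∀ (x y : Qb) (h : (Wℚ⁄Qb).toAffine.Nonsingular x y),
        (S : (Wℚ⁄Qb).Point) = .some x y h → 1 < O.valuation x)
    (ℓ : ℕ) (hℓ : ℓ.Prime) (O : ValuationSubring Qb) (hO : O.LiesOverPrime ℓ)
    (S : Submodule.torsionBy ℤ (Wℚ⁄Qb).Point P.p) (hS : S ∈ N) (x y : Qb)
    (h : (Wℚ⁄Qb).toAffine.Nonsingular x y) (hSxy : (S : (Wℚ⁄Qb).Point) = .some x y h) :
    x⁻¹ ∈ O ∧ (x + (P.b : Qb) ^ P.p / 4)⁻¹ ∈ O ∧
      O.valuation (4 - (P.a : Qb) ^ P.p * x⁻¹) = 1 ∧
      O.valuation (4 - (P.c : Qb) ^ P.p * (x + (P.b : Qb) ^ P.p / 4)⁻¹) = 1 := by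
  subst hW
  have hx : P.p • (Point.some x y h : ((P.freyCurve)⁄Qb).Point) = 0 := by
    rw [← hSxy]
    have := S.2
    rw [Submodule.mem_torsionBy_iff, natCast_zsmul] at this
    exact this
  have key : x ≠ 0 ∧ x + (P.b : Qb) ^ P.p / 4 ≠ 0 ∧
      O.valuation (4 - (P.a : Qb) ^ P.p / x) = 1 ∧
      O.valuation (4 - ((P.a : Qb) ^ P.p + 4 * ((P.b : Qb) ^ P.p / 4)) /
        (x + (P.b : Qb) ^ P.p / 4)) = 1 ∧
      O.valuation (1 / x) ≤ 1 ∧ O.valuation (1 / (x + (P.b : Qb) ^ P.p / 4)) ≤ 1 := by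
    by_cases hℓp : ℓ = P.p
    · subst hℓp
      have h2 : O.valuation (2 : Qb) = 1 :=
        val_two_eq_one hℓ hO (by have := P.hp5; omega)
      refine eta_of_ker O.valuation h2 (val_pow_le_one O.valuation (val_int_le_one O P.a) P.p) ?_
        (hP O hO S hS x y h hSxy)
      rw [← cast_B4]
      exact val_int_le_one O _
    · have hu := three_units P hℓ hℓp O hO h hx (by
        intro habc
        rcases hZ ℓ hℓ hℓp habc O hO S hS with h0 | ⟨x', y', h', hS', hcase⟩
        · rw [hSxy] at h0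
          exact absurd h0 (Point.some_ne_zero h)
        · rw [hSxy] at hS'
          obtain ⟨rfl, rfl⟩ : x = x' ∧ y = y' := by simpa using hS'
          rcases hcase with hnot | ⟨hx', hy', hns⟩
          · exact absurd ((O.valuation_le_one_iff x).mp (val_x_le_one P hℓ hℓp O hO h hx)) hnot
          · exact not_node_of_nonsingular P O hx' hy' hns)
      exact eta_of_units O.valuation hu.1 hu.2.1 hu.2.2
  obtain ⟨-, -, h1, h2, h3, h4⟩ := key
  refine ⟨?_, ?_, ?_, ?_⟩
  · rw [← O.valuation_le_one_iff, ← one_div]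
    exact h3
  · rw [← O.valuation_le_one_iff, ← one_div]
    exact h4
  · rw [← div_eq_mul_inv]
    exact h1
  · rw [← div_eq_mul_inv, ← cast_flt P]
    exact h2

end

end Fermat.Agent.S12.helper135
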