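import Mathlib
import Fermat.Agent.Lib.helper1080_Ladder
import Fermat.Agent.Lib.helper4453_NewtonBound

/-!
# S12, leaf (c) UNITS, local half (helper135)

Pure valuation theory on a Weierstrass curve of *Frey shape*

  `y² + x y = x³ + a₂ x² + a₄ x`,  `4 a₂ = 4 B₄ - 1 - A`,  `4 a₄ = - A B₄`

(so that with `x' = 4 x`, `y' = 8 y + 4 x` one has `y'² = x' (x' - A) (x' + 4 B₄)`; for the Frey
curve `A = a ^ p`, `4 B₄ = b ^ p`, `A + 4 B₄ = c ^ p`).

Main tools:

* `FreyShape.dup` : the duplication formula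
  `x(2Q) * (x (4 x - A) (x + B₄)) = (x² - a₄)²`;
* `val_root_le_one` : integrality of roots of an integral polynomial with unit leading
  coefficient;
* `units_good`, `units_of_A_small`, `units_of_B_small`, `units_of_C_small`, `units_two` : the
  three numbers `x`, `4 x - A`, `x + B₄` are units, under the appropriate hypotheses;
* `eta_of_units`, `eta_of_ker` : the consumer shape (`4 - A / x` and `4 - C / (x + B₄)` are units,
  `1 / x` and `1 / (x + B₄)` are integral).

Only Mathlib and two Mathlib-only library files are imported.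
-/

set_option autoImplicit false

namespace Fermat.Agent.S12.helper135

open Polynomial WeierstrassCurve WeierstrassCurve.Affine

noncomputable section

variable {K : Type*} [Field K] {Γ₀ : Type*} [LinearOrderedCommGroupWithZero Γ₀]

/-- A Weierstrass curve of Frey shape. -/
structure FreyShape (W : WeierstrassCurve K) (A B₄ : K) : Prop where
  a₁ : W.a₁ = 1
  a₃ : W.a₃ = 0
  a₆ : W.a₆ = 0
  a₂ : 4 * W.a₂ = 4 * B₄ - 1 - A
  a₄ : 4 * W.a₄ = -(A * B₄)

namespace FreyShape

variable {W : WeierstrassCurve K} {A B₄ : K}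

theorem equation_iff (hS : FreyShape W A B₄) (x y : K) :
    W.toAffine.Equation x y ↔ y ^ 2 + x * y = x ^ 3 + W.a₂ * x ^ 2 + W.a₄ * x := by
  rw [Affine.equation_iff, hS.a₁, hS.a₃, hS.a₆]
  constructor <;> intro h <;> linear_combination h

theorem negY (hS : FreyShape W A B₄) (x y : K) : W.toAffine.negY x y = -y - x := by
  simp only [Affine.negY, hS.a₁, hS.a₃]
  ring

/-- The square of the `y`-partial derivative. -/
theorem polyY_sq (hS : FreyShape W A B₄) {x y : K} (h : W.toAffine.Equation x y) :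
    (2 * y + x) ^ 2 = x * (4 * x - A) * (x + B₄) := by
  rw [hS.equation_iff] at h
  linear_combination 4 * h + x ^ 2 * hS.a₂ + x * hS.a₄

theorem ne_negY_iff (hS : FreyShape W A B₄) (x y : K) :
    y ≠ W.toAffine.negY x y ↔ 2 * y + x ≠ 0 := by
  rw [hS.negY, not_iff_not]
  constructor
  · intro h; linear_combination h
  · intro h; linear_combination h

/-- **Duplication formula** on a curve of Frey shape. -/
theorem dup [DecidableEq K] (hS : FreyShape W A B₄) {x y : K} (h : W.toAffine.Equation x y)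
    (hy : y ≠ W.toAffine.negY x y) :
    W.toAffine.addX x x (W.toAffine.slope x x y y) * (x * (4 * x - A) * (x + B₄)) =
      (x ^ 2 - W.a₄) ^ 2 := by
  have key := Fermat.Agent.Lib.helper1080.addX_dup W.toAffine h hy
  rw [← Affine.slope_of_Y_ne rfl hy] at key
  have hb₂ : W.b₂ = 4 * B₄ - A := by
    simp only [WeierstrassCurve.b₂, hS.a₁]; linear_combination hS.a₂
  have hb₄ : W.b₄ = 2 * W.a₄ := by
    simp only [WeierstrassCurve.b₄, hS.a₁, hS.a₃]; ring
  have hb₆ : W.b₆ = 0 := by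
    simp only [WeierstrassCurve.b₆, hS.a₃, hS.a₆]; ring
  have hb₈ : W.b₈ = -W.a₄ ^ 2 := by
    simp only [WeierstrassCurve.b₈, hS.a₁, hS.a₃, hS.a₆]; ring
  rw [hb₂, hb₄, hb₆, hb₈] at key
  linear_combination key -
    W.toAffine.addX x x (W.toAffine.slope x x y y) * x * hS.a₄

end FreyShape

/-! ### Valuation lemmas -/

section Val

variable (v : Valuation K Γ₀)

theorem val_lt_one_of_mul_lt_one {a b : K} (h : v (a * b) < 1) : v a < 1 ∨ v b < 1 := by
  by_contra hcon
  push Not at hcon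
  rw [map_mul] at h
  exact absurd (one_le_mul_of_one_le_of_one_le hcon.1 hcon.2) (not_le.mpr h)

theorem val_eq_one_of_mul_eq_one {a b : K} (ha : v a ≤ 1) (hb : v b ≤ 1) (h : v (a * b) = 1) :
    v a = 1 ∧ v b = 1 := by
  rw [map_mul] at h
  refine ⟨le_antisymm ha ?_, le_antisymm hb ?_⟩
  · by_contra hcon
    push Not at hcon
    have : v a * v b < 1 := by
      calc v a * v b ≤ v a * 1 := by gcongr
        _ = v a := mul_one _
        _ < 1 := hcon
    exact absurd h (ne_of_lt this)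
  · by_contra hcon
    push Not at hcon
    have : v a * v b < 1 := by
      calc v a * v b ≤ 1 * v b := by gcongr
        _ = v b := one_mul _
        _ < 1 := hcon
    exact absurd h (ne_of_lt this)

theorem val_mul_lt_one_of_left {a b : K} (ha : v a < 1) (hb : v b ≤ 1) : v (a * b) < 1 := by
  rw [map_mul]
  calc v a * v b ≤ v a * 1 := by gcongr
    _ = v a := mul_one _
    _ < 1 := ha

theorem val_mul_lt_one_of_right {a b : K} (ha : v a ≤ 1) (hb : v b < 1) : v (a * b) < 1 := by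
  rw [mul_comm]; exact val_mul_lt_one_of_left v hb ha

theorem val_mul_le_one {a b : K} (ha : v a ≤ 1) (hb : v b ≤ 1) : v (a * b) ≤ 1 := by
  rw [map_mul]; exact mul_le_one' ha hb

theorem val_pow_le_one {a : K} (ha : v a ≤ 1) (n : ℕ) : v (a ^ n) ≤ 1 := by
  rw [map_pow]; exact pow_le_one' ha n

theorem val_add_le_one {a b : K} (ha : v a ≤ 1) (hb : v b ≤ 1) : v (a + b) ≤ 1 :=
  le_trans (v.map_add a b) (max_le ha hb)

theorem val_sub_le_one {a b : K} (ha : v a ≤ 1) (hb : v b ≤ 1) : v (a - b) ≤ 1 :=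
  le_trans (v.map_sub a b) (max_le ha hb)

theorem val_add_lt_one {a b : K} (ha : v a < 1) (hb : v b < 1) : v (a + b) < 1 :=
  lt_of_le_of_lt (v.map_add a b) (max_lt ha hb)

theorem val_sub_lt_one {a b : K} (ha : v a < 1) (hb : v b < 1) : v (a - b) < 1 :=
  lt_of_le_of_lt (v.map_sub a b) (max_lt ha hb)

/-- A unit plus a non-unit is a unit. -/
theorem val_add_eq_one {a b : K} (ha : v a = 1) (hb : v b < 1) : v (a + b) = 1 := by
  have h := v.map_add_eq_of_lt_left (x := a) (y := b) (by rw [ha]; exact hb)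
  rw [h, ha]

theorem val_sub_eq_one {a b : K} (ha : v a = 1) (hb : v b < 1) : v (a - b) = 1 := by
  rw [sub_eq_add_neg]
  exact val_add_eq_one v ha (by rw [Valuation.map_neg]; exact hb)

theorem val_sub_eq_one' {a b : K} (ha : v a < 1) (hb : v b = 1) : v (a - b) = 1 := by
  rw [← Valuation.map_neg, neg_sub]
  exact val_sub_eq_one v hb ha

theorem val_ofNat_le_one (n : ℕ) : v (n : K) ≤ 1 :=
  Fermat.Agent.Lib.helper4453.val_natCast_le_one v n

/-- Roots of an integral polynomial with unit leading coefficient are integral. -/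
theorem val_root_le_one (Ψ : K[X]) (hint : ∀ i, v (Ψ.coeff i) ≤ 1)
    (hlc : v Ψ.leadingCoeff = 1) {x : K} (hx : Ψ.eval x = 0) : v x ≤ 1 := by
  by_contra hcon
  push Not at hcon
  have h := Fermat.Agent.Lib.helper4453.newton_bound v {x} Ψ hint
    (fun t ht => by rw [Finset.mem_singleton] at ht; subst ht; exact ⟨hx, hcon⟩)
  rw [hlc, one_mul, Finset.prod_singleton] at h
  exact absurd h (not_le.mpr hcon)

/-- If the numerator of the duplication formula is a unit and the denominator is not, the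
abscissa of the double is not integral. -/
theorem dup_not_integral {X₂ D N : K} (hD : v D < 1) (hN : v N = 1) (h : X₂ * D = N ^ 2) :
    1 < v X₂ := by
  by_contra hcon
  push Not at hcon
  have h1 : v (X₂ * D) < 1 := val_mul_lt_one_of_right v hcon hD
  rw [h, map_pow, hN, one_pow] at h1
  exact lt_irrefl _ h1

theorem val_two_le_one : v (2 : K) ≤ 1 := by
  have := val_ofNat_le_one v 2
  simpa using this

theorem val_three_le_one : v (3 : K) ≤ 1 := by
  have := val_ofNat_le_one v 3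
  simpa using this

theorem val_four_le_one : v (4 : K) ≤ 1 := by
  have := val_ofNat_le_one v 4
  simpa using this

theorem val_four_eq_one (h2 : v (2 : K) = 1) : v (4 : K) = 1 := by
  have : (4 : K) = 2 * 2 := by norm_num
  rw [this, map_mul, h2, one_mul]

theorem val_four_lt_one (h2 : v (2 : K) < 1) : v (4 : K) < 1 := by
  have : (4 : K) = 2 * 2 := by norm_num
  rw [this]
  exact val_mul_lt_one_of_left v h2 h2.le

theorem val_lt_one_of_pow_lt_one {a : K} {n : ℕ} (h : v (a ^ n) < 1) : v a < 1 := by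
  by_contra hcon
  push Not at hcon
  rw [map_pow] at h
  exact absurd (one_le_pow_of_one_le' hcon n) (not_le.mpr h)

/-- Cancel a unit factor. -/
theorem val_eq_one_of_unit_mul {c a : K} (hc : v c = 1) (h : v (c * a) = 1) : v a = 1 := by
  rwa [map_mul, hc, one_mul] at h

theorem val_lt_one_of_unit_mul {c a : K} (hc : v c = 1) (h : v (c * a) < 1) : v a < 1 := by
  rwa [map_mul, hc, one_mul] at h

variable {W : WeierstrassCurve K} {A B₄ : K}

/-- The ordinate of an integral point of a curve with integral coefficients is integral. -/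
theorem FreyShape.val_y_le_one (hS : FreyShape W A B₄) {x y : K}
    (h : W.toAffine.Equation x y) (hx : v x ≤ 1) (ha₂ : v W.a₂ ≤ 1) (ha₄ : v W.a₄ ≤ 1) :
    v y ≤ 1 := by
  rw [hS.equation_iff] at h
  by_contra hcon
  push Not at hcon
  have hy0 : 0 < v y := lt_trans zero_lt_one hcon
  have e : y ^ 2 = (x ^ 3 + W.a₂ * x ^ 2 + W.a₄ * x) - x * y := by linear_combination h
  have h1 : v (x ^ 3 + W.a₂ * x ^ 2 + W.a₄ * x) ≤ 1 :=
    val_add_le_one v (val_add_le_one v (val_pow_le_one v hx 3)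
      (val_mul_le_one v ha₂ (val_pow_le_one v hx 2))) (val_mul_le_one v ha₄ hx)
  have h2 : v (x * y) ≤ v y := by
    rw [map_mul]
    calc v x * v y ≤ 1 * v y := by gcongr
      _ = v y := one_mul _
  have h3 : v (y ^ 2) ≤ v y := by
    rw [e]
    exact le_trans (v.map_sub _ _) (max_le (le_trans h1 hcon.le) h2)
  have h4 : v y < v (y ^ 2) := by
    rw [map_pow, sq]
    calc v y = 1 * v y := (one_mul _).symm
      _ < v y * v y := mul_lt_mul_of_pos_right hcon hy0
  exact absurd h3 (not_le.mpr h4)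

/-- **Node at `x ≡ 0`** (the case `v a₄ < 1`): an integral point with `v x < 1` reduces to the
singular point, i.e. both partial derivatives are non-units. -/
theorem FreyShape.node_zero (hS : FreyShape W A B₄) {x y : K}
    (h : W.toAffine.Equation x y) (hx : v x < 1) (ha₂ : v W.a₂ ≤ 1)
    (ha₄ : v W.a₄ < 1) :
    v (y - (3 * x ^ 2 + 2 * W.a₂ * x + W.a₄)) < 1 ∧ v (2 * y + x) < 1 := by
  rw [hS.equation_iff] at h
  have e : y * (y + x) = x * (x ^ 2 + W.a₂ * x + W.a₄) := by linear_combination h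
  have h1 : v (y * (y + x)) < 1 := by
    rw [e]
    exact val_mul_lt_one_of_left v hx (val_add_le_one v (val_add_le_one v
      (val_pow_le_one v hx.le 2) (val_mul_le_one v ha₂ hx.le)) ha₄.le)
  have hy' : v y < 1 := by
    rcases val_lt_one_of_mul_lt_one v h1 with h' | h'
    · exact h'
    · have : y = (y + x) - x := by ring
      rw [this]
      exact val_sub_lt_one v h' hx
  refine ⟨?_, ?_⟩
  · refine val_sub_lt_one v hy' (val_add_lt_one v (val_add_lt_one v ?_ ?_) ha₄)
    · exact val_mul_lt_one_of_right v (val_three_le_one v)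
        (by rw [sq]; exact val_mul_lt_one_of_left v hx hx.le)
    · exact val_mul_lt_one_of_right v (val_mul_le_one v (val_two_le_one v) ha₂) hx
  · exact val_add_lt_one v (val_mul_lt_one_of_right v (val_two_le_one v) hy') hx

/-- **Node at `4 x ≡ A`** (the case `v (A + 4 B₄) < 1`, odd residue characteristic): an integral
point with `v (4 x - A) < 1` reduces to the singular point. -/
theorem FreyShape.node_C (hS : FreyShape W A B₄) {x y : K}
    (h : W.toAffine.Equation x y) (hx : v x ≤ 1) (hA : v A ≤ 1) (hB : v B₄ ≤ 1)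
    (h2 : v (2 : K) = 1) (hu : v (4 * x - A) < 1) (hC : v (A + 4 * B₄) < 1) :
    v (y - (3 * x ^ 2 + 2 * W.a₂ * x + W.a₄)) < 1 ∧ v (2 * y + x) < 1 := by
  have h4 := val_four_eq_one v h2
  have hu' : v (4 * x - A) ≤ 1 := hu.le
  have hPY : v (2 * y + x) < 1 := by
    apply val_lt_one_of_pow_lt_one v (n := 2)
    rw [hS.polyY_sq h, mul_assoc]
    exact val_mul_lt_one_of_right v hx
      (val_mul_lt_one_of_left v hu (val_add_le_one v hx hB))
  refine ⟨?_, hPY⟩
  have e : 16 * (y - (3 * x ^ 2 + 2 * W.a₂ * x + W.a₄)) =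
      8 * (2 * y + x) - (4 * x - A) * (3 * (4 * x - A) + 4 * A + 8 * B₄) - A * (A + 4 * B₄) := by
    linear_combination (-8 * x) * hS.a₂ + (-4) * hS.a₄
  have h16 : v (16 : K) = 1 := by
    have : (16 : K) = 4 * 4 := by norm_num
    rw [this, map_mul, h4, one_mul]
  apply val_lt_one_of_unit_mul v h16
  rw [e]
  refine val_sub_lt_one v (val_sub_lt_one v ?_ ?_) ?_
  · have h8 : v (8 : K) ≤ 1 := by
      have : (8 : K) = 2 * 4 := by norm_num
      rw [this]; exact val_mul_le_one v h2.le h4.le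
    exact val_mul_lt_one_of_right v h8 hPY
  · refine val_mul_lt_one_of_left v hu (val_add_le_one v (val_add_le_one v ?_ ?_) ?_)
    · exact val_mul_le_one v (val_three_le_one v) hu'
    · exact val_mul_le_one v h4.le hA
    · have : (8 : K) = 2 * 4 := by norm_num
      rw [this]
      exact val_mul_le_one v (val_mul_le_one v h2.le h4.le) hB
  · exact val_mul_lt_one_of_right v hA hC

/-- Numerator of the duplication formula at `x ≡ 0`. -/
theorem nm_of_x_small {x a₄ : K} (hx : v x < 1) (ha₄ : v a₄ = 1) : v (x ^ 2 - a₄) = 1 :=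
  val_sub_eq_one' v (by rw [sq]; exact val_mul_lt_one_of_left v hx hx.le) ha₄

/-- Numerator of the duplication formula at `4 x ≡ A`. -/
theorem FreyShape.nm_of_u_small (hS : FreyShape W A B₄) {x : K} (h2 : v (2 : K) = 1)
    (hx : v x ≤ 1) (hA : v A ≤ 1) (hu : v (4 * x - A) < 1)
    (hAC : v (A * (A + 4 * B₄)) = 1) : v (x ^ 2 - W.a₄) = 1 := by
  have h4 := val_four_eq_one v h2
  have h16 : v (16 : K) = 1 := by
    have : (16 : K) = 4 * 4 := by norm_num
    rw [this, map_mul, h4, one_mul]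
  apply val_eq_one_of_unit_mul v h16
  have e : 16 * (x ^ 2 - W.a₄) = A * (A + 4 * B₄) + (4 * x - A) * (4 * x + A) := by
    linear_combination (-4) * hS.a₄
  rw [e]
  exact val_add_eq_one v hAC (val_mul_lt_one_of_left v hu
    (val_add_le_one v (val_mul_le_one v h4.le hx) hA))

/-- Numerator of the duplication formula at `x ≡ -B₄`. -/
theorem FreyShape.nm_of_w_small (hS : FreyShape W A B₄) {x : K} (h2 : v (2 : K) = 1)
    (hx : v x ≤ 1) (hB : v B₄ ≤ 1) (hw : v (x + B₄) < 1)
    (hBC : v (B₄ * (A + 4 * B₄)) = 1) : v (x ^ 2 - W.a₄) = 1 := by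
  have h4 := val_four_eq_one v h2
  apply val_eq_one_of_unit_mul v h4
  have e : 4 * (x ^ 2 - W.a₄) = B₄ * (A + 4 * B₄) + (x + B₄) * (4 * (x - B₄)) := by
    linear_combination (-1) * hS.a₄
  rw [e]
  exact val_add_eq_one v hBC (val_mul_lt_one_of_left v hw
    (val_mul_le_one v h4.le (val_sub_le_one v hx hB)))

/-- `v a₄` in terms of `v A`, `v B₄` in odd residue characteristic. -/
theorem FreyShape.val_a₄ (hS : FreyShape W A B₄) (h2 : v (2 : K) = 1) :
    v W.a₄ = v A * v B₄ := by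
  have h4 := val_four_eq_one v h2
  have := congrArg v hS.a₄
  rwa [map_mul, h4, one_mul, Valuation.map_neg, map_mul] at this

/-- **(c1) good odd primes**: if the abscissae of the point and of its double are integral,
then `x`, `4 x - A`, `x + B₄` are units. -/
theorem FreyShape.units_good (hS : FreyShape W A B₄) (h2 : v (2 : K) = 1) (hA : v A = 1)
    (hB : v B₄ = 1) (hC : v (A + 4 * B₄) = 1) {x X₂ : K} (hx : v x ≤ 1) (hX₂ : v X₂ ≤ 1)
    (hdup : X₂ * (x * (4 * x - A) * (x + B₄)) = (x ^ 2 - W.a₄) ^ 2) :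
    v x = 1 ∧ v (4 * x - A) = 1 ∧ v (x + B₄) = 1 := by
  have h4 := val_four_eq_one v h2
  have ha₄ : v W.a₄ = 1 := by rw [hS.val_a₄ v h2, hA, hB, one_mul]
  have hu : v (4 * x - A) ≤ 1 := val_sub_le_one v (val_mul_le_one v h4.le hx) hA.le
  have hw : v (x + B₄) ≤ 1 := val_add_le_one v hx hB.le
  have hcontra : ∀ {N : K}, v (x * (4 * x - A) * (x + B₄)) < 1 → v (x ^ 2 - W.a₄) = 1 → False := by
    intro _ hD hN
    exact absurd hX₂ (not_le.mpr (dup_not_integral v hD hN hdup))
  refine ⟨?_, ?_, ?_⟩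
  · by_contra hcon
    have hx' : v x < 1 := lt_of_le_of_ne hx hcon
    exact hcontra (N := 0) (val_mul_lt_one_of_left v (val_mul_lt_one_of_left v hx' hu) hw)
      (nm_of_x_small v hx' ha₄)
  · by_contra hcon
    have hu' : v (4 * x - A) < 1 := lt_of_le_of_ne hu hcon
    exact hcontra (N := 0) (val_mul_lt_one_of_left v (val_mul_lt_one_of_right v hx hu') hw)
      (hS.nm_of_u_small v h2 hx hA.le hu' (by rw [map_mul, hA, hC, one_mul]))
  · by_contra hcon
    have hw' : v (x + B₄) < 1 := lt_of_le_of_ne hw hcon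
    exact hcontra (N := 0) (val_mul_lt_one_of_right v (val_mul_le_one v hx hu) hw')
      (hS.nm_of_w_small v h2 hx hB.le hw' (by rw [map_mul, hB, hC, one_mul]))

/-- **(c2), case `v A < 1`** (odd prime dividing `a`): a point with integral coordinates that
does not reduce to the singular point, and whose double has integral abscissa. -/
theorem FreyShape.units_of_A_small (hS : FreyShape W A B₄) (h2 : v (2 : K) = 1) (hA : v A < 1)
    (hB : v B₄ = 1) (hC : v (A + 4 * B₄) = 1) (ha₂ : v W.a₂ ≤ 1) {x y X₂ : K}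
    (h : W.toAffine.Equation x y) (hx : v x ≤ 1) (hX₂ : v X₂ ≤ 1)
    (hdup : X₂ * (x * (4 * x - A) * (x + B₄)) = (x ^ 2 - W.a₄) ^ 2)
    (hns : ¬ (v (y - (3 * x ^ 2 + 2 * W.a₂ * x + W.a₄)) < 1 ∧ v (2 * y + x) < 1)) :
    v x = 1 ∧ v (4 * x - A) = 1 ∧ v (x + B₄) = 1 := by
  have h4 := val_four_eq_one v h2
  have ha₄ : v W.a₄ < 1 := by rw [hS.val_a₄ v h2, hB, mul_one]; exact hA
  have hx1 : v x = 1 := by
    by_contra hcon
    exact hns (hS.node_zero v h (lt_of_le_of_ne hx hcon) ha₂ ha₄)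
  have hu : v (4 * x - A) = 1 :=
    val_sub_eq_one v (by rw [map_mul, h4, hx1, one_mul]) hA
  refine ⟨hx1, hu, ?_⟩
  by_contra hcon
  have hw' : v (x + B₄) < 1 := lt_of_le_of_ne (val_add_le_one v hx hB.le) hcon
  have hD : v (x * (4 * x - A) * (x + B₄)) < 1 :=
    val_mul_lt_one_of_right v (val_mul_le_one v hx hu.le) hw'
  have hN := hS.nm_of_w_small v h2 hx hB.le hw' (by rw [map_mul, hB, hC, one_mul])
  exact absurd hX₂ (not_le.mpr (dup_not_integral v hD hN hdup))

/-- **(c2), case `v B₄ < 1`** (odd prime dividing `b`). -/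
theorem FreyShape.units_of_B_small (hS : FreyShape W A B₄) (h2 : v (2 : K) = 1) (hA : v A = 1)
    (hB : v B₄ < 1) (hC : v (A + 4 * B₄) = 1) (ha₂ : v W.a₂ ≤ 1) {x y X₂ : K}
    (h : W.toAffine.Equation x y) (hx : v x ≤ 1) (hX₂ : v X₂ ≤ 1)
    (hdup : X₂ * (x * (4 * x - A) * (x + B₄)) = (x ^ 2 - W.a₄) ^ 2)
    (hns : ¬ (v (y - (3 * x ^ 2 + 2 * W.a₂ * x + W.a₄)) < 1 ∧ v (2 * y + x) < 1)) :
    v x = 1 ∧ v (4 * x - A) = 1 ∧ v (x + B₄) = 1 := by
  have h4 := val_four_eq_one v h2
  have ha₄ : v W.a₄ < 1 := by rw [hS.val_a₄ v h2, hA, one_mul]; exact hB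
  have hx1 : v x = 1 := by
    by_contra hcon
    exact hns (hS.node_zero v h (lt_of_le_of_ne hx hcon) ha₂ ha₄)
  have hw : v (x + B₄) = 1 := val_add_eq_one v hx1 hB
  refine ⟨hx1, ?_, hw⟩
  by_contra hcon
  have hu' : v (4 * x - A) < 1 :=
    lt_of_le_of_ne (val_sub_le_one v (val_mul_le_one v h4.le hx) hA.le) hcon
  have hD : v (x * (4 * x - A) * (x + B₄)) < 1 :=
    val_mul_lt_one_of_left v (val_mul_lt_one_of_right v hx hu') hw.le
  have hN := hS.nm_of_u_small v h2 hx hA.le hu' (by rw [map_mul, hA, hC, one_mul])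
  exact absurd hX₂ (not_le.mpr (dup_not_integral v hD hN hdup))

/-- **(c2), case `v (A + 4 B₄) < 1`** (odd prime dividing `c`). -/
theorem FreyShape.units_of_C_small (hS : FreyShape W A B₄) (h2 : v (2 : K) = 1) (hA : v A = 1)
    (hB : v B₄ = 1) (hC : v (A + 4 * B₄) < 1) {x y X₂ : K}
    (h : W.toAffine.Equation x y) (hx : v x ≤ 1) (hX₂ : v X₂ ≤ 1)
    (hdup : X₂ * (x * (4 * x - A) * (x + B₄)) = (x ^ 2 - W.a₄) ^ 2)
    (hns : ¬ (v (y - (3 * x ^ 2 + 2 * W.a₂ * x + W.a₄)) < 1 ∧ v (2 * y + x) < 1)) :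
    v x = 1 ∧ v (4 * x - A) = 1 ∧ v (x + B₄) = 1 := by
  have h4 := val_four_eq_one v h2
  have ha₄ : v W.a₄ = 1 := by rw [hS.val_a₄ v h2, hA, hB, one_mul]
  have hu : v (4 * x - A) = 1 := by
    by_contra hcon
    have hu' : v (4 * x - A) < 1 :=
      lt_of_le_of_ne (val_sub_le_one v (val_mul_le_one v h4.le hx) hA.le) hcon
    exact hns (hS.node_C v h hx hA.le hB.le h2 hu' hC)
  have hw : v (x + B₄) = 1 := by
    apply val_eq_one_of_unit_mul v h4
    have e : 4 * (x + B₄) = (4 * x - A) + (A + 4 * B₄) := by ring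
    rw [e]
    exact val_add_eq_one v hu hC
  refine ⟨?_, hu, hw⟩
  by_contra hcon
  have hx' : v x < 1 := lt_of_le_of_ne hx hcon
  have hD : v (x * (4 * x - A) * (x + B₄)) < 1 :=
    val_mul_lt_one_of_left v (val_mul_lt_one_of_left v hx' hu.le) hw.le
  exact absurd hX₂ (not_le.mpr (dup_not_integral v hD (nm_of_x_small v hx' ha₄) hdup))

/-- **(c3) residue characteristic two**: `v 2 < 1`, `A` a unit, `B₄` and `a₄` non-units. A point
with integral coordinates that does not reduce to the singular point has unit abscissa. -/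
theorem FreyShape.units_two (hS : FreyShape W A B₄) (h2 : v (2 : K) < 1) (hA : v A = 1)
    (hB : v B₄ < 1) (ha₂ : v W.a₂ ≤ 1) (ha₄ : v W.a₄ < 1) {x y : K}
    (h : W.toAffine.Equation x y) (hx : v x ≤ 1)
    (hns : ¬ (v (y - (3 * x ^ 2 + 2 * W.a₂ * x + W.a₄)) < 1 ∧ v (2 * y + x) < 1)) :
    v x = 1 ∧ v (4 * x - A) = 1 ∧ v (x + B₄) = 1 := by
  have hx1 : v x = 1 := by
    by_contra hcon
    exact hns (hS.node_zero v h (lt_of_le_of_ne hx hcon) ha₂ ha₄)
  exact ⟨hx1, val_sub_eq_one' v (val_mul_lt_one_of_left v (val_four_lt_one v h2) hx) hA,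
    val_add_eq_one v hx1 hB⟩

/-- **Consumer shape from the three units.** -/
theorem eta_of_units {A B₄ x : K} (hx : v x = 1) (hu : v (4 * x - A) = 1)
    (hw : v (x + B₄) = 1) :
    x ≠ 0 ∧ x + B₄ ≠ 0 ∧ v (4 - A / x) = 1 ∧ v (4 - (A + 4 * B₄) / (x + B₄)) = 1 ∧
      v (1 / x) ≤ 1 ∧ v (1 / (x + B₄)) ≤ 1 := by
  have hx0 : x ≠ 0 := by
    rintro rfl; rw [map_zero] at hx; exact zero_ne_one hx
  have hw0 : x + B₄ ≠ 0 := by
    intro h0; rw [h0, map_zero] at hw; exact zero_ne_one hw
  refine ⟨hx0, hw0, ?_, ?_, ?_, ?_⟩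
  · have e : 4 - A / x = (4 * x - A) / x := by field_simp
    rw [e, map_div₀, hu, hx, div_one]
  · have e : 4 - (A + 4 * B₄) / (x + B₄) = (4 * x - A) / (x + B₄) := by
      field_simp; ring
    rw [e, map_div₀, hu, hw, div_one]
  · rw [map_div₀, map_one, hx, div_one]
  · rw [map_div₀, map_one, hw, div_one]

/-- **Consumer shape in the kernel of reduction** (`1 < v x`, odd residue characteristic). -/
theorem eta_of_ker {A B₄ x : K} (h2 : v (2 : K) = 1) (hA : v A ≤ 1) (hB : v B₄ ≤ 1)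
    (hx : 1 < v x) :
    x ≠ 0 ∧ x + B₄ ≠ 0 ∧ v (4 - A / x) = 1 ∧ v (4 - (A + 4 * B₄) / (x + B₄)) = 1 ∧
      v (1 / x) ≤ 1 ∧ v (1 / (x + B₄)) ≤ 1 := by
  have h4 := val_four_eq_one v h2
  have hx0 : x ≠ 0 := by
    rintro rfl; rw [map_zero] at hx; exact not_lt_zero hx
  have hvx0 : 0 < v x := lt_trans zero_lt_one hx
  have hw : v (x + B₄) = v x := v.map_add_eq_of_lt_left (lt_of_le_of_lt hB hx)
  have hw0 : x + B₄ ≠ 0 := by
    intro h0; rw [h0, map_zero] at hw; exact absurd hw.symm (ne_of_gt hvx0)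
  have hC : v (A + 4 * B₄) ≤ 1 := val_add_le_one v hA (val_mul_le_one v h4.le hB)
  refine ⟨hx0, hw0, ?_, ?_, ?_, ?_⟩
  · refine val_sub_eq_one v h4 ?_
    rw [map_div₀, div_lt_one₀ hvx0]
    exact lt_of_le_of_lt hA hx
  · refine val_sub_eq_one v h4 ?_
    rw [map_div₀, hw, div_lt_one₀ hvx0]
    exact lt_of_le_of_lt hC hx
  · rw [map_div₀, map_one, div_le_one₀ hvx0]; exact hx.le
  · rw [map_div₀, map_one, hw, div_le_one₀ hvx0]; exact hx.le

end Val

end

end Fermat.Agent.S12.helper135
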