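import Mathlib
import Fermat.Prelude.Def_FLTPrelim_FreyPackage
import Fermat.Prelude.Def_FLTPrelim_GaloisRep
import Fermat.Prelude.Def_FLTPrelim_Ramification
import Fermat.Prelude.Def_FLTPrelim_CofixedLine
import Fermat.Prelude.Def_EllipticCurve_ZeroComponentAt

/-!
# S12 spec (helper4647): the frozen statement S12 from the pair form of the Mazur step

Vocabulary.  `W : WeierstrassCurve ℤ` is an integral model, its points live on
`(W.map (Int.castRingHom ℚ))⁄Qbar`; for the Frey curve `W = P.freyCurveInt`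
(`freyCurveInt_map : P.freyCurveInt.map (Int.castRingHom ℚ) = P.freyCurve`).
The minimal Frey model is `y² + x y = x³ + a₂ x² + a₄ x`, `a₂ = (B - 1 - A)/4`,
`a₄ = - A B / 16`, `A = a ^ p`, `B = b ^ p`, `C = c ^ p = A + B`; with `X = 4 x`,
`Y = 8 y + 4 x` it is `Y² = X (X - A) (X + B)`.

The Props:
* `Stmt_G p`     : pair form of the Mazur step (the global input, S15-type theory);
* `LeafTwo`      : a cofixed line of a Frey curve lies in the zero component at `2`;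
* `LeafThree`    : `3 ∣ a b c` and the cofixed line lies in the zero component at `3`;
* `LeafPmCof`    : the cofixed line lies in the zero component at the odd primes
                   `ℓ ≠ p` dividing `a b c` with `¬ p ∣ ℓ ^ 2 - 1`;
* `LeafUnits`    : zero component at the bad primes `≠ p` gives the unit conditions at
                   every place of `Qbar`;
* `Stmt_Units`   : the unit conditions (what the endgame consumes).
`stmt_units_of` wires the first five into the last one.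
-/

set_option autoImplicit false

namespace Fermat.Agent.S12.helper4647

open WeierstrassCurve WeierstrassCurve.Affine WeierstrassCurve.Affine.Point

local notation "Qbar" => AlgebraicClosure ℚ

/-- `N` is a Galois-stable cofixed line of the `p`-torsion of the integral model `W`
(the body of the frozen `HasGaloisStableCofixedLine`). -/
def IsCofixedLine (W : WeierstrassCurve ℤ) (p : ℕ)
    (N : Submodule (ZMod p)
      (Submodule.torsionBy ℤ ((W.map (Int.castRingHom ℚ))⁄Qbar).Point p)) : Prop :=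
  IsGaloisStable ℚ N ∧ N ≠ ⊥ ∧ N ≠ ⊤ ∧
    ∀ (σ : Qbar ≃ₐ[ℚ] Qbar)
      (x : Submodule.torsionBy ℤ ((W.map (Int.castRingHom ℚ))⁄Qbar).Point p), σ • x - x ∈ N

theorem hasCofixedLine_iff (W : WeierstrassCurve ℤ) (p : ℕ) :
    HasGaloisStableCofixedLine (K := Qbar) ℚ (W.map (Int.castRingHom ℚ)) p ↔
      ∃ N, IsCofixedLine W p N :=
  Iff.rfl

/-- Every point of `N` lies in the zero component at every valuation ring over `ℓ`. -/
def ZeroCompAt (W : WeierstrassCurve ℤ) (p : ℕ)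
    (N : Submodule (ZMod p)
      (Submodule.torsionBy ℤ ((W.map (Int.castRingHom ℚ))⁄Qbar).Point p)) (ℓ : ℕ) : Prop :=
  ∀ A : ValuationSubring Qbar, A.LiesOverPrime ℓ →
    ∀ x ∈ N, W.InZeroComponentAt A (x : ((W.map (Int.castRingHom ℚ))⁄Qbar).Point)

/-- **Pair form of the Mazur step** (cusp `∞` twin of the frozen S15), line form: a
Galois-stable line `L` of `E[p]` which lies in the zero component at `2` and at `3` (both
multiplicative) lies in the zero component at every multiplicative prime `ℓ ≠ p` with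
`p ∣ ℓ ^ 2 - 1`.

The binder `p ∣ ℓ ^ 2 - 1` is necessary for the Eisenstein descent (it needs a prime
`r ∣ ord ((0) - (∞))` with `r ≠ ℓ`; `p ∣ ℓ ^ 2 - 1` gives `ℓ ≥ 2 p - 1 > r`).  The frozen S15
gets it from its rational point (`LPM`), S12 from the leaf `LeafPmCof`. -/
def Stmt_G (p : ℕ) : Prop :=
  ∀ (W : WeierstrassCurve ℤ), W.Δ ≠ 0 →
  ∀ (L : Submodule (ZMod p)
      (Submodule.torsionBy ℤ ((W.map (Int.castRingHom ℚ))⁄Qbar).Point p)),
    IsGaloisStable ℚ L → L ≠ ⊥ → L ≠ ⊤ →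
    (2 : ℤ) ∣ W.Δ → ¬ (2 : ℤ) ∣ W.c₄ → ZeroCompAt W p L 2 →
    (3 : ℤ) ∣ W.Δ → ¬ (3 : ℤ) ∣ W.c₄ → ZeroCompAt W p L 3 →
    ∀ ℓ : ℕ, ℓ.Prime → ℓ ≠ p → (ℓ : ℤ) ∣ W.Δ → ¬ (ℓ : ℤ) ∣ W.c₄ → p ∣ ℓ ^ 2 - 1 →
      ZeroCompAt W p L ℓ

/-- **Leaf (a)**: a cofixed line of a Frey curve lies in the zero component at `2`. -/
def LeafTwo : Prop :=
  ∀ (P : FreyPackage), 17 ≤ P.p →
  ∀ (N : Submodule (ZMod P.p)
      (Submodule.torsionBy ℤ ((P.freyCurveInt.map (Int.castRingHom ℚ))⁄Qbar).Point P.p)),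
    IsCofixedLine P.freyCurveInt P.p N → ZeroCompAt P.freyCurveInt P.p N 2

/-- **Leaf (b)**: if a Frey curve has a cofixed line then `3 ∣ a b c`, and the line lies in
the zero component at `3`. -/
def LeafThree : Prop :=
  ∀ (P : FreyPackage), 17 ≤ P.p →
  ∀ (N : Submodule (ZMod P.p)
      (Submodule.torsionBy ℤ ((P.freyCurveInt.map (Int.castRingHom ℚ))⁄Qbar).Point P.p)),
    IsCofixedLine P.freyCurveInt P.p N →
      (3 : ℤ) ∣ P.a * P.b * P.c ∧ ZeroCompAt P.freyCurveInt P.p N 3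

/-- **Leaf (b1)**: if a Frey curve has a cofixed line then `3 ∣ a b c`. -/
def LeafThreeDvd : Prop :=
  ∀ (P : FreyPackage), 17 ≤ P.p →
  ∀ (N : Submodule (ZMod P.p)
      (Submodule.torsionBy ℤ ((P.freyCurveInt.map (Int.castRingHom ℚ))⁄Qbar).Point P.p)),
    IsCofixedLine P.freyCurveInt P.p N → (3 : ℤ) ∣ P.a * P.b * P.c

/-- **Leaf (PM-COF)**: a cofixed line of a Frey curve lies in the zero component at every
odd prime `ℓ ≠ p` dividing `a b c` with `¬ p ∣ ℓ ^ 2 - 1`.  (Contrapositive: if some point of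
the line is not in the zero component at `A` over `ℓ`, there is a nonzero `p`-torsion point
in the zero component fixed by the decomposition group of `A`, whence `p ∣ ℓ ^ 2 - 1`.) -/
def LeafPmCof : Prop :=
  ∀ (P : FreyPackage), 17 ≤ P.p →
  ∀ (N : Submodule (ZMod P.p)
      (Submodule.torsionBy ℤ ((P.freyCurveInt.map (Int.castRingHom ℚ))⁄Qbar).Point P.p)),
    IsCofixedLine P.freyCurveInt P.p N →
    ∀ ℓ : ℕ, ℓ.Prime → ℓ ≠ 2 → ℓ ≠ P.p → (ℓ : ℤ) ∣ P.a * P.b * P.c → ¬ P.p ∣ ℓ ^ 2 - 1 →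
      ZeroCompAt P.freyCurveInt P.p N ℓ

/-- (b) from (b1) and (PM-COF) at `ℓ = 3` (`p ∤ 8`). -/
theorem leafThree_of (h3 : LeafThreeDvd) (hPM : LeafPmCof) : LeafThree := by
  intro P hp N hN
  have h3abc := h3 P hp N hN
  refine ⟨h3abc, hPM P hp N hN 3 Nat.prime_three (by norm_num) (by omega)
    (by exact_mod_cast h3abc) ?_⟩
  intro hdvd
  have h8 : P.p ∣ 8 := by simpa using hdvd
  have := Nat.le_of_dvd (by norm_num) h8
  omega

/-- The unit conditions at the valuation ring `O` for a point with first coordinate `x`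
(minimal model): with `η = 4 - A / x` and `η' = 4 - C / (x + B / 4)`
(`= 4 (X - A) / X` and `4 (X - A) / (X + B)` for `X = 4 x`), both are units of `O`, and
`1 / x`, `1 / (x + B / 4)` are integral. -/
def UnitsAt (P : FreyPackage) (O : ValuationSubring Qbar) (x : Qbar) : Prop :=
  x⁻¹ ∈ O ∧ (x + (P.b : Qbar) ^ P.p / 4)⁻¹ ∈ O ∧
    O.valuation (4 - (P.a : Qbar) ^ P.p * x⁻¹) = 1 ∧
    O.valuation (4 - (P.c : Qbar) ^ P.p * (x + (P.b : Qbar) ^ P.p / 4)⁻¹) = 1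

/-- **Leaf (c)**: for a cofixed line `N` of a Frey curve which lies in the zero component at
every prime `ℓ ≠ p` dividing `a b c`, the unit conditions hold for every affine point of `N`
at every valuation ring of `Qbar` over every prime (`2`, `p`, good and bad alike). -/
def LeafUnits : Prop :=
  ∀ (P : FreyPackage), 17 ≤ P.p →
  ∀ (N : Submodule (ZMod P.p)
      (Submodule.torsionBy ℤ ((P.freyCurveInt.map (Int.castRingHom ℚ))⁄Qbar).Point P.p)),
    IsCofixedLine P.freyCurveInt P.p N →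
    (∀ ℓ : ℕ, ℓ.Prime → ℓ ≠ P.p → (ℓ : ℤ) ∣ P.a * P.b * P.c →
      ZeroCompAt P.freyCurveInt P.p N ℓ) →
    ∀ ℓ : ℕ, ℓ.Prime → ∀ O : ValuationSubring Qbar, O.LiesOverPrime ℓ →
    ∀ S ∈ N, ∀ (x y : Qbar)
      (h : ((P.freyCurveInt.map (Int.castRingHom ℚ))⁄Qbar).toAffine.Nonsingular x y),
      (S : ((P.freyCurveInt.map (Int.castRingHom ℚ))⁄Qbar).Point) = .some x y h →
      UnitsAt P O x

/-- **The unit statement** consumed by the endgame. -/
def Stmt_Units : Prop :=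
  ∀ (P : FreyPackage), 17 ≤ P.p →
  ∀ (N : Submodule (ZMod P.p)
      (Submodule.torsionBy ℤ ((P.freyCurveInt.map (Int.castRingHom ℚ))⁄Qbar).Point P.p)),
    IsCofixedLine P.freyCurveInt P.p N →
    ∀ ℓ : ℕ, ℓ.Prime → ∀ O : ValuationSubring Qbar, O.LiesOverPrime ℓ →
    ∀ S ∈ N, ∀ (x y : Qbar)
      (h : ((P.freyCurveInt.map (Int.castRingHom ℚ))⁄Qbar).toAffine.Nonsingular x y),
      (S : ((P.freyCurveInt.map (Int.castRingHom ℚ))⁄Qbar).Point) = .some x y h →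
      UnitsAt P O x

/-! ### Elementary facts on the integral Frey curve -/

/-- `4 ∣ b ^ p - 1 - a ^ p`. -/
theorem four_dvd_a2_num (P : FreyPackage) : (4 : ℤ) ∣ P.b ^ P.p - 1 - P.a ^ P.p := by
  have hb : (2 : ℤ) ∣ P.b := (ZMod.intCast_zmod_eq_zero_iff_dvd P.b 2).1 P.hb2
  have hp5 := P.hp5
  have hb4 : (4 : ℤ) ∣ P.b ^ P.p := by
    have h1 : (2 : ℤ) ^ 2 ∣ P.b ^ 2 := pow_dvd_pow_of_dvd hb 2
    have h2 : P.b ^ 2 ∣ P.b ^ P.p := pow_dvd_pow _ (by omega)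
    exact (by norm_num : (4 : ℤ) = 2 ^ 2) ▸ h1.trans h2
  have ha : ((P.a ^ P.p : ℤ) : ZMod 4) = 3 := by
    push_cast
    rw [P.ha4]
    have h3 : (3 : ZMod 4) = -1 := by decide
    rw [h3, P.hp_odd.neg_one_pow]
  have h14 : (4 : ℤ) ∣ 1 + P.a ^ P.p := by
    have h4 : ((4 : ℕ) : ℤ) ∣ 1 + P.a ^ P.p := by
      rw [← ZMod.intCast_zmod_eq_zero_iff_dvd]
      push_cast
      push_cast at ha
      rw [ha]
      decide
    exact_mod_cast h4
  have : P.b ^ P.p - 1 - P.a ^ P.p = P.b ^ P.p - (1 + P.a ^ P.p) := by ring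
  rw [this]
  exact dvd_sub hb4 h14

/-- `16 ∣ -(a ^ p) * b ^ p`. -/
theorem sixteen_dvd_a4_num (P : FreyPackage) : (16 : ℤ) ∣ -(P.a ^ P.p) * (P.b ^ P.p) := by
  have hb : (2 : ℤ) ∣ P.b := (ZMod.intCast_zmod_eq_zero_iff_dvd P.b 2).1 P.hb2
  have hp5 := P.hp5
  have h1 : (2 : ℤ) ^ 4 ∣ P.b ^ 4 := pow_dvd_pow_of_dvd hb 4
  have h2 : P.b ^ 4 ∣ P.b ^ P.p := pow_dvd_pow _ (by omega)
  exact Dvd.dvd.mul_left ((by norm_num : (16 : ℤ) = 2 ^ 4) ▸ h1.trans h2) _

/-- The integral Frey curve base-changes to the rational Frey curve. -/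
theorem freyCurveInt_map (P : FreyPackage) :
    P.freyCurveInt.map (Int.castRingHom ℚ) = P.freyCurve := by
  have h4 := four_dvd_a2_num P
  have h16 := sixteen_dvd_a4_num P
  ext
  · simp [FreyPackage.freyCurveInt, FreyPackage.freyCurve]
  · simp only [FreyPackage.freyCurveInt, FreyPackage.freyCurve, WeierstrassCurve.map_a₂,
      eq_intCast]
    rw [Int.cast_div h4 (by norm_num)]
    push_cast
    ring
  · simp [FreyPackage.freyCurveInt, FreyPackage.freyCurve]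
  · simp only [FreyPackage.freyCurveInt, FreyPackage.freyCurve, WeierstrassCurve.map_a₄,
      eq_intCast]
    rw [Int.cast_div h16 (by norm_num)]
    push_cast
    ring
  · simp [FreyPackage.freyCurveInt, FreyPackage.freyCurve]

/-- `4 * a₂ = B - 1 - A` on the integral Frey curve. -/
theorem freyCurveInt_four_a₂ (P : FreyPackage) :
    4 * P.freyCurveInt.a₂ = P.b ^ P.p - 1 - P.a ^ P.p := by
  change 4 * ((P.b ^ P.p - 1 - P.a ^ P.p) / 4) = _
  exact Int.mul_ediv_cancel' (four_dvd_a2_num P)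

/-- `16 * a₄ = - A B` on the integral Frey curve. -/
theorem freyCurveInt_sixteen_a₄ (P : FreyPackage) :
    16 * P.freyCurveInt.a₄ = -(P.a ^ P.p) * (P.b ^ P.p) := by
  change 16 * (-(P.a ^ P.p) * (P.b ^ P.p) / 16) = _
  exact Int.mul_ediv_cancel' (sixteen_dvd_a4_num P)

/-- Discriminant of the integral Frey curve: `Δ * 2 ^ 8 = (a b c) ^ (2 p)`. -/
theorem freyCurveInt_Δ (P : FreyPackage) :
    P.freyCurveInt.Δ * 2 ^ 8 = (P.a * P.b * P.c) ^ (2 * P.p) := by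
  have h2 := freyCurveInt_four_a₂ P
  have h4 := freyCurveInt_sixteen_a₄ P
  have h1 : P.freyCurveInt.a₁ = 1 := rfl
  have h3 : P.freyCurveInt.a₃ = 0 := rfl
  have h6 : P.freyCurveInt.a₆ = 0 := rfl
  have hc : P.c ^ P.p = P.a ^ P.p + P.b ^ P.p := P.hFLT.symm
  have : (P.a * P.b * P.c) ^ (2 * P.p)
      = (P.a ^ P.p) ^ 2 * (P.b ^ P.p) ^ 2 * (P.c ^ P.p) ^ 2 := by
    rw [mul_pow, mul_pow, mul_comm 2 P.p, pow_mul, pow_mul, pow_mul]
  rw [this, hc]
  simp only [WeierstrassCurve.Δ, WeierstrassCurve.b₂, WeierstrassCurve.b₄, WeierstrassCurve.b₆,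
    WeierstrassCurve.b₈, h1, h3, h6]
  linear_combination
    ((16 * P.freyCurveInt.a₄ - P.a ^ P.p * P.b ^ P.p) * (P.a ^ P.p + P.b ^ P.p) ^ 2
        - 4 * (16 * P.freyCurveInt.a₄) ^ 2) * h4
      + ((16 * P.freyCurveInt.a₄) ^ 2
        * (4 * P.freyCurveInt.a₂ + P.b ^ P.p - P.a ^ P.p + 1)) * h2

theorem freyCurveInt_Δ_ne_zero (P : FreyPackage) : P.freyCurveInt.Δ ≠ 0 := by
  intro h0
  have h := freyCurveInt_Δ P
  rw [h0, zero_mul] at h
  exact pow_ne_zero _ P.habc0 h.symm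

/-- `c₄` of the integral Frey curve: `c₄ = A² + A B + B²`. -/
theorem freyCurveInt_c₄ (P : FreyPackage) :
    P.freyCurveInt.c₄ = (P.a ^ P.p) ^ 2 + P.a ^ P.p * P.b ^ P.p + (P.b ^ P.p) ^ 2 := by
  have h2 := freyCurveInt_four_a₂ P
  have h4 := freyCurveInt_sixteen_a₄ P
  have h1 : P.freyCurveInt.a₁ = 1 := rfl
  have h3 : P.freyCurveInt.a₃ = 0 := rfl
  simp only [WeierstrassCurve.c₄, WeierstrassCurve.b₂, WeierstrassCurve.b₄, h1, h3]
  linear_combination (4 * P.freyCurveInt.a₂ + P.b ^ P.p - P.a ^ P.p + 1) * h2 - 3 * h4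

/-- A prime dividing `a b c` divides the discriminant of the integral Frey curve. -/
theorem dvd_Δ_of_dvd_abc (P : FreyPackage) {q : ℕ} (hq : q.Prime)
    (h : (q : ℤ) ∣ P.a * P.b * P.c) : (q : ℤ) ∣ P.freyCurveInt.Δ := by
  have hqi : Prime (q : ℤ) := Nat.prime_iff_prime_int.mp hq
  have hp5 := P.hp5
  by_cases hq2 : q = 2
  · -- `2 ^ 10 ∣ b ^ (2 p)`
    subst hq2
    have hb : (2 : ℤ) ∣ P.b := (ZMod.intCast_zmod_eq_zero_iff_dvd P.b 2).1 P.hb2
    have h1 : (2 : ℤ) ^ 10 ∣ (P.a * P.b * P.c) ^ (2 * P.p) := by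
      have h2 : (2 : ℤ) ^ 10 ∣ (P.a * P.b * P.c) ^ 10 :=
        pow_dvd_pow_of_dvd (Dvd.dvd.mul_right (Dvd.dvd.mul_left hb _) _) 10
      exact h2.trans (pow_dvd_pow _ (by omega))
    rw [← freyCurveInt_Δ] at h1
    have h3 : (2 : ℤ) ^ 8 * 2 ^ 2 ∣ 2 ^ 8 * P.freyCurveInt.Δ := by
      rw [mul_comm ((2 : ℤ) ^ 8) P.freyCurveInt.Δ]
      exact (by norm_num : (2 : ℤ) ^ 8 * 2 ^ 2 = 2 ^ 10) ▸ h1
    have h4 : (2 : ℤ) ^ 2 ∣ P.freyCurveInt.Δ :=
      (mul_dvd_mul_iff_left (by norm_num : (2 : ℤ) ^ 8 ≠ 0)).mp h3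
    exact (dvd_pow_self (2 : ℤ) two_ne_zero).trans h4
  · have h1 : (q : ℤ) ∣ P.freyCurveInt.Δ * 2 ^ 8 := by
      rw [freyCurveInt_Δ]
      exact dvd_pow h (by omega)
    rcases hqi.dvd_or_dvd h1 with h2 | h2
    · exact h2
    · exfalso
      have h3 : (q : ℤ) ∣ 2 := hqi.dvd_of_dvd_pow h2
      have h4 : q ∣ 2 := by exact_mod_cast h3
      exact hq2 ((Nat.prime_dvd_prime_iff_eq hq Nat.prime_two).mp h4)

/-- A prime cannot divide two coprime integers. -/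
theorem not_prime_dvd_both {x y : ℤ} (hxy : gcd x y = 1) {q : ℕ} (hq : q.Prime)
    (hx : (q : ℤ) ∣ x) (hy : (q : ℤ) ∣ y) : False := by
  have h1 : (q : ℤ) ∣ gcd x y := dvd_gcd hx hy
  rw [hxy] at h1
  have h2 : (q : ℤ) ≤ 1 := Int.le_of_dvd one_pos h1
  have := hq.two_le
  omega

/-- No prime divides `c₄` and `a b c` simultaneously (semistability of the Frey curve). -/
theorem not_dvd_c₄_of_dvd_abc (P : FreyPackage) {q : ℕ} (hq : q.Prime)
    (habc : (q : ℤ) ∣ P.a * P.b * P.c) : ¬ (q : ℤ) ∣ P.freyCurveInt.c₄ := by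
  intro hqc4
  have hqi : Prime (q : ℤ) := Nat.prime_iff_prime_int.mp hq
  rw [freyCurveInt_c₄] at hqc4
  have hp0 : P.p ≠ 0 := P.hp0
  have hpow : ∀ x : ℤ, (q : ℤ) ∣ x ^ P.p → (q : ℤ) ∣ x := fun x hx => hqi.dvd_of_dvd_pow hx
  rcases hqi.dvd_or_dvd habc with hab | hc
  · rcases hqi.dvd_or_dvd hab with ha | hb
    · have hA : (q : ℤ) ∣ P.a ^ P.p := dvd_pow ha hp0
      have hB2 : (q : ℤ) ∣ (P.b ^ P.p) ^ 2 := by
        have h1 : (q : ℤ) ∣ (P.a ^ P.p) ^ 2 + P.a ^ P.p * P.b ^ P.p :=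
          dvd_add (dvd_pow hA two_ne_zero) (Dvd.dvd.mul_right hA _)
        exact (dvd_add_right h1).mp hqc4
      exact not_prime_dvd_both P.hgcdab hq ha (hpow _ (hqi.dvd_of_dvd_pow hB2))
    · have hB : (q : ℤ) ∣ P.b ^ P.p := dvd_pow hb hp0
      have hA2 : (q : ℤ) ∣ (P.a ^ P.p) ^ 2 := by
        have h1 : (q : ℤ) ∣ P.a ^ P.p * P.b ^ P.p + (P.b ^ P.p) ^ 2 :=
          dvd_add (Dvd.dvd.mul_left hB _) (dvd_pow hB two_ne_zero)
        have h2 : (P.a ^ P.p) ^ 2 + P.a ^ P.p * P.b ^ P.p + (P.b ^ P.p) ^ 2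
            = (P.a ^ P.p) ^ 2 + (P.a ^ P.p * P.b ^ P.p + (P.b ^ P.p) ^ 2) := by ring
        rw [h2] at hqc4
        exact (dvd_add_left h1).mp hqc4
      exact not_prime_dvd_both P.hgcdab hq (hpow _ (hqi.dvd_of_dvd_pow hA2)) hb
  · have hC : (q : ℤ) ∣ P.c ^ P.p := dvd_pow hc hp0
    have hAB : (q : ℤ) ∣ P.a ^ P.p * P.b ^ P.p := by
      have h2 : P.a ^ P.p * P.b ^ P.p
          = (P.c ^ P.p) ^ 2 - ((P.a ^ P.p) ^ 2 + P.a ^ P.p * P.b ^ P.p + (P.b ^ P.p) ^ 2) := by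
        rw [← P.hFLT]; ring
      rw [h2]
      exact dvd_sub (dvd_pow hC two_ne_zero) hqc4
    rcases hqi.dvd_or_dvd hAB with hA | hB
    · exact not_prime_dvd_both P.hgcdac hq (hpow _ hA) hc
    · exact not_prime_dvd_both P.hgcdbc hq (hpow _ hB) hc

/-! ### The wiring -/

/-- **Wiring**: the pair form of the Mazur step and the four leaves give the unit
statement. -/
theorem stmt_units_of (hG : ∀ p : ℕ, p.Prime → 17 ≤ p → Stmt_G p)
    (h2 : LeafTwo) (h3 : LeafThree) (hPM : LeafPmCof) (hU : LeafUnits) : Stmt_Units := by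
  intro P hp N hN
  obtain ⟨h3abc, h3N⟩ := h3 P hp N hN
  have h2N := h2 P hp N hN
  have h2abc : ((2 : ℕ) : ℤ) ∣ P.a * P.b * P.c := by exact_mod_cast P.two_dvd_abc
  have h3abc' : ((3 : ℕ) : ℤ) ∣ P.a * P.b * P.c := by exact_mod_cast h3abc
  refine hU P hp N hN ?_
  intro ℓ hℓ hℓp hℓabc
  by_cases hℓ2 : ℓ = 2
  · subst hℓ2; exact h2N
  by_cases hpm : P.p ∣ ℓ ^ 2 - 1
  · exact hG P.p P.pp hp P.freyCurveInt (freyCurveInt_Δ_ne_zero P) N hN.1 hN.2.1 hN.2.2.1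
      (by exact_mod_cast dvd_Δ_of_dvd_abc P Nat.prime_two h2abc)
      (by exact_mod_cast not_dvd_c₄_of_dvd_abc P Nat.prime_two h2abc) h2N
      (by exact_mod_cast dvd_Δ_of_dvd_abc P Nat.prime_three h3abc')
      (by exact_mod_cast not_dvd_c₄_of_dvd_abc P Nat.prime_three h3abc') h3N
      ℓ hℓ hℓp (dvd_Δ_of_dvd_abc P hℓ hℓabc) (not_dvd_c₄_of_dvd_abc P hℓ hℓabc) hpm
  · exact hPM P hp N hN ℓ hℓ hℓ2 hℓp hℓabc hpm

/-- The frozen S12 conclusion for the integral model gives it for `P.freyCurve`. -/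
theorem frozen_of_int (P : FreyPackage)
    (h : ¬ ∃ N, IsCofixedLine P.freyCurveInt P.p N) :
    ¬ HasGaloisStableCofixedLine (K := Qbar) ℚ P.freyCurve P.p := by
  rw [← freyCurveInt_map P]
  exact h

end Fermat.Agent.S12.helper4647
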