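import Fermat.Agent.S12.helper135_Units
import Fermat.Agent.S12.helper4647_Spec
import Fermat.Agent.S12.helper1118_AtP

/-!
# S12, leaf (c) UNITS in the exact shape of the S12 spec (helper135)

`leafUnits : helper4647.LeafUnits`, verbatim, from

* `helper135.units_of_zc` (the places not over `p`: division polynomial + duplication formula;
  the consumer shape at the places over `p` from the kernel-of-reduction statement), and
* `helper1118.one_lt_valuation_xc_at_p` (every Galois-stable line lies in the kernel of
  reduction at every place over `p`).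
-/

set_option autoImplicit false

namespace Fermat.Agent.S12.helper135

open WeierstrassCurve WeierstrassCurve.Affine WeierstrassCurve.Affine.Point

local notation "Qb" => AlgebraicClosure ℚ

/-- The kernel-of-reduction statement at `p` (helper1118), for any rational model equal to the
Frey curve. -/
theorem one_lt_val_at_p (P : FreyPackage) (Wℚ : WeierstrassCurve ℚ) (hW : Wℚ = P.freyCurve)
    (N : Submodule (ZMod P.p) (Submodule.torsionBy ℤ (Wℚ⁄Qb).Point P.p))
    (hN : IsGaloisStable ℚ N) (h0 : N ≠ ⊥) (h1 : N ≠ ⊤)
    (O : ValuationSubring Qb) (hO : O.LiesOverPrime P.p)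
    (S : Submodule.torsionBy ℤ (Wℚ⁄Qb).Point P.p) (hS : S ∈ N) (x y : Qb)
    (h : (Wℚ⁄Qb).toAffine.Nonsingular x y) (hSxy : (S : (Wℚ⁄Qb).Point) = .some x y h) :
    1 < O.valuation x := by
  subst hW
  have hS0 : S ≠ 0 := by
    rintro rfl
    exact Point.some_ne_zero h hSxy.symm
  have key := Fermat.Agent.S12.helper1118.one_lt_valuation_xc_at_p P N hN h0 h1 O hO S hS hS0
  rw [hSxy] at key
  exact key

/-- **Leaf (c) of the S12 spec**, verbatim. -/
theorem leafUnits : Fermat.Agent.S12.helper4647.LeafUnits := by
  intro P _ N hN hZ ℓ hℓ O hO S hS x y h hSxy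
  exact units_of_zc P _ (Fermat.Agent.S12.helper4647.freyCurveInt_map P) N
    (fun ℓ hℓ hℓp habc O hO S hS => hZ ℓ hℓ hℓp habc O hO S hS)
    (fun O hO S hS x y h hSxy =>
      one_lt_val_at_p P _ (Fermat.Agent.S12.helper4647.freyCurveInt_map P) N hN.1 hN.2.1 hN.2.2.1
        O hO S hS x y h hSxy)
    ℓ hℓ O hO S hS x y h hSxy

end Fermat.Agent.S12.helper135
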