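import Mathlib

/-!
# S12 endgame, abstract core (Mathlib only)

`endgame_core`: let `a ^ p + b ^ p = c ^ p` with `a b c ≠ 0`, and let `S` be a nonempty finite
index set with `2 * S.card + 1 ≤ p`, `s t : ι → K` (`K` a field of characteristic zero).
Put `η i = 4 - a ^ p * s i`, `η' i = 4 - c ^ p * t i`.  If `∏ η` and `∏ η'` are rational and
for every prime `ℓ` there is a valuation subring `O` of `K` in which `ℓ` is a non-unit, every
`η i`, `η' i` is a unit, `s i ∈ O` when `ℓ ∣ a`, and `t i ∈ O` when `ℓ ∣ c`, then `False`.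

In the application (`helper1556_Endgame.lean`) `S` is the set of `X`-coordinates of the nonzero
points of a Galois-stable cofixed line of the Frey curve, `s = 1 / X`, `t = 1 / (X + b ^ p / 4)`.
-/

set_option autoImplicit false

namespace Fermat.Agent.S12.helper1556

open Finset

section Valuation

variable {K : Type*} [Field K]

/-- `y` is a unit of the valuation subring `O`. -/
def UnitOf (O : ValuationSubring K) (y : K) : Prop := y ≠ 0 ∧ y ∈ O ∧ y⁻¹ ∈ O

theorem unitOf_iff_valuation (O : ValuationSubring K) (y : K) :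
    UnitOf O y ↔ O.valuation y = 1 := by
  constructor
  · rintro ⟨h0, h1, h2⟩
    have h1' : O.valuation y ≤ 1 := (O.valuation_le_one_iff y).mpr h1
    have h2' : O.valuation y⁻¹ ≤ 1 := (O.valuation_le_one_iff _).mpr h2
    rw [map_inv₀] at h2'
    have hv0 : O.valuation y ≠ 0 := (Valuation.ne_zero_iff _).mpr h0
    have h3 : 1 ≤ O.valuation y := by
      have := (inv_le_one₀ (zero_lt_iff.mpr hv0)).mp h2'
      exact this
    exact le_antisymm h1' h3
  · intro h
    have h0 : y ≠ 0 := by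
      rintro rfl
      simp at h
    refine ⟨h0, (O.valuation_le_one_iff y).mp h.le, (O.valuation_le_one_iff _).mp ?_⟩
    rw [map_inv₀, h, inv_one]

theorem intCast_valuation_le_one (O : ValuationSubring K) (n : ℤ) : O.valuation (n : K) ≤ 1 :=
  (O.valuation_le_one_iff _).mpr (intCast_mem O n)

/-- If `ℓ` is a non-unit of `O`, then the integers that are non-units of `O` are exactly the
multiples of `ℓ`. -/
theorem intCast_valuation_lt_one_iff (O : ValuationSubring K) {ℓ : ℕ} (hℓ : ℓ.Prime)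
    (hO : (ℓ : K) ∈ O.nonunits) (n : ℤ) : O.valuation (n : K) < 1 ↔ (ℓ : ℤ) ∣ n := by
  have hvℓ : O.valuation (ℓ : K) < 1 := (O.mem_nonunits_iff).mp hO
  constructor
  · intro hn
    by_contra hdvd
    have hcop : IsCoprime (ℓ : ℤ) n :=
      ((Nat.prime_iff_prime_int.mp hℓ).coprime_iff_not_dvd).mpr hdvd
    obtain ⟨u, v, huv⟩ := hcop
    have h1 : (u : K) * (ℓ : K) + (v : K) * (n : K) = 1 := by
      have := congrArg (Int.cast : ℤ → K) huv
      push_cast at this
      exact this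
    have h2 : O.valuation ((u : K) * (ℓ : K) + (v : K) * (n : K)) < 1 := by
      refine lt_of_le_of_lt (Valuation.map_add _ _ _) (max_lt ?_ ?_)
      · rw [map_mul]
        calc O.valuation (u : K) * O.valuation (ℓ : K) ≤ 1 * O.valuation (ℓ : K) :=
              mul_le_mul_left (intCast_valuation_le_one O u) _
          _ = O.valuation (ℓ : K) := one_mul _
          _ < 1 := hvℓ
      · rw [map_mul]
        calc O.valuation (v : K) * O.valuation (n : K) ≤ 1 * O.valuation (n : K) :=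
              mul_le_mul_left (intCast_valuation_le_one O v) _
          _ = O.valuation (n : K) := one_mul _
          _ < 1 := hn
    rw [h1, map_one] at h2
    exact lt_irrefl _ h2
  · rintro ⟨k, rfl⟩
    push_cast
    rw [map_mul]
    calc O.valuation (ℓ : K) * O.valuation (k : K) ≤ O.valuation (ℓ : K) * 1 :=
          mul_le_mul_right (intCast_valuation_le_one O k) _
      _ = O.valuation (ℓ : K) := mul_one _
      _ < 1 := hvℓ

theorem intCast_valuation_eq_one (O : ValuationSubring K) {ℓ : ℕ} (hℓ : ℓ.Prime)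
    (hO : (ℓ : K) ∈ O.nonunits) {n : ℤ} (hn : ¬ (ℓ : ℤ) ∣ n) : O.valuation (n : K) = 1 := by
  refine le_antisymm (intCast_valuation_le_one O n) (not_lt.mp ?_)
  intro h
  exact hn ((intCast_valuation_lt_one_iff O hℓ hO n).mp h)

end Valuation

section Rational

variable {K : Type*} [Field K] [CharZero K]

/-- Every prime number is a non-unit of some valuation subring of a field of characteristic
zero. -/
theorem exists_valuationSubring_prime_mem_nonunits {ℓ : ℕ} (hℓ : ℓ.Prime) :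
    ∃ O : ValuationSubring K, (ℓ : K) ∈ O.nonunits := by
  let R : Subring K := (Int.castRingHom K).range
  let ℓR : R := ⟨(ℓ : K), ⟨(ℓ : ℤ), by simp⟩⟩
  have hI : Ideal.span {ℓR} ≠ ⊤ := by
    intro h
    rw [Ideal.span_singleton_eq_top] at h
    obtain ⟨⟨c, m, rfl⟩, hc⟩ := isUnit_iff_exists_inv.mp h
    have h1 : ((ℓ : ℤ) : K) * ((m : ℤ) : K) = 1 := by
      simpa [ℓR] using congrArg Subtype.val hc
    have h2 : (ℓ : ℤ) * m = 1 := by exact_mod_cast h1
    have h3 : IsUnit (ℓ : ℤ) := IsUnit.of_mul_eq_one _ h2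
    exact (Nat.prime_iff_prime_int.mp hℓ).not_isUnit h3
  obtain ⟨B, -, hB2⟩ := Ideal.image_subset_nonunits_valuationSubring _ hI
  exact ⟨B, hB2 ⟨ℓR, Ideal.subset_span rfl, rfl⟩⟩

omit [CharZero K] in
theorem ratCast_eq_num_div_den (q : ℚ) : (q : K) = (q.num : K) / ((q.den : ℤ) : K) := by
  rw [Rat.cast_def]
  push_cast
  rfl

/-- A rational number lying in a valuation subring in which `ℓ` is a non-unit has denominator
prime to `ℓ`. -/
theorem not_dvd_den_of_mem (O : ValuationSubring K) {ℓ : ℕ} (hℓ : ℓ.Prime)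
    (hO : (ℓ : K) ∈ O.nonunits) (q : ℚ) (hq : (q : K) ∈ O) : ¬ ℓ ∣ q.den := by
  intro hden
  have hden' : (ℓ : ℤ) ∣ (q.den : ℤ) := Int.natCast_dvd_natCast.mpr hden
  have hnum : ¬ (ℓ : ℤ) ∣ q.num := by
    intro hnum
    have h1 : ℓ ∣ q.num.natAbs := Int.natCast_dvd.mp hnum
    have h2 : ℓ ∣ Nat.gcd q.num.natAbs q.den := Nat.dvd_gcd h1 hden
    rw [q.reduced] at h2
    exact hℓ.one_lt.ne' (Nat.dvd_one.mp h2)
  have hvden : O.valuation ((q.den : ℤ) : K) < 1 :=
    (intCast_valuation_lt_one_iff O hℓ hO _).mpr hden'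
  have hvnum : O.valuation (q.num : K) = 1 := intCast_valuation_eq_one O hℓ hO hnum
  have hvq : O.valuation (q : K) ≤ 1 := (O.valuation_le_one_iff _).mpr hq
  have hden0 : ((q.den : ℤ) : K) ≠ 0 := by
    have : (q.den : ℤ) ≠ 0 := by exact_mod_cast q.den_ne_zero
    exact_mod_cast this
  have hmul : (q : K) * ((q.den : ℤ) : K) = (q.num : K) := by
    rw [ratCast_eq_num_div_den (K := K) q, div_mul_cancel₀ _ hden0]
  have : O.valuation (q.num : K) < 1 := by
    rw [← hmul, map_mul]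
    calc O.valuation (q : K) * O.valuation ((q.den : ℤ) : K)
        ≤ 1 * O.valuation ((q.den : ℤ) : K) := mul_le_mul_left hvq _
      _ = O.valuation ((q.den : ℤ) : K) := one_mul _
      _ < 1 := hvden
  rw [hvnum] at this
  exact lt_irrefl _ this

/-- A nonzero rational number whose inverse lies in a valuation subring in which `ℓ` is a
non-unit has numerator prime to `ℓ`. -/
theorem not_dvd_num_of_inv_mem (O : ValuationSubring K) {ℓ : ℕ} (hℓ : ℓ.Prime)
    (hO : (ℓ : K) ∈ O.nonunits) (q : ℚ) (hq0 : q ≠ 0) (hq : ((q : K))⁻¹ ∈ O) :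
    ¬ (ℓ : ℤ) ∣ q.num := by
  intro hnum
  have h := not_dvd_den_of_mem O hℓ hO q⁻¹ (by push_cast; exact hq)
  apply h
  have hnum' : ℓ ∣ q.num.natAbs := Int.natCast_dvd.mp hnum
  rw [Rat.den_inv_of_ne_zero hq0]
  exact hnum'

/-- A nonzero rational number that is a unit at every prime (in some valuation subring of `K`
above the prime) is `1` or `-1`. -/
theorem rat_eq_one_or_neg_one (r : ℚ) (hr : r ≠ 0)
    (h : ∀ ℓ : ℕ, ℓ.Prime → ∃ O : ValuationSubring K, (ℓ : K) ∈ O.nonunits ∧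
      (r : K) ∈ O ∧ ((r : K))⁻¹ ∈ O) : r = 1 ∨ r = -1 := by
  have hden : r.den = 1 := by
    rw [Nat.eq_one_iff_not_exists_prime_dvd]
    intro ℓ hℓ
    obtain ⟨O, hO, h1, -⟩ := h ℓ hℓ
    exact not_dvd_den_of_mem O hℓ hO r h1
  have hnum : r.num.natAbs = 1 := by
    rw [Nat.eq_one_iff_not_exists_prime_dvd]
    intro ℓ hℓ hdvd
    obtain ⟨O, hO, -, h2⟩ := h ℓ hℓ
    exact not_dvd_num_of_inv_mem O hℓ hO r hr h2 (Int.natCast_dvd.mpr hdvd)
  have hr' : r = (r.num : ℚ) := by
    have := Rat.num_div_den r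
    rw [hden] at this
    simpa using this.symm
  rcases Int.natAbs_eq r.num with h1 | h1
  · left
    rw [hr', h1, hnum]
    norm_num
  · right
    rw [hr', h1, hnum]
    norm_num

/-- If `m / A` is integral at every prime dividing `A` (in some valuation subring of `K` above
the prime), then `A ∣ m`. -/
theorem int_dvd_of_local (m A : ℤ) (hA : A ≠ 0)
    (h : ∀ ℓ : ℕ, ℓ.Prime → (ℓ : ℤ) ∣ A → ∃ O : ValuationSubring K, (ℓ : K) ∈ O.nonunits ∧
      (m : K) / (A : K) ∈ O) : A ∣ m := by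
  set q : ℚ := (m : ℚ) / (A : ℚ) with hq
  have hAq : (A : ℚ) ≠ 0 := by exact_mod_cast hA
  have hden : q.den = 1 := by
    rw [Nat.eq_one_iff_not_exists_prime_dvd]
    intro ℓ hℓ hdvd
    have hdA : (ℓ : ℤ) ∣ A := by
      have h1 : ((q.den : ℤ)) ∣ A := by
        have := Rat.den_dvd m A
        rw [Rat.divInt_eq_div] at this
        exact this
      exact (Int.natCast_dvd_natCast.mpr hdvd).trans h1
    obtain ⟨O, hO, h1⟩ := h ℓ hℓ hdA
    refine not_dvd_den_of_mem O hℓ hO q ?_ hdvd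
    rw [hq]
    push_cast
    exact h1
  have hq' : q = (q.num : ℚ) := by
    have := Rat.num_div_den q
    rw [hden] at this
    simpa using this.symm
  refine ⟨q.num, ?_⟩
  have h2 : (m : ℚ) = (A : ℚ) * (q.num : ℚ) := by
    rw [← hq', hq]
    field_simp
  exact_mod_cast h2

end Rational

section Product

variable {K : Type*} [Field K] {ι : Type*}

/-- `∏ (4 - A * s i) = 4 ^ n + A * w` with `w` in any subring containing the `s i`. -/
theorem prod_four_sub_eq (O : ValuationSubring K) (A : K) (hA : A ∈ O) (S : Finset ι)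
    (s : ι → K) (hs : ∀ i ∈ S, s i ∈ O) :
    ∃ w ∈ O, ∏ i ∈ S, (4 - A * s i) = 4 ^ S.card + A * w := by
  classical
  induction S using Finset.induction_on with
  | empty => exact ⟨0, O.zero_mem, by simp⟩
  | insert j S hj ih =>
    obtain ⟨w, hw, hprod⟩ := ih (fun i hi => hs i (Finset.mem_insert_of_mem hi))
    have hsj : s j ∈ O := hs j (Finset.mem_insert_self j S)
    have h4 : (4 : K) ∈ O := by
      have := intCast_mem O (4 : ℤ)
      exact_mod_cast this
    refine ⟨4 * w - s j * 4 ^ S.card - A * s j * w, ?_, ?_⟩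
    · exact sub_mem (sub_mem (mul_mem h4 hw) (mul_mem hsj (pow_mem h4 _)))
        (mul_mem (mul_mem hA hsj) hw)
    · rw [Finset.prod_insert hj, Finset.card_insert_of_notMem hj, hprod]
      ring

theorem prod_mem (O : ValuationSubring K) (S : Finset ι) (f : ι → K) (h : ∀ i ∈ S, f i ∈ O) :
    ∏ i ∈ S, f i ∈ O := by
  classical
  induction S using Finset.induction_on with
  | empty =>
    rw [Finset.prod_empty]
    exact O.one_mem
  | insert j S hj ih =>
    rw [Finset.prod_insert hj]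
    exact mul_mem (h j (Finset.mem_insert_self j S))
      (ih (fun i hi => h i (Finset.mem_insert_of_mem hi)))

end Product

section Divisibility

variable {K : Type*} [Field K] [CharZero K] {ι : Type*}

/-- The local-global step of the endgame: a rational product of units `4 - A * s i` is `±1`
and is `≡ 4 ^ n` modulo `A`. -/
theorem dvd_four_pow_of_local (S : Finset ι) (s : ι → K) (A : ℤ) (hA : A ≠ 0)
    (hrat : ∃ r : ℚ, (r : K) = ∏ i ∈ S, (4 - (A : K) * s i))
    (hloc : ∀ ℓ : ℕ, ℓ.Prime → ∃ O : ValuationSubring K, (ℓ : K) ∈ O.nonunits ∧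
      ∀ i ∈ S, UnitOf O (4 - (A : K) * s i) ∧ ((ℓ : ℤ) ∣ A → s i ∈ O)) :
    A ∣ 4 ^ S.card - 1 ∨ A ∣ 4 ^ S.card + 1 := by
  obtain ⟨r, hr⟩ := hrat
  have hprod0 : ∏ i ∈ S, (4 - (A : K) * s i) ≠ 0 := by
    obtain ⟨O, -, hO⟩ := hloc 2 Nat.prime_two
    exact Finset.prod_ne_zero_iff.mpr (fun i hi => (hO i hi).1.1)
  have hr0 : r ≠ 0 := by
    rintro rfl
    rw [Rat.cast_zero] at hr
    exact hprod0 hr.symm
  have hpm : r = 1 ∨ r = -1 := by
    refine rat_eq_one_or_neg_one (K := K) r hr0 (fun ℓ hℓ => ?_)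
    obtain ⟨O, hOℓ, hO⟩ := hloc ℓ hℓ
    refine ⟨O, hOℓ, ?_, ?_⟩
    · rw [hr]
      exact prod_mem O S _ (fun i hi => (hO i hi).1.2.1)
    · rw [hr, ← Finset.prod_inv_distrib]
      exact prod_mem O S _ (fun i hi => (hO i hi).1.2.2)
  have key : ∀ m : ℤ, (m : K) = ∏ i ∈ S, (4 - (A : K) * s i) → A ∣ m - 4 ^ S.card := by
    intro m hm
    refine int_dvd_of_local (K := K) _ A hA (fun ℓ hℓ hdvd => ?_)
    obtain ⟨O, hOℓ, hO⟩ := hloc ℓ hℓ
    refine ⟨O, hOℓ, ?_⟩
    obtain ⟨w, hw, hprod⟩ := prod_four_sub_eq O (A : K) (intCast_mem O A) S s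
      (fun i hi => (hO i hi).2 hdvd)
    have hAK : (A : K) ≠ 0 := by exact_mod_cast hA
    have : ((m - 4 ^ S.card : ℤ) : K) / (A : K) = w := by
      push_cast
      rw [hm, hprod]
      field_simp
      ring
    rw [this]
    exact hw
  rcases hpm with h1 | h1
  · left
    have h2 := key 1 (by rw [← hr, h1]; push_cast; rfl)
    have h3 : (4 : ℤ) ^ S.card - 1 = -(1 - 4 ^ S.card) := by ring
    rw [h3]
    exact (dvd_neg).mpr h2
  · right
    have h2 := key (-1) (by rw [← hr, h1]; push_cast; rfl)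
    have h3 : (4 : ℤ) ^ S.card + 1 = -(-1 - 4 ^ S.card) := by ring
    rw [h3]
    exact (dvd_neg).mpr h2

end Divisibility

section Numeric

/-- `a ^ p ∣ 4 ^ n ± 1` with `1 ≤ n` and `2 n + 1 ≤ p` forces `|a| ≤ 1`. -/
theorem natAbs_le_one_of_pow_dvd {p n : ℕ} (hn1 : 1 ≤ n) (hn : 2 * n + 1 ≤ p) {a : ℤ}
    (h : a ^ p ∣ 4 ^ n - 1 ∨ a ^ p ∣ 4 ^ n + 1) : a.natAbs ≤ 1 := by
  by_contra hcon
  have h2 : (2 : ℤ) ≤ |a| := by
    have : 2 ≤ a.natAbs := by omega
    rw [Int.abs_eq_natAbs]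
    exact_mod_cast this
  have h4 : (4 : ℤ) ≤ 4 ^ n := by
    calc (4 : ℤ) = 4 ^ 1 := by norm_num
      _ ≤ 4 ^ n := pow_le_pow_right₀ (by norm_num) hn1
  have hpow : (2 : ℤ) * 4 ^ n ≤ |a| ^ p := by
    calc (2 : ℤ) * 4 ^ n = 2 ^ (2 * n + 1) := by
          rw [pow_succ, pow_mul]; norm_num; ring
      _ ≤ 2 ^ p := pow_le_pow_right₀ (by norm_num) hn
      _ ≤ |a| ^ p := pow_le_pow_left₀ (by norm_num) h2 p
  have hle : ∀ m : ℤ, 0 < m → a ^ p ∣ m → |a| ^ p ≤ m := by
    intro m hm hdvd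
    refine Int.le_of_dvd hm ?_
    rw [← abs_pow]
    exact (abs_dvd _ _).mpr hdvd
  rcases h with h | h
  · have := hle _ (by linarith) h
    linarith
  · have := hle _ (by linarith) h
    linarith

/-- No solution of `a ^ p + b ^ p = c ^ p` in nonzero integers with `|a| ≤ 1`, `|c| ≤ 1`
(`p ≥ 2`). -/
theorem false_of_natAbs_le_one {p : ℕ} (hp : 2 ≤ p) {a b c : ℤ} (ha : a ≠ 0) (hb : b ≠ 0)
    (hc : c ≠ 0) (hFLT : a ^ p + b ^ p = c ^ p) (ha1 : a.natAbs ≤ 1) (hc1 : c.natAbs ≤ 1) :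
    False := by
  have ha' : a.natAbs = 1 := by
    have := Int.natAbs_pos.mpr ha
    omega
  have hc' : c.natAbs = 1 := by
    have := Int.natAbs_pos.mpr hc
    omega
  have habs : ∀ {x : ℤ}, x.natAbs = 1 → |x ^ p| = 1 := by
    intro x hx
    rw [abs_pow, Int.abs_eq_natAbs, hx]
    simp
  have hbp : |b ^ p| ≤ 2 := by
    have : b ^ p = c ^ p - a ^ p := by linarith
    rw [this]
    calc |c ^ p - a ^ p| ≤ |c ^ p| + |a ^ p| := abs_sub _ _
      _ = 2 := by rw [habs ha', habs hc']; norm_num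
  have hb' : b.natAbs = 1 := by
    by_contra hcon
    have h2 : (2 : ℤ) ≤ |b| := by
      have h0 := Int.natAbs_pos.mpr hb
      have : 2 ≤ b.natAbs := by omega
      rw [Int.abs_eq_natAbs]
      exact_mod_cast this
    have : (4 : ℤ) ≤ |b ^ p| := by
      rw [abs_pow]
      calc (4 : ℤ) = 2 ^ 2 := by norm_num
        _ ≤ 2 ^ p := pow_le_pow_right₀ (by norm_num) hp
        _ ≤ |b| ^ p := pow_le_pow_left₀ (by norm_num) h2 p
    linarith
  have hodd : ∀ {x : ℤ}, x.natAbs = 1 → Odd (x ^ p) := by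
    intro x hx
    have : Odd x := by
      rw [← Int.natAbs_odd, hx]
      exact odd_one
    exact this.pow
  have h1 : Even (a ^ p + b ^ p) := (hodd ha').add_odd (hodd hb')
  rw [hFLT] at h1
  exact (Int.not_even_iff_odd.mpr (hodd hc')) h1

end Numeric

section Counting

/-- The image of a finite set under a map that is invariant under a fixed-point-free
self-map of the set has at most half as many elements. -/
theorem two_mul_card_image_le {α β : Type*} [DecidableEq β] (T : Finset α) (f : α → β)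
    (ν : α → α) (hν : ∀ a ∈ T, ν a ∈ T) (hne : ∀ a ∈ T, ν a ≠ a)
    (hf : ∀ a ∈ T, f (ν a) = f a) : 2 * (T.image f).card ≤ T.card := by
  classical
  have h := Finset.card_nsmul_le_sum (T.image f) (fun b => (T.filter (fun a => f a = b)).card) 2
    (fun b hb => by
      obtain ⟨a, ha, rfl⟩ := Finset.mem_image.mp hb
      exact Finset.one_lt_card.mpr ⟨a, Finset.mem_filter.mpr ⟨ha, rfl⟩, ν a,
        Finset.mem_filter.mpr ⟨hν a ha, hf a ha⟩, (hne a ha).symm⟩)
  rw [← Finset.card_eq_sum_card_image f T] at h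
  simpa [mul_comm] using h

/-- A product over a finite set stable under a field automorphism `σ`, of a function
commuting with `σ`, is fixed by `σ`. -/
theorem map_prod_eq_of_stable {K : Type*} [Field K] [DecidableEq K] (σ : K ≃+* K)
    (S : Finset K) (hS : ∀ x ∈ S, σ x ∈ S) (g : K → K) (hg : ∀ x ∈ S, σ (g x) = g (σ x)) :
    σ (∏ x ∈ S, g x) = ∏ x ∈ S, g x := by
  have himg : S.image σ = S := by
    refine Finset.eq_of_subset_of_card_le ?_ ?_
    · intro y hy
      obtain ⟨x, hx, rfl⟩ := Finset.mem_image.mp hy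
      exact hS x hx
    · rw [Finset.card_image_of_injective S σ.injective]
  rw [map_prod]
  calc ∏ x ∈ S, σ (g x) = ∏ x ∈ S, g (σ x) := Finset.prod_congr rfl hg
    _ = ∏ y ∈ S.image σ, g y := (Finset.prod_image (fun a _ b _ h => σ.injective h)).symm
    _ = ∏ x ∈ S, g x := by rw [himg]

end Counting

section Main

variable {K : Type*} [Field K] [CharZero K] {ι : Type*}

/-- **Endgame core for S12.**  See the module docstring. -/
theorem endgame_core (S : Finset ι) (s t : ι → K) (p : ℕ) (a b c : ℤ)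
    (ha : a ≠ 0) (hb : b ≠ 0) (hc : c ≠ 0) (hFLT : a ^ p + b ^ p = c ^ p)
    (hS : S.Nonempty) (hSp : 2 * S.card + 1 ≤ p)
    (hrat : ∃ r : ℚ, (r : K) = ∏ i ∈ S, (4 - (a : K) ^ p * s i))
    (hrat' : ∃ r : ℚ, (r : K) = ∏ i ∈ S, (4 - (c : K) ^ p * t i))
    (hloc : ∀ ℓ : ℕ, ℓ.Prime → ∃ O : ValuationSubring K, (ℓ : K) ∈ O.nonunits ∧
      ∀ i ∈ S, UnitOf O (4 - (a : K) ^ p * s i) ∧ UnitOf O (4 - (c : K) ^ p * t i) ∧
        ((ℓ : ℤ) ∣ a → s i ∈ O) ∧ ((ℓ : ℤ) ∣ c → t i ∈ O)) : False := by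
  have hn1 : 1 ≤ S.card := Finset.card_pos.mpr hS
  have hp2 : 2 ≤ p := by omega
  have hp0 : p ≠ 0 := by omega
  have hdvd : ∀ {ℓ : ℕ}, ℓ.Prime → ∀ x : ℤ, (ℓ : ℤ) ∣ x ^ p → (ℓ : ℤ) ∣ x := fun hℓ x h =>
    (Nat.prime_iff_prime_int.mp hℓ).dvd_of_dvd_pow h
  have hA : a ^ p ∣ 4 ^ S.card - 1 ∨ a ^ p ∣ 4 ^ S.card + 1 := by
    refine dvd_four_pow_of_local (K := K) S s (a ^ p) (pow_ne_zero _ ha) ?_ ?_
    · push_cast
      exact hrat
    · intro ℓ hℓ
      obtain ⟨O, hOℓ, hO⟩ := hloc ℓ hℓ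
      refine ⟨O, hOℓ, fun i hi => ?_⟩
      push_cast
      exact ⟨(hO i hi).1, fun h => (hO i hi).2.2.1 (hdvd hℓ a h)⟩
  have hC : c ^ p ∣ 4 ^ S.card - 1 ∨ c ^ p ∣ 4 ^ S.card + 1 := by
    refine dvd_four_pow_of_local (K := K) S t (c ^ p) (pow_ne_zero _ hc) ?_ ?_
    · push_cast
      exact hrat'
    · intro ℓ hℓ
      obtain ⟨O, hOℓ, hO⟩ := hloc ℓ hℓ
      refine ⟨O, hOℓ, fun i hi => ?_⟩
      push_cast
      exact ⟨(hO i hi).2.1, fun h => (hO i hi).2.2.2 (hdvd hℓ c h)⟩
  exact false_of_natAbs_le_one hp2 ha hb hc hFLT (natAbs_le_one_of_pow_dvd hn1 hSp hA)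
    (natAbs_le_one_of_pow_dvd hn1 hSp hC)

end Main

end Fermat.Agent.S12.helper1556
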