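import Fermat.Prelude.Def_FLTPrelim_CofixedLine
import Fermat.Prelude.Def_FLTPrelim_Ramification
import Fermat.Agent.Lib.helper822_TorsionFinite
import Fermat.Agent.S13.helper613_TorsionCount
import Fermat.Agent.S12.helper1556_EndgameCore

/-!
# S12 endgame: frozen S12 from one local Prop (`Stmt_Units`)

`result_of_units : Stmt_Units → ∀ P : FreyPackage, 17 ≤ P.p →
  ¬ HasGaloisStableCofixedLine (K := AlgebraicClosure ℚ) ℚ P.freyCurve P.p`.

`Stmt_Units` is the purely local statement (leaf (c) of the S12 plan + the global Mazur step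
in pair form): for a Galois-stable cofixed line `N` of the Frey curve
`Y² + XY = X³ + ((B - 1 - A)/4) X² - (A B / 16) X` (`A = a ^ p`, `B = b ^ p`, `C = c ^ p`) and
every prime `ℓ` there is a valuation subring `O` of `ℚ̄` above `ℓ` such that for every nonzero
point `(X, Y)` of `N` the elements `η = 4 - A / X` and `η' = 4 - C / (X + B / 4)` are units of
`O`, `1 / X ∈ O` if `ℓ ∣ a`, and `1 / (X + B / 4) ∈ O` if `ℓ ∣ c`.

No quotient curve, no Vélu formula, no identity on `E / N` is used: the products of `η` and of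
`η'` over the `X`-coordinates of `N \ 0` are rational units, hence `±1`, and they are
`≡ 4 ^ n` modulo `A` resp. `C` with `n ≤ (p - 1) / 2`; so `|a| = |c| = 1`, which is absurd.
-/

set_option autoImplicit false

open WeierstrassCurve WeierstrassCurve.Affine WeierstrassCurve.Affine.Point

namespace Fermat.Agent.S12.helper1556

/-- The `X`-coordinate of a point (`0` for the point at infinity). -/
def xc {F : Type*} [Field F] {W : WeierstrassCurve.Affine F} : W.Point → F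
  | .zero => 0
  | .some x _ _ => x

/-- **The local input of the S12 endgame.** -/
def Stmt_Units : Prop :=
  ∀ (P : FreyPackage), 17 ≤ P.p →
  ∀ N : Submodule (ZMod P.p)
      (Submodule.torsionBy ℤ ((P.freyCurve)⁄(AlgebraicClosure ℚ)).Point P.p),
    IsGaloisStable ℚ N → N ≠ ⊥ → N ≠ ⊤ →
    (∀ σ : AlgebraicClosure ℚ ≃ₐ[ℚ] AlgebraicClosure ℚ,
      ∀ x : Submodule.torsionBy ℤ ((P.freyCurve)⁄(AlgebraicClosure ℚ)).Point P.p,
        σ • x - x ∈ N) →
    ∀ ℓ : ℕ, ℓ.Prime → ∃ O : ValuationSubring (AlgebraicClosure ℚ), O.LiesOverPrime ℓ ∧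
      ∀ Q ∈ N, ∀ (x y : AlgebraicClosure ℚ)
        (h : ((P.freyCurve)⁄(AlgebraicClosure ℚ)).Nonsingular x y),
        (Q : ((P.freyCurve)⁄(AlgebraicClosure ℚ)).Point) = Point.some x y h →
        UnitOf O (4 - (P.a : AlgebraicClosure ℚ) ^ P.p * x⁻¹) ∧
        UnitOf O (4 - (P.c : AlgebraicClosure ℚ) ^ P.p *
          (x + (P.b : AlgebraicClosure ℚ) ^ P.p / 4)⁻¹) ∧
        ((ℓ : ℤ) ∣ P.a → x⁻¹ ∈ O) ∧
        ((ℓ : ℤ) ∣ P.c → (x + (P.b : AlgebraicClosure ℚ) ^ P.p / 4)⁻¹ ∈ O)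

section Points

variable {F : Type*} [Field F] {W : WeierstrassCurve.Affine F}

theorem xc_neg (Q : W.Point) : xc (-Q) = xc Q := by
  rcases Q with _ | ⟨x, y, h⟩
  · rfl
  · rfl

theorem exists_some_of_ne_zero {Q : W.Point} (hQ : Q ≠ 0) :
    ∃ (x y : F) (h : W.Nonsingular x y), Q = Point.some x y h := by
  rcases Q with _ | ⟨x, y, h⟩
  · exact absurd rfl hQ
  · exact ⟨x, y, h, rfl⟩

end Points

section Top

/-- A point of odd order `p` is not its own negative. -/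
theorem neg_ne_self_of_odd_torsion {G : Type*} [AddCommGroup G] {p : ℕ} (hp : Odd p) {Q : G}
    (hQ : (p : ℤ) • Q = 0) (hQ0 : Q ≠ 0) : -Q ≠ Q := by
  intro h
  apply hQ0
  obtain ⟨k, rfl⟩ := hp
  have h2 : (2 : ℤ) • Q = 0 := by
    rw [two_smul]
    nth_rewrite 1 [← h]
    exact neg_add_cancel Q
  have h3 : ((2 * k + 1 : ℕ) : ℤ) • Q = (k : ℤ) • ((2 : ℤ) • Q) + Q := by
    rw [smul_smul]
    push_cast
    rw [show ((2 : ℤ) * k + 1) = k * 2 + 1 by ring, add_smul, one_smul]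
  rw [h3, h2, smul_zero, zero_add] at hQ
  exact hQ

/-- **Endgame, curve-free form.**  Let `a ^ p + b ^ p = c ^ p` (`p` an odd prime, `a b c ≠ 0`),
`W` any Weierstrass curve over `ℚ` and `N` a Galois-stable line of `W[p](ℚ̄)`.  If for every
prime `ℓ` there is a valuation subring `O` of `ℚ̄` above `ℓ` such that for every affine point
`(x, y)` of `N` the elements `4 - a ^ p / x` and `4 - c ^ p / (x + b ^ p / 4)` are units of `O`,
`1 / x ∈ O` when `ℓ ∣ a` and `1 / (x + b ^ p / 4) ∈ O` when `ℓ ∣ c`, then `False`. -/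
theorem false_of_stable_line_units (W : WeierstrassCurve ℚ) (p : ℕ) (hpp : p.Prime)
    (hp2 : p ≠ 2) (a b c : ℤ) (ha : a ≠ 0) (hb : b ≠ 0) (hc : c ≠ 0)
    (hFLT : a ^ p + b ^ p = c ^ p)
    (N : Submodule (ZMod p) (Submodule.torsionBy ℤ (W⁄(AlgebraicClosure ℚ)).Point p))
    (hstab : IsGaloisStable ℚ N) (hbot : N ≠ ⊥) (htop : N ≠ ⊤)
    (hU : ∀ ℓ : ℕ, ℓ.Prime → ∃ O : ValuationSubring (AlgebraicClosure ℚ), O.LiesOverPrime ℓ ∧
      ∀ Q ∈ N, ∀ (x y : AlgebraicClosure ℚ) (h : (W⁄(AlgebraicClosure ℚ)).Nonsingular x y),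
        (Q : (W⁄(AlgebraicClosure ℚ)).Point) = Point.some x y h →
        UnitOf O (4 - (a : AlgebraicClosure ℚ) ^ p * x⁻¹) ∧
        UnitOf O (4 - (c : AlgebraicClosure ℚ) ^ p *
          (x + (b : AlgebraicClosure ℚ) ^ p / 4)⁻¹) ∧
        ((ℓ : ℤ) ∣ a → x⁻¹ ∈ O) ∧
        ((ℓ : ℤ) ∣ c → (x + (b : AlgebraicClosure ℚ) ^ p / 4)⁻¹ ∈ O)) : False := by
  have hodd : Odd p := hpp.odd_of_ne_two hp2
  have : Fact p.Prime := ⟨hpp⟩
  have hfinT : Finite (Submodule.torsionBy ℤ (W⁄(AlgebraicClosure ℚ)).Point p) :=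
    Fermat.Agent.Lib.helper822.finite_torsionBy _ p hpp.ne_zero
  have hcardT : Nat.card (Submodule.torsionBy ℤ (W⁄(AlgebraicClosure ℚ)).Point p) ≤ p ^ 2 := by
    obtain ⟨m, hm⟩ := hodd
    have hpF : ((2 * m + 1 : ℕ) : AlgebraicClosure ℚ) ≠ 0 := by
      rw [← hm]
      exact Nat.cast_ne_zero.mpr hpp.ne_zero
    have h := Fermat.Agent.S13.helper613.card_torsionBy_le (W⁄(AlgebraicClosure ℚ)) m hpF
    rw [← hm] at h
    exact h
  -- `N` has at most `p` elements
  have h1 : Nat.card (Submodule.torsionBy ℤ (W⁄(AlgebraicClosure ℚ)).Point p)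
      = p ^ Module.finrank (ZMod p)
        (Submodule.torsionBy ℤ (W⁄(AlgebraicClosure ℚ)).Point p) := by
    rw [Module.natCard_eq_pow_finrank (K := ZMod p), Nat.card_zmod]
  have hrT : Module.finrank (ZMod p)
      (Submodule.torsionBy ℤ (W⁄(AlgebraicClosure ℚ)).Point p) ≤ 2 := by
    rw [h1] at hcardT
    exact (Nat.pow_le_pow_iff_right hpp.one_lt).mp hcardT
  have hrN : Module.finrank (ZMod p) N < Module.finrank (ZMod p)
      (Submodule.torsionBy ℤ (W⁄(AlgebraicClosure ℚ)).Point p) :=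
    Submodule.finrank_lt htop
  have hN : Nat.card N = p ^ Module.finrank (ZMod p) N := by
    rw [Module.natCard_eq_pow_finrank (K := ZMod p), Nat.card_zmod]
  have hcardN : Nat.card N ≤ p := by
    rw [hN]
    calc p ^ Module.finrank (ZMod p) N ≤ p ^ 1 :=
          Nat.pow_le_pow_right hpp.pos (by omega)
      _ = p := pow_one _
  classical
  have : Fintype N := Fintype.ofFinite N
  -- the nonzero points of `N` and their `X`-coordinates
  set T0 : Finset N := Finset.univ.filter (fun Q => Q ≠ 0) with hT0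
  set f : N → AlgebraicClosure ℚ := fun Q =>
    xc ((Q : Submodule.torsionBy ℤ (W⁄(AlgebraicClosure ℚ)).Point p) :
      (W⁄(AlgebraicClosure ℚ)).Point) with hf
  set S : Finset (AlgebraicClosure ℚ) := T0.image f with hSdef
  have hT0card : T0.card + 1 = Nat.card N := by
    rw [Nat.card_eq_fintype_card, ← Finset.card_univ]
    have h0 : T0 = Finset.univ.erase 0 := Finset.filter_ne' _ _
    rw [h0, Finset.card_erase_of_mem (Finset.mem_univ _)]
    have : 0 < (Finset.univ : Finset N).card := Finset.card_pos.mpr ⟨0, Finset.mem_univ _⟩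
    omega
  have hmemT0 : ∀ Q : N, Q ∈ T0 ↔ Q ≠ 0 := fun Q => by
    rw [hT0, Finset.mem_filter]
    exact ⟨fun h => h.2, fun h => ⟨Finset.mem_univ _, h⟩⟩
  have hneg_mem : ∀ Q ∈ T0, -Q ∈ T0 := fun Q hQ =>
    (hmemT0 _).mpr (neg_ne_zero.mpr ((hmemT0 Q).mp hQ))
  have hneg_ne : ∀ Q ∈ T0, -Q ≠ Q := by
    intro Q hQ hneg
    have hQ0 : Q ≠ 0 := (hmemT0 Q).mp hQ
    have hQ1 : (Q : Submodule.torsionBy ℤ (W⁄(AlgebraicClosure ℚ)).Point p) ≠ 0 :=
      fun h => hQ0 (Subtype.ext h)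
    refine neg_ne_self_of_odd_torsion hodd (Submodule.smul_torsionBy _ _) hQ1 ?_
    have := congrArg (Subtype.val) hneg
    exact this
  have hf_neg : ∀ Q ∈ T0, f (-Q) = f Q := by
    intro Q _
    exact xc_neg _
  have hScard : 2 * S.card ≤ T0.card :=
    two_mul_card_image_le T0 f (fun Q => -Q) hneg_mem hneg_ne hf_neg
  have hSp : 2 * S.card + 1 ≤ p := by omega
  have hS : S.Nonempty := by
    obtain ⟨Q, hQN, hQ0⟩ := (Submodule.ne_bot_iff N).mp hbot
    exact ⟨f ⟨Q, hQN⟩, Finset.mem_image_of_mem f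
      ((hmemT0 _).mpr (fun h => hQ0 (congrArg Subtype.val h)))⟩
  -- description of the elements of `S`
  have hSdesc : ∀ x ∈ S, ∃ (Q : Submodule.torsionBy ℤ (W⁄(AlgebraicClosure ℚ)).Point p)
      (_ : Q ∈ N) (y : AlgebraicClosure ℚ)
      (h : (W⁄(AlgebraicClosure ℚ)).Nonsingular x y),
      (Q : (W⁄(AlgebraicClosure ℚ)).Point) = Point.some x y h := by
    intro x hx
    obtain ⟨Q, hQ, rfl⟩ := Finset.mem_image.mp hx
    have hQ0 : Q ≠ 0 := (hmemT0 Q).mp hQ
    have hQ1 : ((Q : Submodule.torsionBy ℤ (W⁄(AlgebraicClosure ℚ)).Point p) :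
        (W⁄(AlgebraicClosure ℚ)).Point) ≠ 0 :=
      fun h => hQ0 (Subtype.ext (Subtype.ext h))
    obtain ⟨x, y, h, hxy⟩ := exists_some_of_ne_zero hQ1
    have hfx : f Q = x := by
      rw [hf]
      simp only
      rw [hxy]
      rfl
    rw [hfx]
    exact ⟨Q.1, Q.2, y, h, hxy⟩
  -- `S` is Galois-stable
  have hSstab : ∀ σ : AlgebraicClosure ℚ ≃ₐ[ℚ] AlgebraicClosure ℚ, ∀ x ∈ S, σ x ∈ S := by
    intro σ x hx
    obtain ⟨Q, hQN, y, h, hxy⟩ := hSdesc x hx
    have hσQ : σ • Q ∈ N := hstab σ Q hQN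
    have hcoe : ∃ h' : (W⁄(AlgebraicClosure ℚ)).Nonsingular (σ x) (σ y),
        ((σ • Q : Submodule.torsionBy ℤ (W⁄(AlgebraicClosure ℚ)).Point p) :
          (W⁄(AlgebraicClosure ℚ)).Point) = Point.some (σ x) (σ y) h' := by
      have h1 : ((σ • Q : Submodule.torsionBy ℤ (W⁄(AlgebraicClosure ℚ)).Point p) :
          (W⁄(AlgebraicClosure ℚ)).Point) =
          σ • (Q : (W⁄(AlgebraicClosure ℚ)).Point) := rfl
      rw [h1, hxy, algEquiv_smul_def, Point.map_some]
      exact ⟨_, rfl⟩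
    obtain ⟨h', hcoe⟩ := hcoe
    refine Finset.mem_image.mpr ⟨⟨σ • Q, hσQ⟩, (hmemT0 _).mpr ?_, ?_⟩
    · intro h0
      have h2 : ((σ • Q : Submodule.torsionBy ℤ (W⁄(AlgebraicClosure ℚ)).Point p) :
          (W⁄(AlgebraicClosure ℚ)).Point) = 0 := by
        have := congrArg (fun t : N => ((t :
          Submodule.torsionBy ℤ (W⁄(AlgebraicClosure ℚ)).Point p) :
            (W⁄(AlgebraicClosure ℚ)).Point)) h0
        exact this
      rw [hcoe] at h2
      exact Point.some_ne_zero _ h2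
    · rw [hf]
      simp only
      rw [hcoe]
      rfl
  -- rationality of Galois-equivariant products over `S`
  have hfix : ∀ g : AlgebraicClosure ℚ → AlgebraicClosure ℚ,
      (∀ (σ : AlgebraicClosure ℚ ≃ₐ[ℚ] AlgebraicClosure ℚ) (x : AlgebraicClosure ℚ),
        σ (g x) = g (σ x)) →
      ∃ r : ℚ, (r : AlgebraicClosure ℚ) = ∏ x ∈ S, g x := by
    intro g hg
    have hAC : IsAlgClosure ℚ (AlgebraicClosure ℚ) :=
      ⟨inferInstance, AlgebraicClosure.isAlgebraic ℚ⟩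
    have hGal : IsGalois ℚ (AlgebraicClosure ℚ) := inferInstance
    have hmem : (∏ x ∈ S, g x) ∈ Set.range (algebraMap ℚ (AlgebraicClosure ℚ)) := by
      rw [InfiniteGalois.mem_range_algebraMap_iff_fixed]
      intro σ
      exact map_prod_eq_of_stable σ.toRingEquiv S (fun x hx => hSstab σ x hx) g
        (fun x _ => hg σ x)
    obtain ⟨r, hr⟩ := hmem
    exact ⟨r, by rw [← hr, eq_ratCast]⟩
  refine endgame_core S (fun x => x⁻¹)
    (fun x => (x + (b : AlgebraicClosure ℚ) ^ p / 4)⁻¹) p a b c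
    ha hb hc hFLT hS hSp ?_ ?_ ?_
  · refine hfix _ (fun σ x => ?_)
    have h4 : σ (4 : AlgebraicClosure ℚ) = 4 := map_ofNat σ 4
    simp [map_sub, map_mul, map_pow, map_inv₀, h4]
  · refine hfix _ (fun σ x => ?_)
    have h4 : σ (4 : AlgebraicClosure ℚ) = 4 := map_ofNat σ 4
    simp [map_sub, map_mul, map_pow, map_inv₀, map_add, map_div₀, h4]
  · intro ℓ hℓ
    obtain ⟨O, hOℓ, hO⟩ := hU ℓ hℓ
    refine ⟨O, hOℓ, fun x hx => ?_⟩
    obtain ⟨Q, hQN, y, h, hxy⟩ := hSdesc x hx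
    exact hO Q hQN x y h hxy

/-- **Frozen S12 from the local unit statement.** -/
theorem result_of_units (hU : Stmt_Units) (P : FreyPackage) (hp : 17 ≤ P.p) :
    ¬ HasGaloisStableCofixedLine (K := AlgebraicClosure ℚ) ℚ P.freyCurve P.p := by
  rintro ⟨N, hstab, hbot, htop, hcof⟩
  have hp5 := P.hp5
  exact false_of_stable_line_units P.freyCurve P.p P.pp (by omega) P.a P.b P.c P.ha0 P.hb0 P.hc0
    P.hFLT N hstab hbot htop (hU P hp N hstab hbot htop hcof)

end Top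

end Fermat.Agent.S12.helper1556
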