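import Fermat.Agent.S12.helper4647_Spec
import Fermat.Agent.S12.helper1556_Endgame

/-!
# S12 endgame on the Spec of helper4647

`result_of_spec_units : helper4647.Stmt_Units → (frozen S12)`; with
`helper4647.stmt_units_of` this gives the frozen S12 from the pair form of the Mazur step
`Stmt_G` and the four leaves `LeafTwo`, `LeafThree`, `LeafPmCof`, `LeafUnits`
(`result_of_leaves`); `result_of_leaves'` takes `LeafThreeDvd` in place of `LeafThree`.
-/

set_option autoImplicit false

open WeierstrassCurve WeierstrassCurve.Affine WeierstrassCurve.Affine.Point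

namespace Fermat.Agent.S12.helper1556

/-- The unit statement of the Spec excludes cofixed lines on the integral Frey model. -/
theorem no_cofixedLine_of_spec_units (hU : Fermat.Agent.S12.helper4647.Stmt_Units)
    (P : FreyPackage) (hp : 17 ≤ P.p) :
    ¬ ∃ N, Fermat.Agent.S12.helper4647.IsCofixedLine P.freyCurveInt P.p N := by
  rintro ⟨N, hN⟩
  have hp5 := P.hp5
  refine false_of_stable_line_units (P.freyCurveInt.map (Int.castRingHom ℚ)) P.p P.pp (by omega)
    P.a P.b P.c P.ha0 P.hb0 P.hc0 P.hFLT N hN.1 hN.2.1 hN.2.2.1 (fun ℓ hℓ => ?_)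
  obtain ⟨O, hO⟩ := exists_valuationSubring_prime_mem_nonunits (K := AlgebraicClosure ℚ) hℓ
  refine ⟨O, hO, fun Q hQ x y h hxy => ?_⟩
  obtain ⟨h1, h2, h3, h4⟩ := hU P hp N hN ℓ hℓ O hO Q hQ x y h hxy
  exact ⟨(unitOf_iff_valuation O _).mpr h3, (unitOf_iff_valuation O _).mpr h4,
    fun _ => h1, fun _ => h2⟩

/-- **Frozen S12 from the unit statement of the Spec.** -/
theorem result_of_spec_units (hU : Fermat.Agent.S12.helper4647.Stmt_Units)
    (P : FreyPackage) (hp : 17 ≤ P.p) :
    ¬ HasGaloisStableCofixedLine (K := AlgebraicClosure ℚ) ℚ P.freyCurve P.p :=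
  Fermat.Agent.S12.helper4647.frozen_of_int P (no_cofixedLine_of_spec_units hU P hp)

/-- **Frozen S12 from the pair form of the Mazur step and the four leaves.** -/
theorem result_of_leaves
    (hG : ∀ p : ℕ, p.Prime → 17 ≤ p → Fermat.Agent.S12.helper4647.Stmt_G p)
    (h2 : Fermat.Agent.S12.helper4647.LeafTwo) (h3 : Fermat.Agent.S12.helper4647.LeafThree)
    (hPM : Fermat.Agent.S12.helper4647.LeafPmCof)
    (hU : Fermat.Agent.S12.helper4647.LeafUnits) (P : FreyPackage) (hp : 17 ≤ P.p) :
    ¬ HasGaloisStableCofixedLine (K := AlgebraicClosure ℚ) ℚ P.freyCurve P.p :=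
  result_of_spec_units (Fermat.Agent.S12.helper4647.stmt_units_of hG h2 h3 hPM hU) P hp

/-- The same with leaf (b) in its reduced form `LeafThreeDvd` (`3 ∣ a b c` only). -/
theorem result_of_leaves'
    (hG : ∀ p : ℕ, p.Prime → 17 ≤ p → Fermat.Agent.S12.helper4647.Stmt_G p)
    (h2 : Fermat.Agent.S12.helper4647.LeafTwo) (h3 : Fermat.Agent.S12.helper4647.LeafThreeDvd)
    (hPM : Fermat.Agent.S12.helper4647.LeafPmCof)
    (hU : Fermat.Agent.S12.helper4647.LeafUnits) (P : FreyPackage) (hp : 17 ≤ P.p) :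
    ¬ HasGaloisStableCofixedLine (K := AlgebraicClosure ℚ) ℚ P.freyCurve P.p :=
  result_of_leaves hG h2 (Fermat.Agent.S12.helper4647.leafThree_of h3 hPM) hPM hU P hp

end Fermat.Agent.S12.helper1556
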