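import Fermat.Agent.S05.helper245_LegE

/-!
# Node case of an abstract Legendre-coordinatised group: components and the toric character

(helper4404, S12 leaf PM-COF, abstract half.)  In the setting of
`Fermat.Agent.S05.helper245` (`Y² = X³ + a X² + b X`, `v a = 1`, `v b < 1`: a node at `(0,0)`):

* `exists_add_nsmul_zero_or_le` : if `P` is a `p`-torsion point outside `E₀ = {0} ∪ {1 ≤ v X}`
  and `Q` is any `p`-torsion point, then some `Q + k • P`, `k < p`, lies in `E₀`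
  (the component group is cyclic: `E[p] / (E[p] ∩ E₀)` has at most `p` elements).
* `dvd_of_frob_fixed` : a nonzero `p`-torsion point of `E₀` whose coordinates are fixed by a ring
  endomorphism `s` of `K` acting as `u ↦ u^ℓ` modulo the maximal ideal (a Frobenius element),
  with `s a = a`, forces `p ∣ ℓ - 1 ∨ p ∣ ℓ + 1` (the nonsingular locus of the nodal cubic is a
  torus split by `√a`; the character is `(Y - βX)/(Y + βX)`, `β² = a`).
-/

set_option autoImplicit false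

namespace Fermat.Agent.S12.helper4404

open Fermat.Agent.S05.helper245

section Comp

variable {K : Type*} [Field K] {Γ₀ : Type*} [LinearOrderedCommGroupWithZero Γ₀]
  (v : Valuation K Γ₀) {G : Type*} [AddCommGroup G] {a b : K} {X Y : G → K}

/-- Powers of an element of `(0,1)` are injective in the exponent. -/
theorem pow_inj_of_lt_one {x : Γ₀} (h0 : x ≠ 0) (h1 : x < 1) {m n : ℕ} (h : x ^ m = x ^ n) :
    m = n := by
  have hpos : 0 < x := zero_lt_iff.mpr h0
  rcases lt_trichotomy m n with hlt | heq | hgt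
  · exact absurd h (ne_of_gt (pow_lt_pow_right_of_lt_one₀ hpos h1 hlt))
  · exact heq
  · exact absurd h (ne_of_lt (pow_lt_pow_right_of_lt_one₀ hpos h1 hgt))

omit [AddCommGroup G] in
/-- In the node region the component function lies strictly between `v b ^ 2` and `1`. -/
theorem cc_bounds (hb : v b < 1) (hb0 : b ≠ 0) {β : K} {P : G} (hG : v b < v (X P))
    (hG' : v (X P) < 1) : v b ^ 2 < cc v b X Y β P ∧ cc v b X Y β P < 1 := by
  have hb0' : v b ≠ 0 := (v.ne_zero_iff).mpr hb0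
  have hbpos : 0 < v b := zero_lt_iff.mpr hb0'
  have hx0 : 0 < v (X P) := lt_trans hbpos hG
  have hbb : v b ^ 2 < v b := by
    rw [sq]
    calc v b * v b < v b * 1 := mul_lt_mul_of_pos_left hb hbpos
      _ = v b := mul_one _
  unfold cc
  split_ifs
  · exact ⟨lt_trans hbb hG, hG'⟩
  · constructor
    · rw [lt_div_iff₀ hx0]
      calc v b ^ 2 * v (X P) < v b ^ 2 * 1 := mul_lt_mul_of_pos_left hG' (pow_pos hbpos 2)
        _ = v b ^ 2 := mul_one _
    · rw [div_lt_one₀ hx0]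
      exact lt_trans hbb hG

variable (hL : IsLegCoord a b X Y) (ha : v a = 1) (hb : v b < 1) (hb0 : b ≠ 0) (h2 : v 2 = 1)
  {β : K} (hβ : β ^ 2 = a) {T : G} (hT : T ≠ 0) (hTX : X T = 0) (hTY : Y T = 0)
  {p : ℕ} (hpp : p.Prime) (hp2 : p ≠ 2)

include hL ha hb hb0 h2 hT hTX hTY hpp hp2 in
/-- A `p`-torsion point outside `E₀` lies in the node region. -/
theorem node_region {P : G} (hpP : p • P = 0) (hP : P ≠ 0) (hxP : v (X P) < 1) :
    v b < v (X P) := by
  have h1p : ¬ p ∣ 1 := Nat.not_dvd_of_pos_of_lt one_pos hpp.one_lt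
  have := node_region_of_multiple v hL ha.le hb hb0 h2 hT hTX hTY hpp hp2 hpP hP hxP h1p
  rw [one_nsmul] at this; exact this.2.1

include hL ha hb hb0 h2 hβ hT hTX hTY hpp hp2 in
/-- **The index of a point of the node region**: `cc P ^ p = v b ^ (2 j)` with `0 < j < p`. -/
theorem exists_idx {P : G} (hpP : p • P = 0) (hP : P ≠ 0) (hxP : v (X P) < 1) :
    ∃ j : ℕ, 0 < j ∧ j < p ∧ cc v b X Y β P ^ p = v b ^ (2 * j) := by
  have hb0' : v b ≠ 0 := (v.ne_zero_iff).mpr hb0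
  have hp3 : 3 ≤ p := by
    have := hpp.two_le
    omega
  have hPb := node_region v hL ha hb hb0 h2 hT hTX hTY hpp hp2 hpP hP hxP
  obtain ⟨j, hj⟩ := cc_multiples v hL ha hb hb0 h2 hβ hT hTX hTY hpp hp2 hpP hP hxP (p - 1)
    (by omega) (by omega)
  have hneg : (p - 1) • P = -P := by
    have : (p - 1) • P + P = 0 := by
      rw [← succ_nsmul, Nat.sub_add_cancel hpp.one_le]; exact hpP
    exact eq_neg_of_add_eq_zero_left this
  rw [hneg] at hj
  have kneg := cc_neg_mul v hL ha h2 hβ hP hPb hxP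
  have hc : cc v b X Y β P ^ p = v b ^ (2 * (j + 1)) := by
    calc cc v b X Y β P ^ p = cc v b X Y β P ^ (p - 1) * cc v b X Y β P := by
          rw [← pow_succ, Nat.sub_add_cancel hpp.one_le]
      _ = cc v b X Y β (-P) * v b ^ (2 * j) * cc v b X Y β P := by rw [hj]
      _ = (cc v b X Y β (-P) * cc v b X Y β P) * v b ^ (2 * j) := by ac_rfl
      _ = v b ^ 2 * v b ^ (2 * j) := by rw [kneg]
      _ = v b ^ (2 * (j + 1)) := by rw [← pow_add]; congr 1; ring
  obtain ⟨hlo, -⟩ := cc_bounds v (Y := Y) (β := β) hb hb0 hPb hxP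
  refine ⟨j + 1, by omega, ?_, hc⟩
  -- `v b ^ (2 p) < cc ^ p = v b ^ (2 (j+1))`
  have h1 : (v b ^ 2) ^ p < cc v b X Y β P ^ p :=
    pow_lt_pow_left₀ hlo zero_le hpp.ne_zero
  rw [hc, ← pow_mul] at h1
  by_contra hge
  have hge' : 2 * p ≤ 2 * (j + 1) := by omega
  have : v b ^ (2 * (j + 1)) ≤ v b ^ (2 * p) :=
    pow_le_pow_of_le_one zero_le hb.le hge'
  exact absurd h1 (not_lt.mpr this)

include hL ha hb0 h2 hβ in
/-- The index of `-P` is `p - j`. -/
theorem idx_neg {P : G} (hP : P ≠ 0) (hG : v b < v (X P)) (hG' : v (X P) < 1) {j : ℕ}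
    (hjp : j ≤ p) (hj : cc v b X Y β P ^ p = v b ^ (2 * j)) :
    cc v b X Y β (-P) ^ p = v b ^ (2 * (p - j)) := by
  have hb0' : v b ≠ 0 := (v.ne_zero_iff).mpr hb0
  have kneg := cc_neg_mul v hL ha h2 hβ hP hG hG'
  have h := congrArg (· ^ p) kneg
  simp only [mul_pow] at h
  rw [hj, ← pow_mul] at h
  have e : v b ^ (2 * p) = v b ^ (2 * (p - j)) * v b ^ (2 * j) := by
    rw [← pow_add]; congr 1; omega
  rw [e] at h
  exact mul_right_cancel₀ (pow_ne_zero _ hb0') h

include hL ha hb0 h2 hβ in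
/-- **Additivity of the index** on sums inside the node region. -/
theorem idx_add {P₁ P₂ : G} (h₁ : P₁ ≠ 0) (h₂ : P₂ ≠ 0) (h₃ : P₁ + P₂ ≠ 0)
    (hG₁ : v b < v (X P₁)) (hG₁' : v (X P₁) < 1)
    (hG₂ : v b < v (X P₂)) (hG₂' : v (X P₂) < 1)
    (hG₃ : v b < v (X (P₁ + P₂))) (hG₃' : v (X (P₁ + P₂)) < 1) {j₁ j₂ j₃ : ℕ} (hj₃p : j₃ ≤ p)
    (hj₁ : cc v b X Y β P₁ ^ p = v b ^ (2 * j₁)) (hj₂ : cc v b X Y β P₂ ^ p = v b ^ (2 * j₂))
    (hj₃ : cc v b X Y β (P₁ + P₂) ^ p = v b ^ (2 * j₃)) :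
    j₁ + j₂ = j₃ ∨ j₁ + j₂ = j₃ + p := by
  have hb0' : v b ≠ 0 := (v.ne_zero_iff).mpr hb0
  have hb1 : v b < 1 := lt_trans hG₁ hG₁'
  have hR0 : -(P₁ + P₂) ≠ 0 := neg_ne_zero.mpr h₃
  have hsum : P₁ + P₂ + -(P₁ + P₂) = 0 := by abel
  have hRb : v b < v (X (-(P₁ + P₂))) := by rw [hL.negX _ h₃]; exact hG₃
  have hR1 : v (X (-(P₁ + P₂))) < 1 := by rw [hL.negX _ h₃]; exact hG₃'
  have hneg := idx_neg v hL ha hb0 h2 hβ h₃ hG₃ hG₃' hj₃p hj₃
  have tri := node_triple v hL ha hb0 h2 hβ h₁ h₂ hR0 hsum hG₁ hG₁' hG₂ hG₂' hRb hR1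
  rcases tri with tri | tri
  · left
    have h := congrArg (· ^ p) tri
    simp only [mul_pow] at h
    rw [hj₁, hj₂, hneg, ← pow_add, ← pow_add, ← pow_mul] at h
    have := pow_inj_of_lt_one hb0' hb1 h
    omega
  · right
    have h := congrArg (· ^ p) tri
    simp only [mul_pow] at h
    rw [hj₁, hj₂, hneg, ← pow_add, ← pow_add, ← pow_mul] at h
    have := pow_inj_of_lt_one hb0' hb1 h
    omega

include hL ha hb hb0 h2 hβ hT hTX hTY hpp hp2 in
/-- **The component group is cyclic.**  If `P` is a `p`-torsion point outside `E₀` and `Q` is any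
`p`-torsion point, then `Q + k • P ∈ E₀` for some `k < p`. -/
theorem exists_add_nsmul_zero_or_le {P Q : G} (hpP : p • P = 0) (hP : P ≠ 0)
    (hxP : v (X P) < 1) (hpQ : p • Q = 0) :
    ∃ k : ℕ, k < p ∧ (Q + k • P = 0 ∨ 1 ≤ v (X (Q + k • P))) := by
  by_contra hcon
  have hall : ∀ k : ℕ, k < p → Q + k • P ≠ 0 ∧ v (X (Q + k • P)) < 1 := by
    intro k hk
    constructor
    · intro h0; exact hcon ⟨k, hk, Or.inl h0⟩
    · by_contra hge; exact hcon ⟨k, hk, Or.inr (not_lt.mp hge)⟩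
  have hpR : ∀ k : ℕ, p • (Q + k • P) = 0 := by
    intro k
    rw [smul_add, hpQ, zero_add, smul_comm, hpP, smul_zero]
  have hPb := node_region v hL ha hb hb0 h2 hT hTX hTY hpp hp2 hpP hP hxP
  obtain ⟨jP, hjP0, hjPp, hjP⟩ :=
    exists_idx v hL ha hb hb0 h2 hβ hT hTX hTY hpp hp2 hpP hP hxP
  have hex : ∀ k : ℕ, k < p → ∃ j : ℕ, 0 < j ∧ j < p ∧
      cc v b X Y β (Q + k • P) ^ p = v b ^ (2 * j) := fun k hk =>
    exists_idx v hL ha hb hb0 h2 hβ hT hTX hTY hpp hp2 (hpR k) (hall k hk).1 (hall k hk).2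
  choose! f hf using hex
  have : Fact p.Prime := ⟨hpp⟩
  -- the index is affine in `k` modulo `p`
  have hlin : ∀ k : ℕ, k < p → ((f k : ℕ) : ZMod p) = (f 0 : ZMod p) + (k : ZMod p) * (jP : ZMod p) := by
    intro k
    induction k with
    | zero => intro _; simp
    | succ k ih =>
      intro hk
      have hk' : k < p := by omega
      have hRk := hall k hk'
      have hRk1 := hall (k + 1) hk
      have e : Q + (k + 1) • P = (Q + k • P) + P := by rw [succ_nsmul]; abel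
      rw [e] at hRk1
      have hadd := idx_add v hL ha hb0 h2 hβ hRk.1 hP hRk1.1
        (node_region v hL ha hb hb0 h2 hT hTX hTY hpp hp2 (hpR k) hRk.1 hRk.2) hRk.2
        hPb hxP
        (node_region v hL ha hb hb0 h2 hT hTX hTY hpp hp2 (by rw [← e]; exact hpR (k + 1))
          hRk1.1 hRk1.2) hRk1.2
        (j₃ := f (k + 1)) (hf (k + 1) hk).2.1.le (hf k hk').2.2 hjP
        (by rw [← e]; exact (hf (k + 1) hk).2.2)
      have hcast : ((f (k + 1) : ℕ) : ZMod p) = (f k : ZMod p) + (jP : ZMod p) := by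
        rcases hadd with h | h
        · rw [← h]; push_cast; ring
        · have h' := congrArg (fun n : ℕ => (n : ZMod p)) h
          simp only [Nat.cast_add, ZMod.natCast_self, add_zero] at h'
          exact h'.symm
      rw [hcast, ih hk']
      push_cast; ring
  -- choose `k` killing the index
  have hjP' : (jP : ZMod p) ≠ 0 := by
    rw [Ne, ZMod.natCast_eq_zero_iff]
    intro hd
    have := Nat.le_of_dvd hjP0 hd
    omega
  set k₀ : ZMod p := -(f 0 : ZMod p) / (jP : ZMod p) with hk₀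
  have hk₀lt : k₀.val < p := ZMod.val_lt k₀
  have h0 := hlin k₀.val hk₀lt
  rw [ZMod.natCast_zmod_val, hk₀, div_mul_cancel₀ _ hjP', add_neg_cancel] at h0
  rw [ZMod.natCast_eq_zero_iff] at h0
  obtain ⟨hpos, hlt, -⟩ := hf k₀.val hk₀lt
  have := Nat.le_of_dvd hpos h0
  omega

end Comp

section Char

variable {K : Type*} [Field K] {Γ₀ : Type*} [LinearOrderedCommGroupWithZero Γ₀]
  (v : Valuation K Γ₀) {G : Type*} [AddCommGroup G] {a b : K} {X Y : G → K}

/-- The toric character of the nodal cubic, `(Y - βX)/(Y + βX)` with `β² = a`. -/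
noncomputable def uu (X Y : G → K) (β : K) (P : G) : K :=
  (Y P - β * X P) / (Y P + β * X P)

/-- `x ≡ 1` implies `x ^ m ≡ 1` modulo the maximal ideal. -/
theorem val_pow_sub_one_lt {x : K} (hx : v x ≤ 1) (h : v (x - 1) < 1) (m : ℕ) :
    v (x ^ m - 1) < 1 := by
  induction m with
  | zero => simp
  | succ m ih =>
    have e : x ^ (m + 1) - 1 = x * (x ^ m - 1) + (x - 1) := by ring
    rw [e]
    refine v.map_add_lt ?_ h
    rw [v.map_mul]
    exact lt_of_le_of_lt (mul_le_of_le_one_left' hx) ih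

/-- If `w` is a unit with `w ≢ 1`, `w ^ p ≡ 1` (`p` prime) and `w ^ n ≡ 1`, then `p ∣ n`. -/
theorem dvd_of_pow_cong {w : K} (hw : v w = 1) (hw1 : v (w - 1) = 1) {p : ℕ} (hpp : p.Prime)
    (hp : v (w ^ p - 1) < 1) {n : ℕ} (hn : v (w ^ n - 1) < 1) : p ∣ n := by
  by_contra hdvd
  have hcop : Nat.Coprime n p := (Nat.Prime.coprime_iff_not_dvd hpp).mpr hdvd |>.symm
  obtain ⟨m, -, hm⟩ := Nat.exists_mul_mod_eq_one_of_coprime hcop hpp.one_lt
  obtain ⟨q, hq⟩ : ∃ q : ℕ, n * m = p * q + 1 := by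
    refine ⟨n * m / p, ?_⟩
    have := Nat.div_add_mod (n * m) p
    omega
  have h1 : v (w ^ (n * m) - 1) < 1 := by
    rw [pow_mul]
    exact val_pow_sub_one_lt v (by rw [v.map_pow, hw, one_pow]) hn m
  have h2 : v ((w ^ p) ^ q - 1) < 1 :=
    val_pow_sub_one_lt v (by rw [v.map_pow, hw, one_pow]) hp _
  have e : w - 1 = (w ^ (n * m) - 1) - ((w ^ p) ^ q - 1) * w := by
    rw [hq, pow_succ, pow_mul]; ring
  have h3 : v (w - 1) < 1 := by
    rw [e]
    refine v.map_sub_lt h1 ?_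
    rw [v.map_mul, hw, mul_one]
    exact h2
  rw [hw1] at h3
  exact lt_irrefl _ h3

variable (hL : IsLegCoord a b X Y) (ha : v a = 1) (hb : v b < 1) (h2 : v 2 = 1)
  {β : K} (hβ : β ^ 2 = a)

include hL ha hb hβ in
/-- At a point with unit `X` both `Y - βX` and `Y + βX` are units. -/
theorem val_factors {P : G} (hP : P ≠ 0) (hX : v (X P) = 1) :
    v (Y P - β * X P) = 1 ∧ v (Y P + β * X P) = 1 := by
  have hβ1 : v β = 1 := val_beta_eq_one v ha hβ
  have hY : v (Y P) ≤ 1 := val_Y_le_one v hL ha.le hb.le hP hX.le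
  have hβX : v (β * X P) = 1 := by rw [v.map_mul, hβ1, hX, one_mul]
  have hm : v (Y P - β * X P) ≤ 1 := v.map_sub_le hY hβX.le
  have hp' : v (Y P + β * X P) ≤ 1 := v.map_add_le hY hβX.le
  have hprod : (Y P - β * X P) * (Y P + β * X P) = X P ^ 3 + b * X P := by
    linear_combination hL.eqn P hP - X P ^ 2 * hβ
  have hv : v ((Y P - β * X P) * (Y P + β * X P)) = 1 := by
    rw [hprod]
    have h3 : v (X P ^ 3) = 1 := by rw [v.map_pow, hX, one_pow]
    have hbX : v (b * X P) < v (X P ^ 3) := by rw [h3, v.map_mul, hX, mul_one]; exact hb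
    rw [v.map_add_eq_of_lt_left hbX, h3]
  rw [v.map_mul] at hv
  constructor
  · by_contra hne
    have hlt : v (Y P - β * X P) < 1 := lt_of_le_of_ne hm hne
    have : v (Y P - β * X P) * v (Y P + β * X P) < 1 :=
      lt_of_le_of_lt (mul_le_of_le_one_right' hp') hlt
    rw [hv] at this; exact lt_irrefl _ this
  · by_contra hne
    have hlt : v (Y P + β * X P) < 1 := lt_of_le_of_ne hp' hne
    have : v (Y P - β * X P) * v (Y P + β * X P) < 1 :=
      lt_of_le_of_lt (mul_le_of_le_one_left' hm) hlt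
    rw [hv] at this; exact lt_irrefl _ this

include hL ha hb hβ in
theorem val_uu {P : G} (hP : P ≠ 0) (hX : v (X P) = 1) : v (uu X Y β P) = 1 := by
  obtain ⟨h1, h2'⟩ := val_factors v hL ha hb hβ hP hX
  unfold uu
  rw [v.map_div, h1, h2', div_one]

include hL ha hb hβ in
theorem uu_neg {P : G} (hP : P ≠ 0) (hX : v (X P) = 1) :
    uu X Y β (-P) = (uu X Y β P)⁻¹ := by
  obtain ⟨h1, h2'⟩ := val_factors v hL ha hb hβ hP hX
  have n1 : Y P - β * X P ≠ 0 := by
    intro h; rw [h, map_zero] at h1; exact zero_ne_one h1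
  have n2 : Y P + β * X P ≠ 0 := by
    intro h; rw [h, map_zero] at h2'; exact zero_ne_one h2'
  unfold uu
  rw [hL.negX P hP, hL.negY P hP, inv_div]
  have e1 : -Y P - β * X P = -(Y P + β * X P) := by ring
  have e2 : -Y P + β * X P = -(Y P - β * X P) := by ring
  rw [e1, e2, neg_div_neg_eq]

include hL ha hb h2 hβ in
/-- At a point with unit `X` the character is `≢ 1`. -/
theorem val_uu_sub_one {P : G} (hP : P ≠ 0) (hX : v (X P) = 1) :
    v (uu X Y β P - 1) = 1 := by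
  obtain ⟨h1, h2'⟩ := val_factors v hL ha hb hβ hP hX
  have hβ1 : v β = 1 := val_beta_eq_one v ha hβ
  have n2 : Y P + β * X P ≠ 0 := by
    intro h; rw [h, map_zero] at h2'; exact zero_ne_one h2'
  have e : uu X Y β P - 1 = -(2 * β * X P) / (Y P + β * X P) := by
    unfold uu; field_simp; ring
  rw [e, v.map_div, v.map_neg, v.map_mul, v.map_mul, h2, hβ1, hX, h2', one_mul, one_mul, div_one]

include hL ha hb hβ in
/-- **Multiplicativity of the character** on collinear triples of points with unit `X`. -/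
theorem uu_triple {P₁ P₂ P₃ : G} (h₁ : P₁ ≠ 0) (h₂ : P₂ ≠ 0) (h₃ : P₃ ≠ 0)
    (hs : P₁ + P₂ + P₃ = 0) (hX₁ : v (X P₁) = 1) (hX₂ : v (X P₂) = 1) (hX₃ : v (X P₃) = 1) :
    v (uu X Y β P₁ * uu X Y β P₂ * uu X Y β P₃ - 1) < 1 := by
  obtain ⟨l, m, hy₁, hy₂, hy₃, e₁, e₂, e₃⟩ := hL.vieta P₁ P₂ P₃ h₁ h₂ h₃ hs
  have hβ1 : v β = 1 := val_beta_eq_one v ha hβ
  obtain ⟨-, q₁⟩ := val_factors v hL ha hb hβ h₁ hX₁
  obtain ⟨-, q₂⟩ := val_factors v hL ha hb hβ h₂ hX₂
  obtain ⟨-, q₃⟩ := val_factors v hL ha hb hβ h₃ hX₃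
  have n₁ : Y P₁ + β * X P₁ ≠ 0 := by
    intro h; rw [h, map_zero] at q₁; exact zero_ne_one q₁
  have n₂ : Y P₂ + β * X P₂ ≠ 0 := by
    intro h; rw [h, map_zero] at q₂; exact zero_ne_one q₂
  have n₃ : Y P₃ + β * X P₃ ≠ 0 := by
    intro h; rw [h, map_zero] at q₃; exact zero_ne_one q₃
  -- the key identity
  have key : (Y P₁ - β * X P₁) * (Y P₂ - β * X P₂) * (Y P₃ - β * X P₃)
      - (Y P₁ + β * X P₁) * (Y P₂ + β * X P₂) * (Y P₃ + β * X P₃) = -(4 * l * β * m * b) := by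
    rw [hy₁, hy₂, hy₃]
    linear_combination (-6 * l ^ 2 * β - 2 * β ^ 3) * e₃ + (-4 * l * β * m) * e₂
      + (-2 * β * m ^ 2) * e₁ + (-2 * β * m ^ 2) * hβ
  -- integrality of `l` and `m`
  have hm : v m ≤ 1 := by
    apply le_of_sq_le_sq'
    rw [← v.map_pow, ← e₃, v.map_mul, v.map_mul, hX₁, hX₂, hX₃]; simp
  have hl : v l ≤ 1 := by
    apply le_of_sq_le_sq'
    have : l ^ 2 = X P₁ + X P₂ + X P₃ + a := by linear_combination -e₁
    rw [← v.map_pow, this, one_pow]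
    exact v.map_add_le (v.map_add_le (v.map_add_le hX₁.le hX₂.le) hX₃.le) ha.le
  have e : uu X Y β P₁ * uu X Y β P₂ * uu X Y β P₃ - 1 =
      -(4 * l * β * m * b) /
        ((Y P₁ + β * X P₁) * (Y P₂ + β * X P₂) * (Y P₃ + β * X P₃)) := by
    rw [← key]; unfold uu; field_simp
  rw [e, v.map_div, v.map_mul, v.map_mul, q₁, q₂, q₃, one_mul, one_mul, div_one, v.map_neg,
    v.map_mul, v.map_mul, v.map_mul, v.map_mul, hβ1, mul_one]
  calc v 4 * v l * v m * v b ≤ 1 * 1 * 1 * v b := by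
        gcongr
        · exact val_four_le_one v
    _ = v b := by simp
    _ < 1 := hb

variable {p : ℕ} (hpp : p.Prime) (hp : v (p : K) = 1)

include hL ha hb h2 hpp hp in
/-- Multiples (prime to `p`) of a nonzero `p`-torsion point of `E₀` are nonzero with unit `X`. -/
theorem val_X_nsmul {t : G} (ht : t ≠ 0) (hpt : p • t = 0) (hxt : 1 ≤ v (X t)) {k : ℕ}
    (hk : ¬ p ∣ k) : k • t ≠ 0 ∧ v (X (k • t)) = 1 := by
  have hk0 : k • t ≠ 0 := by
    intro h0
    have : t ∈ (⊥ : AddSubgroup G) :=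
      mem_of_nsmul_mem hpp hk hpt (by rw [h0]; exact zero_mem _)
    exact ht (AddSubgroup.mem_bot.mp this)
  have hmem : k • t ∈ E0 v hL ha.le hb h2 := nsmul_mem (Or.inr hxt) k
  have hge : 1 ≤ v (X (k • t)) := hmem.resolve_left hk0
  refine ⟨hk0, le_antisymm ?_ hge⟩
  by_contra hgt
  have hgt' : 1 < v (X (k • t)) := lt_of_not_ge hgt
  apply E1_torsion_free v hL ha.le hb.le hp hk0 hgt'
  rw [smul_comm, hpt, smul_zero]

include hL ha hb h2 hβ hpp hp in
/-- The character is multiplicative along the multiples of `t`. -/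
theorem uu_nsmul {t : G} (ht : t ≠ 0) (hpt : p • t = 0) (hxt : 1 ≤ v (X t)) (k : ℕ)
    (hk1 : 1 ≤ k) : k < p → v (uu X Y β (k • t) - uu X Y β t ^ k) < 1 := by
  have h1p : ¬ p ∣ 1 := Nat.not_dvd_of_pos_of_lt one_pos hpp.one_lt
  have hX1 : v (X t) = 1 := by
    have := (val_X_nsmul v hL ha hb h2 hpp hp ht hpt hxt h1p).2
    rwa [one_nsmul] at this
  have hw : v (uu X Y β t) = 1 := val_uu v hL ha hb hβ ht hX1
  induction k, hk1 using Nat.le_induction with
  | base => intro _; simp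
  | succ k hk1 ih =>
    intro hk
    have ihk := ih (by omega)
    have hkp : ¬ p ∣ k := Nat.not_dvd_of_pos_of_lt (by omega) (by omega)
    have hk1p : ¬ p ∣ k + 1 := Nat.not_dvd_of_pos_of_lt (by omega) hk
    obtain ⟨hQ0, hQX⟩ := val_X_nsmul v hL ha hb h2 hpp hp ht hpt hxt hkp
    obtain ⟨hR0, hRX⟩ := val_X_nsmul v hL ha hb h2 hpp hp ht hpt hxt hk1p
    have hR0' : -((k + 1) • t) ≠ 0 := neg_ne_zero.mpr hR0
    have hRX' : v (X (-((k + 1) • t))) = 1 := by rw [hL.negX _ hR0]; exact hRX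
    have hsum : k • t + t + -((k + 1) • t) = 0 := by rw [succ_nsmul]; abel
    have tri := uu_triple v hL ha hb hβ hQ0 ht hR0' hsum hQX hX1 hRX'
    rw [uu_neg v hL ha hb hβ hR0 hRX] at tri
    have hU : v (uu X Y β ((k + 1) • t)) = 1 := val_uu v hL ha hb hβ hR0 hRX
    have hU0 : uu X Y β ((k + 1) • t) ≠ 0 := by
      intro h; rw [h, map_zero] at hU; exact zero_ne_one hU
    -- `u(kt) u(t) ≡ u((k+1)t)`
    have c1 : v (uu X Y β (k • t) * uu X Y β t - uu X Y β ((k + 1) • t)) < 1 := by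
      have e : uu X Y β (k • t) * uu X Y β t - uu X Y β ((k + 1) • t) =
          (uu X Y β (k • t) * uu X Y β t * (uu X Y β ((k + 1) • t))⁻¹ - 1) *
            uu X Y β ((k + 1) • t) := by
        field_simp
      rw [e, v.map_mul, hU, mul_one]
      exact tri
    -- `u(kt) u(t) ≡ u(t)^(k+1)`
    have c2 : v (uu X Y β (k • t) * uu X Y β t - uu X Y β t ^ (k + 1)) < 1 := by
      have e : uu X Y β (k • t) * uu X Y β t - uu X Y β t ^ (k + 1) =
          (uu X Y β (k • t) - uu X Y β t ^ k) * uu X Y β t := by ring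
      rw [e, v.map_mul, hw, mul_one]
      exact ihk
    have e : uu X Y β ((k + 1) • t) - uu X Y β t ^ (k + 1) =
        (uu X Y β (k • t) * uu X Y β t - uu X Y β t ^ (k + 1)) -
          (uu X Y β (k • t) * uu X Y β t - uu X Y β ((k + 1) • t)) := by ring
    rw [e]
    exact v.map_sub_lt c2 c1

include hL ha hb h2 hβ hpp hp in
/-- The character of a nonzero `p`-torsion point of `E₀` has `p`-th power `≡ 1`. -/
theorem val_uu_pow_sub_one {t : G} (ht : t ≠ 0) (hpt : p • t = 0) (hxt : 1 ≤ v (X t))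
    (hp2 : p ≠ 2) : v (uu X Y β t ^ p - 1) < 1 := by
  have hp3 : 3 ≤ p := by
    have := hpp.two_le
    omega
  have h1p : ¬ p ∣ 1 := Nat.not_dvd_of_pos_of_lt one_pos hpp.one_lt
  have hX1 : v (X t) = 1 := by
    have := (val_X_nsmul v hL ha hb h2 hpp hp ht hpt hxt h1p).2
    rwa [one_nsmul] at this
  have hw : v (uu X Y β t) = 1 := val_uu v hL ha hb hβ ht hX1
  have hw0 : uu X Y β t ≠ 0 := by
    intro h; rw [h, map_zero] at hw; exact zero_ne_one hw
  have hneg : (p - 1) • t = -t := by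
    have : (p - 1) • t + t = 0 := by
      rw [← succ_nsmul, Nat.sub_add_cancel hpp.one_le]; exact hpt
    exact eq_neg_of_add_eq_zero_left this
  have h := uu_nsmul v hL ha hb h2 hβ hpp hp ht hpt hxt (p - 1) (by omega) (by omega)
  rw [hneg, uu_neg v hL ha hb hβ ht hX1] at h
  have e : uu X Y β t ^ p - 1 = -(((uu X Y β t)⁻¹ - uu X Y β t ^ (p - 1)) * uu X Y β t) := by
    have : uu X Y β t ^ p = uu X Y β t ^ (p - 1) * uu X Y β t := by
      rw [← pow_succ, Nat.sub_add_cancel hpp.one_le]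
    rw [this]; field_simp; ring
  rw [e, v.map_neg, v.map_mul, hw, mul_one]
  exact h

include hL ha hb h2 hβ hpp hp in
/-- **Frobenius-fixed torsion in the zero component.**  Let `t` be a nonzero `p`-torsion point
with `1 ≤ v (X t)` (`p` an odd prime, a unit), and let `s` be a ring endomorphism of `K` with
`s u ≡ u ^ ℓ` modulo the maximal ideal for integral `u` (a Frobenius element), fixing `a` and the
coordinates of `t`.  Then `p ∣ ℓ - 1` or `p ∣ ℓ + 1`. -/
theorem dvd_of_frob_fixed {t : G} (ht : t ≠ 0) (hpt : p • t = 0) (hxt : 1 ≤ v (X t))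
    (hp2 : p ≠ 2) {ℓ : ℕ} (hℓ : 1 ≤ ℓ) (s : K →+* K)
    (hfrob : ∀ u : K, v u ≤ 1 → v (s u - u ^ ℓ) < 1)
    (hsa : s a = a) (hsX : s (X t) = X t) (hsY : s (Y t) = Y t) :
    p ∣ ℓ - 1 ∨ p ∣ ℓ + 1 := by
  have h1p : ¬ p ∣ 1 := Nat.not_dvd_of_pos_of_lt one_pos hpp.one_lt
  have hX1 : v (X t) = 1 := by
    have := (val_X_nsmul v hL ha hb h2 hpp hp ht hpt hxt h1p).2
    rwa [one_nsmul] at this
  set w := uu X Y β t with hwdef
  have hw : v w = 1 := val_uu v hL ha hb hβ ht hX1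
  have hw0 : w ≠ 0 := by
    intro h; rw [h, map_zero] at hw; exact zero_ne_one hw
  have hw1 : v (w - 1) = 1 := val_uu_sub_one v hL ha hb h2 hβ ht hX1
  have hwp : v (w ^ p - 1) < 1 := val_uu_pow_sub_one v hL ha hb h2 hβ hpp hp ht hpt hxt hp2
  obtain ⟨f1, f2⟩ := val_factors v hL ha hb hβ ht hX1
  have n1 : Y t - β * X t ≠ 0 := by
    intro h; rw [h, map_zero] at f1; exact zero_ne_one f1
  have n2 : Y t + β * X t ≠ 0 := by
    intro h; rw [h, map_zero] at f2; exact zero_ne_one f2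
  have hsβ : s β = β ∨ s β = -β := by
    apply eq_or_eq_neg_of_sq_eq_sq
    rw [← map_pow, hβ, hsa]
  have hfw := hfrob w hw.le
  rcases hsβ with hβs | hβs
  · -- `s w = w`, so `w ^ ℓ ≡ w`
    left
    have hsw : s w = w := by
      rw [hwdef]; unfold uu
      rw [map_div₀, map_sub, map_add, map_mul, hsX, hsY, hβs]
    rw [hsw] at hfw
    apply dvd_of_pow_cong v hw hw1 hpp hwp
    have e : w ^ (ℓ - 1) - 1 = -((w - w ^ ℓ) * w⁻¹) := by
      have : w ^ ℓ = w ^ (ℓ - 1) * w := by rw [← pow_succ, Nat.sub_add_cancel hℓ]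
      rw [this]; field_simp; ring
    rw [e, v.map_neg, v.map_mul, map_inv₀, hw, inv_one, mul_one]
    exact hfw
  · -- `s w = w⁻¹`, so `w ^ ℓ ≡ w⁻¹`
    right
    have hsw : s w = w⁻¹ := by
      rw [hwdef]; unfold uu
      rw [map_div₀, map_sub, map_add, map_mul, hsX, hsY, hβs, inv_div]
      congr 1 <;> ring
    rw [hsw] at hfw
    apply dvd_of_pow_cong v hw hw1 hpp hwp
    have e : w ^ (ℓ + 1) - 1 = -((w⁻¹ - w ^ ℓ) * w) := by
      rw [pow_succ]; field_simp; ring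
    rw [e, v.map_neg, v.map_mul, hw, mul_one]
    exact hfw

end Char

end Fermat.Agent.S12.helper4404
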