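import Fermat.Agent.S12.helper4404_NodeChar
import Fermat.Agent.S05.helper245_Local
import Fermat.Agent.S05.helper725_Transfer
import Fermat.Prelude.Def_EllipticCurve_ZeroComponentAt
import Fermat.Prelude.Def_EllipticCurve_FrobeniusTrace
import Fermat.Prelude.Def_FLTPrelim_Ramification
import Fermat.Agent.Lib.helper872_QbarPlaces
import Fermat.Agent.S13.helper3034_FreyAtTwo

/-!
# S12 leaf PM-COF (helper4404): a cofixed line which is not toric at `ℓ` forces `p ∣ ℓ² - 1`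

Let `W` be an integral Weierstrass curve of Frey shape (`a₁ = 1`, `a₃ = a₆ = 0`,
`4 a₂ + 1 = B - A`, `16 a₄ = -A B`; Legendre form `Y² = X (X - A) (X + B)`, `X = 4x`), `ℓ` an odd
prime of multiplicative reduction, `p ≠ ℓ` an odd prime, `A` a valuation subring of `ℚ̄` over
`ℓ` and `σ` a Frobenius element at `A`.  If `n` is a `p`-torsion point **not** in the zero
component at `A`, `Q` is a `p`-torsion point which is not a multiple of `n`, and `σ` moves the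
points `Q + k • n` only by multiples of `n` (e.g. `n` spans a cofixed line), then
`p ∣ ℓ - 1 ∨ p ∣ ℓ + 1` (`pm_cof_local`).

This is the pair-form (cusp `∞`) twin of "a rational point of order `p` in the zero component at
`ℓ` forces `ℓ ≡ ±1 mod p`", needed so that the Eisenstein descent may use `ℓ ≠ r`.
-/

set_option autoImplicit false

namespace Fermat.Agent.S12.helper4404

open WeierstrassCurve WeierstrassCurve.Affine
open Fermat.Agent.S05.helper245 Fermat.Agent.S05.helper725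
open Fermat.Agent.Lib

local notation "Qb" => AlgebraicClosure ℚ
local notation "GQ" => (AlgebraicClosure ℚ ≃ₐ[ℚ] AlgebraicClosure ℚ)

/-! ### Decomposition group and Frobenius elements, pointwise -/

theorem decomp_mem {A : ValuationSubring Qb} {σ : GQ} (hσ : σ ∈ A.decompositionSubgroup ℚ)
    {x : Qb} (hx : x ∈ A) : σ x ∈ A :=
  ((⟨σ, hσ⟩ : A.decompositionSubgroup ℚ) • (⟨x, hx⟩ : A)).2

/-- An element of the decomposition group preserves `1 ≤ v`. -/
theorem decomp_one_le {A : ValuationSubring Qb} {σ : GQ} (hσ : σ ∈ A.decompositionSubgroup ℚ)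
    {x : Qb} (hx : 1 ≤ A.valuation x) : 1 ≤ A.valuation (σ x) := by
  by_contra hlt
  have hlt' : A.valuation (σ x) < 1 := lt_of_not_ge hlt
  have hx0 : x ≠ 0 := by
    rintro rfl
    rw [map_zero] at hx
    exact absurd hx (not_le.mpr zero_lt_one)
  have hinv : x⁻¹ ∈ A := by
    rw [← A.valuation_le_one_iff, map_inv₀]
    exact inv_le_one_of_one_le₀ hx
  have h1 : σ x⁻¹ ∈ A := decomp_mem hσ hinv
  rw [map_inv₀, ← A.valuation_le_one_iff, map_inv₀] at h1
  have hσx0 : A.valuation (σ x) ≠ 0 := by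
    rw [Ne, Valuation.zero_iff]
    exact (map_ne_zero σ).mpr hx0
  have h2 : 1 < (A.valuation (σ x))⁻¹ := (one_lt_inv₀ (zero_lt_iff.mpr hσx0)).mpr hlt'
  exact absurd h1 (not_le.mpr h2)

/-- The defining congruence of a Frobenius element. -/
theorem frob_congr {A : ValuationSubring Qb} {σ : GQ} {ℓ : ℕ} (hσ : A.IsFrobeniusAt σ ℓ)
    {u : Qb} (hu : A.valuation u ≤ 1) : A.valuation (σ u - u ^ ℓ) < 1 := by
  obtain ⟨hd, hfr⟩ := hσ
  have huA : u ∈ A := (A.valuation_le_one_iff u).mp hu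
  have h2 := hfr (IsLocalRing.residue A ⟨u, huA⟩)
  rw [← IsLocalRing.ResidueField.residue_smul, ← map_pow] at h2
  have h3 : ((⟨σ, hd⟩ : A.decompositionSubgroup ℚ) • (⟨u, huA⟩ : A)) - (⟨u, huA⟩ : A) ^ ℓ ∈
      IsLocalRing.maximalIdeal A := by
    rw [← Ideal.Quotient.eq]; exact h2
  rw [ValuationSubring.valuation_lt_one_iff] at h3
  exact h3

/-! ### The core statement on a Legendre-type model `Y² = X³ + a₂ X² + a₄ X` over `ℚ` -/

/-- **Core of PM-COF** on a short model over `ℚ` with a node at `(0,0)` modulo `A`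
(`a₂` a unit, `a₄` in the maximal ideal). -/
theorem core (A : ValuationSubring Qb) (L : WeierstrassCurve ℚ)
    (h₁ : L.a₁ = 0) (h₃ : L.a₃ = 0) (h₆ : L.a₆ = 0) (h₄ : L.a₄ ≠ 0)
    (ha₂ : A.valuation (algebraMap ℚ Qb L.a₂) = 1)
    (ha₄ : A.valuation (algebraMap ℚ Qb L.a₄) < 1)
    (h2 : A.valuation (2 : Qb) = 1)
    {p : ℕ} (hpp : p.Prime) (hp2 : p ≠ 2) (hp : A.valuation (p : Qb) = 1)
    {ℓ : ℕ} (hℓ : 1 ≤ ℓ) (σ : GQ) (hσ : A.IsFrobeniusAt σ ℓ)
    (n Q : (L⁄Qb).Point) (hpn : p • n = 0) (hn0 : n ≠ 0) (hxn : A.valuation (ptX n) < 1)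
    (hpQ : p • Q = 0) (hQ : ∀ k : ℕ, Q + k • n ≠ 0)
    (hcof : ∀ k : ℕ, ∃ i : ℤ, σ • (Q + k • n) - (Q + k • n) = i • n) :
    p ∣ ℓ - 1 ∨ p ∣ ℓ + 1 := by
  have e₁ : (L⁄Qb).a₁ = 0 := by simp [WeierstrassCurve.baseChange, h₁]
  have e₃ : (L⁄Qb).a₃ = 0 := by simp [WeierstrassCurve.baseChange, h₃]
  have e₆ : (L⁄Qb).a₆ = 0 := by simp [WeierstrassCurve.baseChange, h₆]
  have e₂ : (L⁄Qb).a₂ = algebraMap ℚ Qb L.a₂ := by simp [WeierstrassCurve.baseChange]
  have e₄ : (L⁄Qb).a₄ = algebraMap ℚ Qb L.a₄ := by simp [WeierstrassCurve.baseChange]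
  have hL := isLegCoord_of_short (W := (L⁄Qb)) e₁ e₃ e₆
  rw [e₂, e₄] at hL
  have hb0 : algebraMap ℚ Qb L.a₄ ≠ 0 := by rw [Ne, map_eq_zero]; exact h₄
  obtain ⟨β, hβ⟩ := IsAlgClosed.exists_pow_nat_eq (algebraMap ℚ Qb L.a₂) (n := 2) (by norm_num)
  have hT : (L⁄Qb).Nonsingular 0 0 := by
    rw [nonsingular_zero]
    exact ⟨e₆, Or.inr (by rw [e₄]; exact hb0)⟩
  have hT0 : Point.some 0 0 hT ≠ 0 := Point.some_ne_zero _
  have hσd := hσ.mem_decompositionSubgroup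
  -- coordinates of `σ • P`
  have hτX : ∀ P : (L⁄Qb).Point, P ≠ 0 → ptX (σ • P) = σ (ptX P) := by
    intro P hP
    cases P with
    | zero => exact absurd rfl hP
    | some x y h => rw [Point.algEquiv_smul_def, Point.map_some]; rfl
  have hτY : ∀ P : (L⁄Qb).Point, P ≠ 0 → ptY (σ • P) = σ (ptY P) := by
    intro P hP
    cases P with
    | zero => exact absurd rfl hP
    | some x y h => rw [Point.algEquiv_smul_def, Point.map_some]; rfl
  have hτ0 : ∀ P : (L⁄Qb).Point, P ≠ 0 → σ • P ≠ 0 := by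
    intro P hP
    cases P with
    | zero => exact absurd rfl hP
    | some x y h => rw [Point.algEquiv_smul_def, Point.map_some]; exact Point.some_ne_zero _
  -- a nonzero point of `E₀ ∩ E[p]`
  obtain ⟨k, -, hk⟩ := exists_add_nsmul_zero_or_le A.valuation hL ha₂ ha₄ hb0 h2 hβ hT0 rfl rfl
    hpp hp2 hpn hn0 hxn hpQ
  set t := Q + k • n with ht
  have ht0 : t ≠ 0 := hQ k
  have hxt : 1 ≤ A.valuation (ptX t) := hk.resolve_left ht0
  have hpt : p • t = 0 := by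
    rw [ht, nsmul_add, hpQ, zero_add, ← mul_nsmul, mul_comm, mul_nsmul, hpn, nsmul_zero]
  -- `σ` fixes `t`
  obtain ⟨i, hi⟩ := hcof k
  let E := E0 A.valuation hL ha₂.le ha₄ h2
  have hσt : σ • t ∈ E := by
    right
    rw [hτX t ht0]
    exact decomp_one_le hσd hxt
  have htE : t ∈ E := Or.inr hxt
  have hiE : i • n ∈ E := by rw [← hi]; exact E.sub_mem hσt htE
  have hnE : n ∉ E := by
    rintro (h | h)
    · exact hn0 h
    · exact absurd hxn (not_lt.mpr h)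
  have hdvd : p ∣ i.natAbs := by
    by_contra hnd
    apply hnE
    apply mem_of_nsmul_mem hpp hnd hpn
    rcases Int.natAbs_eq i with h | h
    · have : i.natAbs • n = i • n := by
        conv_rhs => rw [h]
        rw [natCast_zsmul]
      rw [this]; exact hiE
    · have : i.natAbs • n = -(i • n) := by
        conv_rhs => rw [h]
        rw [neg_zsmul, neg_neg, natCast_zsmul]
      rw [this]; exact E.neg_mem hiE
  have hin : i • n = 0 := by
    obtain ⟨c, hc⟩ := hdvd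
    have hz : i.natAbs • n = 0 := by rw [hc, mul_nsmul, hpn, nsmul_zero]
    rcases Int.natAbs_eq i with h | h
    · rw [h, natCast_zsmul, hz]
    · rw [h, neg_zsmul, natCast_zsmul, hz, neg_zero]
  have hfix : σ • t = t := by
    rw [hin] at hi
    exact sub_eq_zero.mp hi
  -- apply the abstract theorem
  refine dvd_of_frob_fixed A.valuation hL ha₂ ha₄ h2 hβ hpp hp ht0 hpt hxt hp2 hℓ
    (σ : Qb →+* Qb) (fun u hu => frob_congr hσ hu) (σ.commutes _) ?_ ?_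
  · have := hτX t ht0
    rw [hfix] at this
    exact this.symm
  · have := hτY t ht0
    rw [hfix] at this
    exact this.symm

/-! ### Dictionary: unit (or non-integral) Legendre abscissa ⟹ zero component -/

/-- An integer divisible by `ℓ` lies in the maximal ideal of a valuation subring over `ℓ`. -/
theorem valuation_intCast_lt_one {ℓ : ℕ} (A : ValuationSubring Qb) (hA : A.LiesOverPrime ℓ)
    {m : ℤ} (hm : (ℓ : ℤ) ∣ m) : A.valuation (m : Qb) < 1 := by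
  obtain ⟨c, rfl⟩ := hm
  have h1 : A.valuation (ℓ : Qb) < 1 := (ValuationSubring.mem_nonunits_iff A).1 hA
  have h2 : A.valuation (c : Qb) ≤ 1 := (A.valuation_le_one_iff _).2 (helper872.intCast_mem A c)
  push_cast
  rw [map_mul]
  exact lt_of_le_of_lt (mul_le_of_le_one_right' h2) h1

/-- Pure field computation: a singular point of `y² + xy = x³ + a₂x² + a₄x` has Legendre
abscissa `4x` equal to the node (`0` if `AB = 0`, `A` if `A + B = 0`, `A ≠ 0`), where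
`4a₂ + 1 = B - A`, `16a₄ = -AB`. -/
theorem node_of_singular {k : Type*} [Field k] (xb yb a2 a4 Ak Bk r : k)
    (heqk : yb ^ 2 + xb * yb = xb ^ 3 + a2 * xb ^ 2 + a4 * xb)
    (s1 : yb = 3 * xb ^ 2 + 2 * a2 * xb + a4) (s2 : yb = -yb - xb - 0)
    (hc : 4 * a2 + 1 = Bk - Ak) (hd : 16 * a4 = -(Ak * Bk))
    (hr : (r = 0 ∧ Ak * Bk = 0) ∨ (r = -Ak ∧ Ak + Bk = 0 ∧ Ak ≠ 0)) :
    4 * xb + r = 0 := by
  -- double root of the cubic in `X = 4 xb`
  have P1 : (4 * xb) ^ 3 + (4 * a2 + 1) * (4 * xb) ^ 2 + 16 * a4 * (4 * xb) = 0 := by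
    linear_combination (-64 : k) * heqk + (16 * (2 * yb + xb) : k) * s2
  have P2 : 3 * (4 * xb) ^ 2 + 2 * (4 * a2 + 1) * (4 * xb) + 16 * a4 = 0 := by
    linear_combination (-16 : k) * s1 + (8 : k) * s2
  rw [hc, hd] at P1 P2
  rcases hr with ⟨rfl, hAB0⟩ | ⟨rfl, hC0, hA0⟩
  · -- node at `X = 0`
    rw [add_zero]
    by_contra hX0
    have Q1 : (4 * xb) ^ 2 * (4 * xb + (Bk - Ak)) = 0 := by
      linear_combination P1 + (4 * xb) * hAB0
    have Q2 : (4 * xb) * (3 * (4 * xb) + 2 * (Bk - Ak)) = 0 := by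
      linear_combination P2 + hAB0
    have R1 := (mul_eq_zero.mp Q1).resolve_left (pow_ne_zero 2 hX0)
    have R2 := (mul_eq_zero.mp Q2).resolve_left hX0
    apply hX0
    linear_combination R2 - 2 * R1
  · -- node at `X = A`
    have hgoal : 4 * xb - Ak = 0 := by
      by_contra hne
      have Q1 : (4 * xb) * (4 * xb - Ak) ^ 2 = 0 := by
        linear_combination P1 - ((4 * xb) ^ 2 - Ak * (4 * xb)) * hC0
      have Q2 : (3 * (4 * xb) - Ak) * (4 * xb - Ak) = 0 := by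
        linear_combination P2 + (Ak - 2 * (4 * xb)) * hC0
      have R1 := (mul_eq_zero.mp Q1).resolve_right (pow_ne_zero 2 hne)
      have R2 := (mul_eq_zero.mp Q2).resolve_right hne
      apply hA0
      linear_combination 3 * R1 - R2
    linear_combination hgoal

section Dict

variable (W : WeierstrassCurve ℤ) (Aa Bb : ℤ)
  (h₁ : W.a₁ = 1) (h₃ : W.a₃ = 0) (h₆ : W.a₆ = 0)
  (h₂ : 4 * W.a₂ + 1 = Bb - Aa) (h₄ : 16 * W.a₄ = -(Aa * Bb))

include h₁ h₃ h₆ in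
/-- The equation of a Frey-shaped curve over `ℚ̄`. -/
theorem frey_shape_equation {x y : Qb}
    (h : ((W.map (Int.castRingHom ℚ))⁄Qb).toAffine.Equation x y) :
    y ^ 2 + x * y = x ^ 3 + (W.a₂ : Qb) * x ^ 2 + (W.a₄ : Qb) * x := by
  have h' := (Affine.equation_iff x y).mp h
  simp only [WeierstrassCurve.baseChange, WeierstrassCurve.map_a₁, WeierstrassCurve.map_a₂,
    WeierstrassCurve.map_a₃, WeierstrassCurve.map_a₄, WeierstrassCurve.map_a₆, h₁, h₃, h₆,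
    eq_intCast, map_one, map_zero, map_intCast] at h'
  linear_combination h'

include h₁ h₃ h₆ in
/-- On a Frey-shaped curve, `x ∈ A` implies `y ∈ A`. -/
theorem frey_shape_y_mem (A : ValuationSubring Qb) {x y : Qb}
    (h : ((W.map (Int.castRingHom ℚ))⁄Qb).toAffine.Equation x y) (hx : x ∈ A) : y ∈ A := by
  have heq := frey_shape_equation W h₁ h₃ h₆ h
  rw [← A.valuation_le_one_iff] at hx ⊢
  by_contra hy
  have hy' : 1 < A.valuation y := lt_of_not_ge hy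
  have ha₂ : A.valuation (W.a₂ : Qb) ≤ 1 :=
    (A.valuation_le_one_iff _).2 (helper872.intCast_mem A _)
  have ha₄ : A.valuation (W.a₄ : Qb) ≤ 1 :=
    (A.valuation_le_one_iff _).2 (helper872.intCast_mem A _)
  have hR : A.valuation (x ^ 3 + (W.a₂ : Qb) * x ^ 2 + (W.a₄ : Qb) * x) ≤ 1 := by
    refine (A.valuation).map_add_le ((A.valuation).map_add_le ?_ ?_) ?_
    · rw [map_pow]; exact pow_le_one₀ zero_le hx
    · rw [map_mul, map_pow]
      calc A.valuation (W.a₂ : Qb) * A.valuation x ^ 2 ≤ 1 * 1 :=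
            mul_le_mul' ha₂ (pow_le_one₀ zero_le hx)
        _ = 1 := one_mul 1
    · rw [map_mul]
      calc A.valuation (W.a₄ : Qb) * A.valuation x ≤ 1 * 1 := mul_le_mul' ha₄ hx
        _ = 1 := one_mul 1
  have hL : A.valuation (y ^ 2 + x * y) = A.valuation y * A.valuation y := by
    have e : y ^ 2 + x * y = y * (y + x) := by ring
    have hxy : A.valuation x < A.valuation y := lt_of_le_of_lt hx hy'
    rw [e, map_mul, (A.valuation).map_add_eq_of_lt_left hxy]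
  rw [← heq, hL] at hR
  have : (1 : A.ValueGroup) < A.valuation y * A.valuation y := by
    calc (1 : A.ValueGroup) = 1 * 1 := (one_mul 1).symm
      _ < A.valuation y * A.valuation y := mul_lt_mul'' hy' hy' zero_le zero_le
  exact absurd hR (not_le.mpr this)

include h₁ h₃ h₆ h₂ h₄ in
/-- **Dictionary.**  For a Frey-shaped integral curve and a prime `ℓ`: if the Legendre abscissa
`4x + r` centred at the node (`r = 0` when `ℓ ∣ AB`, `r = -A` when `ℓ ∣ A + B`, `ℓ ∤ A`) has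
valuation `≥ 1`, the point is in the zero component at `A`. -/
theorem inZero_of_one_le {ℓ : ℕ} (hℓ : ℓ.Prime) (A : ValuationSubring Qb)
    (hA : A.LiesOverPrime ℓ) (r : ℤ)
    (hr : (r = 0 ∧ (ℓ : ℤ) ∣ Aa * Bb) ∨ (r = -Aa ∧ (ℓ : ℤ) ∣ Aa + Bb ∧ ¬ (ℓ : ℤ) ∣ Aa))
    {x y : Qb} (h : ((W.map (Int.castRingHom ℚ))⁄Qb).toAffine.Nonsingular x y)
    (hX : 1 ≤ A.valuation (4 * x + (r : Qb))) :
    W.InZeroComponentAt A (Point.some x y h) := by
  right
  refine ⟨x, y, h, rfl, ?_⟩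
  by_cases hx : x ∈ A
  swap
  · exact Or.inl hx
  right
  have hy : y ∈ A := frey_shape_y_mem W h₁ h₃ h₆ A h.1 hx
  refine ⟨hx, hy, ?_⟩
  have heq := frey_shape_equation W h₁ h₃ h₆ h.1
  -- the reduced equation
  have heqA : (⟨y, hy⟩ : A) ^ 2 + ⟨x, hx⟩ * ⟨y, hy⟩ =
      (⟨x, hx⟩ : A) ^ 3 + (W.a₂ : A) * ⟨x, hx⟩ ^ 2 + (W.a₄ : A) * ⟨x, hx⟩ := by
    apply Subtype.ext
    push_cast
    exact heq
  have heqk : (IsLocalRing.residue A ⟨y, hy⟩) ^ 2 +
      IsLocalRing.residue A ⟨x, hx⟩ * IsLocalRing.residue A ⟨y, hy⟩ =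
      (IsLocalRing.residue A ⟨x, hx⟩) ^ 3 +
        (W.a₂ : IsLocalRing.ResidueField A) * (IsLocalRing.residue A ⟨x, hx⟩) ^ 2 +
        (W.a₄ : IsLocalRing.ResidueField A) * IsLocalRing.residue A ⟨x, hx⟩ := by
    have := congrArg (IsLocalRing.residue A) heqA
    simpa only [map_add, map_mul, map_pow, map_intCast] using this
  -- integer identities in the residue field
  have hc : 4 * (W.a₂ : IsLocalRing.ResidueField A) + 1 =
      (Bb : IsLocalRing.ResidueField A) - (Aa : IsLocalRing.ResidueField A) := by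
    have := congrArg (Int.cast : ℤ → IsLocalRing.ResidueField A) h₂
    push_cast at this
    exact this
  have hd : 16 * (W.a₄ : IsLocalRing.ResidueField A) =
      -((Aa : IsLocalRing.ResidueField A) * (Bb : IsLocalRing.ResidueField A)) := by
    have := congrArg (Int.cast : ℤ → IsLocalRing.ResidueField A) h₄
    push_cast at this
    exact this
  -- integers divisible by `ℓ` vanish in the residue field; integers prime to `ℓ` do not
  have hres_int : ∀ m : ℤ, (m : IsLocalRing.ResidueField A) = IsLocalRing.residue A ((m : A)) :=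
    fun m => by rw [map_intCast]
  have hzero : ∀ m : ℤ, (ℓ : ℤ) ∣ m → (m : IsLocalRing.ResidueField A) = 0 := by
    intro m hm
    rw [hres_int, IsLocalRing.residue_eq_zero_iff, ValuationSubring.valuation_lt_one_iff]
    push_cast
    exact valuation_intCast_lt_one A hA hm
  have hnz : ∀ m : ℤ, ¬ (ℓ : ℤ) ∣ m → (m : IsLocalRing.ResidueField A) ≠ 0 := by
    intro m hm h0
    rw [hres_int, IsLocalRing.residue_eq_zero_iff, ValuationSubring.valuation_lt_one_iff] at h0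
    push_cast at h0
    rw [helper872.valuation_intCast_of_not_dvd hℓ A hA m hm] at h0
    exact lt_irrefl _ h0
  -- the Legendre abscissa is a unit
  have hXk : 4 * IsLocalRing.residue A ⟨x, hx⟩ + (r : IsLocalRing.ResidueField A) ≠ 0 := by
    intro h0
    have e : 4 * IsLocalRing.residue A ⟨x, hx⟩ + (r : IsLocalRing.ResidueField A) =
        IsLocalRing.residue A (4 * ⟨x, hx⟩ + (r : A)) := by
      rw [map_add, map_mul, map_intCast, map_ofNat]
    rw [e, IsLocalRing.residue_eq_zero_iff, ValuationSubring.valuation_lt_one_iff] at h0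
    push_cast at h0
    exact absurd hX (not_le.mpr h0)
  rw [Affine.nonsingular_iff, Affine.equation_iff]
  simp only [WeierstrassCurve.map_a₁, WeierstrassCurve.map_a₂, WeierstrassCurve.map_a₃,
    WeierstrassCurve.map_a₄, WeierstrassCurve.map_a₆, h₁, h₃, h₆, eq_intCast, Int.cast_one,
    Int.cast_zero, zero_mul, add_zero, one_mul]
  refine ⟨heqk, ?_⟩
  by_contra hsing
  rw [not_or, not_not, not_not] at hsing
  obtain ⟨s1, s2⟩ := hsing
  apply hXk
  refine node_of_singular _ _ _ _ _ _ _ heqk s1 s2 hc hd ?_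
  rcases hr with ⟨rfl, hAB⟩ | ⟨rfl, hC, hAn⟩
  · left
    refine ⟨Int.cast_zero, ?_⟩
    have := hzero _ hAB
    push_cast at this
    exact this
  · right
    refine ⟨by push_cast; rfl, ?_, hnz _ hAn⟩
    have := hzero _ hC
    push_cast at this
    exact this

end Dict

/-! ### PM-COF for Frey-shaped integral curves -/

section Main

variable (W : WeierstrassCurve ℤ) (Aa Bb : ℤ)
  (h₁ : W.a₁ = 1) (h₃ : W.a₃ = 0) (h₆ : W.a₆ = 0)
  (h₂ : 4 * W.a₂ + 1 = Bb - Aa) (h₄ : 16 * W.a₄ = -(Aa * Bb))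

include h₁ h₃ h₆ h₂ h₄ in
/-- PM-COF relative to one Legendre chart `X = 4x + r`, `Y = 8y + 4x` onto
`Y² = X³ + a X² + b X` (`ℓ ∤ a`, `ℓ ∣ b`, `b ≠ 0`). -/
theorem pm_cof_aux (a b r : ℤ)
    (hvc : IsVarChange (W.map (Int.castRingHom ℚ)) (legendreModel (a : ℚ) (b : ℚ)) 2 (r : ℚ) 1 0)
    (hb0 : b ≠ 0)
    {ℓ : ℕ} (hℓ : ℓ.Prime) (hℓ2 : ℓ ≠ 2) (hℓa : ¬ (ℓ : ℤ) ∣ a) (hℓb : (ℓ : ℤ) ∣ b)
    (hr : (r = 0 ∧ (ℓ : ℤ) ∣ Aa * Bb) ∨ (r = -Aa ∧ (ℓ : ℤ) ∣ Aa + Bb ∧ ¬ (ℓ : ℤ) ∣ Aa))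
    {p : ℕ} (hpp : p.Prime) (hp2 : p ≠ 2) (hℓp : ℓ ≠ p)
    (A : ValuationSubring Qb) (hA : A.LiesOverPrime ℓ) (σ : GQ) (hσ : A.IsFrobeniusAt σ ℓ)
    (n Q : ((W.map (Int.castRingHom ℚ))⁄Qb).Point)
    (hpn : p • n = 0) (hn : ¬ W.InZeroComponentAt A n)
    (hpQ : p • Q = 0) (hQ : ∀ k : ℕ, Q + k • n ≠ 0)
    (hcof : ∀ k : ℕ, ∃ i : ℤ, σ • (Q + k • n) - (Q + k • n) = i • n) :
    p ∣ ℓ - 1 ∨ p ∣ ℓ + 1 := by
  have hK : IsVarChange ((W.map (Int.castRingHom ℚ))⁄Qb) ((legendreModel (a : ℚ) (b : ℚ))⁄Qb)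
      (algebraMap ℚ Qb 2) (algebraMap ℚ Qb (r : ℚ)) (algebraMap ℚ Qb 1) (algebraMap ℚ Qb 0) :=
    hvc.map (algebraMap ℚ Qb)
  have hn0 : n ≠ 0 := fun h0 => hn (Or.inl h0)
  have hinj := vcHom_injective hK
  -- valuations of the integers involved
  have hv2 : A.valuation (2 : Qb) = 1 := by
    have h : ¬ (ℓ : ℤ) ∣ (2 : ℤ) := by
      intro h
      have h' : ℓ ∣ 2 := by exact_mod_cast h
      exact hℓ2 ((Nat.prime_dvd_prime_iff_eq hℓ Nat.prime_two).1 h')
    have := helper872.valuation_intCast_of_not_dvd hℓ A hA 2 h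
    simpa using this
  have hvp : A.valuation (p : Qb) = 1 := by
    have h : ¬ (ℓ : ℤ) ∣ (p : ℤ) := by
      intro h
      have h' : ℓ ∣ p := by exact_mod_cast h
      exact hℓp ((Nat.prime_dvd_prime_iff_eq hℓ hpp).1 h')
    have := helper872.valuation_intCast_of_not_dvd hℓ A hA p h
    simpa using this
  have hva : A.valuation (algebraMap ℚ Qb (legendreModel (a : ℚ) (b : ℚ)).a₂) = 1 := by
    simp only [legendreModel_a₂, map_intCast]
    exact helper872.valuation_intCast_of_not_dvd hℓ A hA a hℓa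
  have hvb : A.valuation (algebraMap ℚ Qb (legendreModel (a : ℚ) (b : ℚ)).a₄) < 1 := by
    simp only [legendreModel_a₄, map_intCast]
    exact valuation_intCast_lt_one A hA hℓb
  have hb0' : (legendreModel (a : ℚ) (b : ℚ)).a₄ ≠ 0 := by
    simp only [legendreModel_a₄]
    exact_mod_cast hb0
  -- the point `n` is outside `E₀` in the chart
  have hxn : A.valuation (ptX (vcHom hK n)) < 1 := by
    by_contra hge
    have hge' : 1 ≤ A.valuation (ptX (vcHom hK n)) := not_lt.mp hge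
    apply hn
    cases n with
    | zero => exact absurd rfl hn0
    | some x y h =>
      apply inZero_of_one_le W Aa Bb h₁ h₃ h₆ h₂ h₄ hℓ A hA r hr h
      rw [vcHom_some] at hge'
      have e : (algebraMap ℚ Qb 2) ^ 2 * x + algebraMap ℚ Qb (r : ℚ) = 4 * x + (r : Qb) := by
        rw [map_ofNat, map_intCast]; ring
      simpa only [ptX, e] using hge'
  refine core A (legendreModel (a : ℚ) (b : ℚ)) rfl rfl rfl hb0' hva hvb hv2 hpp hp2 hvp
    hℓ.one_le σ hσ (vcHom hK n) (vcHom hK Q) ?_ ?_ hxn ?_ ?_ ?_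
  · rw [← map_nsmul, hpn, map_zero]
  · intro h0
    exact hn0 (hinj (by rw [h0, map_zero]))
  · rw [← map_nsmul, hpQ, map_zero]
  · intro k h0
    apply hQ k
    apply hinj
    rw [map_add, map_nsmul, h0, map_zero]
  · intro k
    obtain ⟨i, hi⟩ := hcof k
    refine ⟨i, ?_⟩
    rw [← map_nsmul, ← map_add, ← vcHom_smul hK σ, ← map_sub, hi, map_zsmul]

include h₁ h₃ h₆ h₂ h₄ in
/-- **PM-COF, local form.**  `W` a Frey-shaped integral curve (`Y² = X (X - A) (X + B)` in the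
Legendre chart `X = 4x`), `ℓ` an odd prime of multiplicative reduction, `p ≠ ℓ` an odd prime,
`σ` a Frobenius element at `A ∣ ℓ`.  If `n` is a `p`-torsion point not in the zero component at
`A`, `Q` a `p`-torsion point which is not a multiple of `n`, and `σ` moves every `Q + k • n` by
a multiple of `n`, then `p ∣ ℓ - 1` or `p ∣ ℓ + 1`. -/
theorem pm_cof_local (hA0 : Aa ≠ 0) (hB0 : Bb ≠ 0) (hC0 : Aa + Bb ≠ 0)
    {ℓ : ℕ} (hℓ : ℓ.Prime) (hℓ2 : ℓ ≠ 2)
    (hbad : ((ℓ : ℤ) ∣ Aa * Bb ∧ ¬ (ℓ : ℤ) ∣ Aa + Bb) ∨ ((ℓ : ℤ) ∣ Aa + Bb ∧ ¬ (ℓ : ℤ) ∣ Aa))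
    {p : ℕ} (hpp : p.Prime) (hp2 : p ≠ 2) (hℓp : ℓ ≠ p)
    (A : ValuationSubring Qb) (hA : A.LiesOverPrime ℓ) (σ : GQ) (hσ : A.IsFrobeniusAt σ ℓ)
    (n Q : ((W.map (Int.castRingHom ℚ))⁄Qb).Point)
    (hpn : p • n = 0) (hn : ¬ W.InZeroComponentAt A n)
    (hpQ : p • Q = 0) (hQ : ∀ k : ℕ, Q + k • n ≠ 0)
    (hcof : ∀ k : ℕ, ∃ i : ℤ, σ • (Q + k • n) - (Q + k • n) = i • n) :
    p ∣ ℓ - 1 ∨ p ∣ ℓ + 1 := by
  have hℓ' : Prime (ℓ : ℤ) := Nat.prime_iff_prime_int.mp hℓ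
  have q₂ : (4 : ℚ) * (W.a₂ : ℚ) + 1 = (Bb : ℚ) - (Aa : ℚ) := by exact_mod_cast h₂
  have q₄ : (16 : ℚ) * (W.a₄ : ℚ) = -((Aa : ℚ) * (Bb : ℚ)) := by exact_mod_cast h₄
  rcases hbad with ⟨hAB, hC⟩ | ⟨hC, hAn⟩
  · -- node at `X = 0`: chart `Y² = X³ + (B - A) X² - A B X`
    have hvc : IsVarChange (W.map (Int.castRingHom ℚ))
        (legendreModel ((Bb - Aa : ℤ) : ℚ) ((-(Aa * Bb) : ℤ) : ℚ)) 2 ((0 : ℤ) : ℚ) 1 0 :=
      { hu := two_ne_zero
        h₁ := by simp [h₁]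
        h₂ := by simp; linear_combination q₂
        h₃ := by simp [h₃]
        h₄ := by simp; linear_combination q₄
        h₆ := by simp [h₆] }
    refine pm_cof_aux W Aa Bb h₁ h₃ h₆ h₂ h₄ (Bb - Aa) (-(Aa * Bb)) 0 hvc
      (neg_ne_zero.mpr (mul_ne_zero hA0 hB0)) hℓ hℓ2 ?_ (by rw [dvd_neg]; exact hAB)
      (Or.inl ⟨rfl, hAB⟩) hpp hp2 hℓp A hA σ hσ n Q hpn hn hpQ hQ hcof
    intro hd
    apply hC
    have h2 : (ℓ : ℤ) ∣ (Aa + Bb) ^ 2 := by
      have e : (Aa + Bb) ^ 2 = (Bb - Aa) * (Bb - Aa) + 4 * (Aa * Bb) := by ring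
      rw [e]
      exact dvd_add (dvd_mul_of_dvd_left hd _) (dvd_mul_of_dvd_right hAB _)
    exact hℓ'.dvd_of_dvd_pow h2
  · -- node at `X = A`: chart `Y² = X³ + (A + C) X² + A C X`, `X = 4x - A`, `C = A + B`
    have hvc : IsVarChange (W.map (Int.castRingHom ℚ))
        (legendreModel ((Aa + (Aa + Bb) : ℤ) : ℚ) ((Aa * (Aa + Bb) : ℤ) : ℚ)) 2
          ((-Aa : ℤ) : ℚ) 1 0 :=
      { hu := two_ne_zero
        h₁ := by simp [h₁]
        h₂ := by simp; linear_combination q₂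
        h₃ := by simp [h₃]
        h₄ := by simp; linear_combination q₄
        h₆ := by simp [h₆]; ring }
    refine pm_cof_aux W Aa Bb h₁ h₃ h₆ h₂ h₄ (Aa + (Aa + Bb)) (Aa * (Aa + Bb)) (-Aa) hvc
      (mul_ne_zero hA0 hC0) hℓ hℓ2 ?_ (dvd_mul_of_dvd_right hC _)
      (Or.inr ⟨rfl, hC, hAn⟩) hpp hp2 hℓp A hA σ hσ n Q hpn hn hpQ hQ hcof
    intro hd
    apply hAn
    have := dvd_sub hd hC
    rwa [add_sub_cancel_right] at this

end Main

/-! ### Consumer forms -/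

/-- `p ∣ ℓ - 1 ∨ p ∣ ℓ + 1` implies `p ∣ ℓ² - 1`. -/
theorem dvd_sq_sub_one {p ℓ : ℕ} (h : p ∣ ℓ - 1 ∨ p ∣ ℓ + 1) : p ∣ ℓ ^ 2 - 1 := by
  have e : ℓ ^ 2 - 1 = (ℓ - 1) * (ℓ + 1) := by
    rcases Nat.eq_zero_or_pos ℓ with h0 | hpos
    · subst h0; rfl
    · obtain ⟨m, rfl⟩ : ∃ m, ℓ = m + 1 := ⟨ℓ - 1, by omega⟩
      simp only [Nat.add_sub_cancel]
      have : (m + 1) ^ 2 = m * (m + 1 + 1) + 1 := by ring
      rw [this, Nat.add_sub_cancel]
  rw [e]
  rcases h with h | h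
  · exact dvd_mul_of_dvd_left h _
  · exact dvd_mul_of_dvd_right h _

/-- If `p ∣ ℓ ∓ 1` (`p`, `ℓ` odd primes) then `ℓ ∤ p - 1`; in particular `ℓ` differs from every
prime divisor `r` of `p - 1` (so from every Eisenstein prime of level `p`). -/
theorem not_dvd_sub_one {p ℓ : ℕ} (hpp : p.Prime) (hp2 : p ≠ 2) (hℓ : ℓ.Prime) (hℓ2 : ℓ ≠ 2)
    (h : p ∣ ℓ - 1 ∨ p ∣ ℓ + 1) : ¬ ℓ ∣ p - 1 := by
  intro hd
  have hp3 : 3 ≤ p := by
    have := hpp.two_le
    omega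
  have hℓ3 : 3 ≤ ℓ := by
    have := hℓ.two_le
    omega
  have hle : ℓ ≤ p - 1 := Nat.le_of_dvd (by omega) hd
  rcases h with h | h
  · have := Nat.le_of_dvd (by omega) h
    omega
  · have h1 := Nat.le_of_dvd (by omega) h
    have hℓp : ℓ = p - 1 := by omega
    have hodd : Odd p := hpp.odd_of_ne_two hp2
    have hoddℓ : Odd ℓ := hℓ.odd_of_ne_two hℓ2
    obtain ⟨c, hc⟩ := hodd
    obtain ⟨d, hd'⟩ := hoddℓ
    omega

/-- **PM-COF for the Frey curve** (frozen vocabulary: `FreyPackage.freyCurveInt`,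
`WeierstrassCurve.InZeroComponentAt`, `ValuationSubring.IsFrobeniusAt`).  At an odd prime
`ℓ ∣ abc`, `ℓ ≠ p`: if `n` is a `p`-torsion point not in the zero component at `A ∣ ℓ`, `Q` a
`p`-torsion point that is not a multiple of `n`, and a Frobenius element `σ` at `A` moves each
`Q + k • n` by a multiple of `n` (true when `n` spans a cofixed line), then `p ∣ ℓ ∓ 1`. -/
theorem pm_cof_frey (P : FreyPackage) {ℓ : ℕ} (hℓ : ℓ.Prime) (hℓ2 : ℓ ≠ 2) (hℓp : ℓ ≠ P.p)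
    (hℓabc : (ℓ : ℤ) ∣ P.a * P.b * P.c)
    (A : ValuationSubring Qb) (hA : A.LiesOverPrime ℓ) (σ : GQ) (hσ : A.IsFrobeniusAt σ ℓ)
    (n Q : ((P.freyCurveInt.map (Int.castRingHom ℚ))⁄Qb).Point)
    (hpn : P.p • n = 0) (hn : ¬ P.freyCurveInt.InZeroComponentAt A n)
    (hpQ : P.p • Q = 0) (hQ : ∀ k : ℕ, Q + k • n ≠ 0)
    (hcof : ∀ k : ℕ, ∃ i : ℤ, σ • (Q + k • n) - (Q + k • n) = i • n) :
    P.p ∣ ℓ - 1 ∨ P.p ∣ ℓ + 1 := by
  have hℓ' : Prime (ℓ : ℤ) := Nat.prime_iff_prime_int.mp hℓ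
  have hp2 : P.p ≠ 2 := by have := P.hp5; omega
  have h₂ : 4 * P.freyCurveInt.a₂ + 1 = P.b ^ P.p - P.a ^ P.p := by
    have := Fermat.Agent.S13.helper3034.one_add_four_mul_A2 P
    have e : P.freyCurveInt.a₂ = Fermat.Agent.S13.helper3034.A2 P := rfl
    rw [e]; linarith
  have h₄ : 16 * P.freyCurveInt.a₄ = -(P.a ^ P.p * P.b ^ P.p) := by
    have := Fermat.Agent.S13.helper3034.sixteen_mul_A4 P
    have e : P.freyCurveInt.a₄ = Fermat.Agent.S13.helper3034.A4 P := rfl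
    rw [e, this]; ring
  have hFLT := P.hFLT
  refine pm_cof_local P.freyCurveInt (P.a ^ P.p) (P.b ^ P.p) rfl rfl rfl h₂ h₄
    (pow_ne_zero _ P.ha0) (pow_ne_zero _ P.hb0) (by rw [hFLT]; exact pow_ne_zero _ P.hc0)
    hℓ hℓ2 ?_ P.pp hp2 hℓp A hA σ hσ n Q hpn hn hpQ hQ hcof
  by_cases hc : (ℓ : ℤ) ∣ P.c
  · right
    refine ⟨by rw [hFLT]; exact dvd_pow hc P.hp0, fun ha => ?_⟩
    have ha' : (ℓ : ℤ) ∣ P.a := hℓ'.dvd_of_dvd_pow ha
    have h1 : (ℓ : ℤ) ∣ gcd P.a P.c := dvd_gcd ha' hc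
    rw [P.hgcdac] at h1
    exact hℓ'.not_isUnit (isUnit_of_dvd_one h1)
  · left
    constructor
    · have hab : (ℓ : ℤ) ∣ P.a * P.b := (hℓ'.dvd_or_dvd hℓabc).resolve_right hc
      rcases hℓ'.dvd_or_dvd hab with h | h
      · exact dvd_mul_of_dvd_left (dvd_pow h P.hp0) _
      · exact dvd_mul_of_dvd_right (dvd_pow h P.hp0) _
    · rw [hFLT]
      exact fun h => hc (hℓ'.dvd_of_dvd_pow h)

end Fermat.Agent.S12.helper4404
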