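import Fermat.Agent.S12.helper4647_Spec
import Fermat.Agent.Lib.helper1397_TorsionCard

/-!
# S12 spec (helper4647): the point form of the pair-level Mazur step

`Stmt_G_point p` is the shape in which the Mazur block exports the cusp-`∞` twin of the
frozen S15 (a point `Q` of order `p` whose line is Galois-stable).  `stmt_G_of_point` turns it
into the line form `Stmt_G p` consumed by `stmt_units_of`.
-/

set_option autoImplicit false

namespace Fermat.Agent.S12.helper4647

open WeierstrassCurve WeierstrassCurve.Affine WeierstrassCurve.Affine.Point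

local notation "Qbar" => AlgebraicClosure ℚ

/-- **Pair form of the Mazur step, point form**: the frozen S15 with "`Q` is Galois-fixed"
weakened to "the line `⟨Q⟩` is Galois-stable", "not in the zero component" replaced by "in
the zero component" (at `2`, `3` and in the conclusion), and the binder `p ∣ ℓ ^ 2 - 1`. -/
def Stmt_G_point (p : ℕ) : Prop :=
  ∀ (W : WeierstrassCurve ℤ), W.Δ ≠ 0 →
  ∀ Q : ((W.map (Int.castRingHom ℚ))⁄Qbar).Point,
    (∀ σ : Qbar ≃ₐ[ℚ] Qbar, ∃ k : ℤ, σ • Q = k • Q) → addOrderOf Q = p →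
    (2 : ℤ) ∣ W.Δ → ¬ (2 : ℤ) ∣ W.c₄ →
    (∀ A : ValuationSubring Qbar, A.LiesOverPrime 2 → W.InZeroComponentAt A Q) →
    (3 : ℤ) ∣ W.Δ → ¬ (3 : ℤ) ∣ W.c₄ →
    (∀ A : ValuationSubring Qbar, A.LiesOverPrime 3 → W.InZeroComponentAt A Q) →
    ∀ ℓ : ℕ, ℓ.Prime → ℓ ≠ p → (ℓ : ℤ) ∣ W.Δ → ¬ (ℓ : ℤ) ∣ W.c₄ → p ∣ ℓ ^ 2 - 1 →
    ∀ A : ValuationSubring Qbar, A.LiesOverPrime ℓ → W.InZeroComponentAt A Q

/-- The base change to `Qbar` of an integral model with `Δ ≠ 0` is an elliptic curve. -/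
theorem isElliptic_of_Δ_ne_zero (W : WeierstrassCurve ℤ) (hΔ : W.Δ ≠ 0) :
    ((W.map (Int.castRingHom ℚ))⁄Qbar).IsElliptic := by
  refine ⟨?_⟩
  rw [isUnit_iff_ne_zero]
  change ((W.map (Int.castRingHom ℚ)).map (algebraMap ℚ Qbar)).Δ ≠ 0
  rw [WeierstrassCurve.map_Δ, WeierstrassCurve.map_Δ]
  simpa using hΔ

/-- A proper submodule of the `p`-torsion containing a nonzero element `x` consists of the
integer multiples of `x`. -/
theorem exists_zsmul_eq_of_mem {p : ℕ} (hp : p.Prime) (hp2 : p ≠ 2)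
    (W : WeierstrassCurve ℤ) (hΔ : W.Δ ≠ 0)
    (L : Submodule (ZMod p)
      (Submodule.torsionBy ℤ ((W.map (Int.castRingHom ℚ))⁄Qbar).Point p))
    (h1 : L ≠ ⊤) {x y : Submodule.torsionBy ℤ ((W.map (Int.castRingHom ℚ))⁄Qbar).Point p}
    (hx : x ∈ L) (hx0 : x ≠ 0) (hy : y ∈ L) : ∃ k : ℤ, y = k • x := by
  have := isElliptic_of_Δ_ne_zero W hΔ
  have : Fact p.Prime := ⟨hp⟩
  have hcard : Nat.card (Submodule.torsionBy ℤ ((W.map (Int.castRingHom ℚ))⁄Qbar).Point p)
      = p ^ 2 :=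
    Fermat.Agent.Lib.helper1397.card_torsionBy ((W.map (Int.castRingHom ℚ))⁄Qbar).toAffine p
      (hp.odd_of_ne_two hp2)
  have : Finite (Submodule.torsionBy ℤ ((W.map (Int.castRingHom ℚ))⁄Qbar).Point p) :=
    Nat.finite_of_card_ne_zero (by rw [hcard]; exact pow_ne_zero _ hp.ne_zero)
  -- the cyclic subgroup generated by `x` has `p` elements
  have hpx : p • x = 0 := by
    have h := x.2
    rw [Submodule.mem_torsionBy_iff] at h
    apply Subtype.ext
    rw [Submodule.coe_smul_of_tower, Submodule.coe_zero, ← h, Nat.cast_smul_eq_nsmul]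
  have hord : addOrderOf x = p := addOrderOf_eq_prime hpx hx0
  have hZ : Nat.card (AddSubgroup.zmultiples x) = p := by
    rw [Nat.card_zmultiples, hord]
  -- `L` as an additive subgroup
  have hZL : AddSubgroup.zmultiples x ≤ L.toAddSubgroup := by
    rw [AddSubgroup.zmultiples_le]
    exact hx
  have hLdvd : Nat.card L.toAddSubgroup ∣ p ^ 2 := by
    rw [← hcard]
    exact AddSubgroup.card_addSubgroup_dvd_card _
  have hZdvd : p ∣ Nat.card L.toAddSubgroup := by
    have h := AddSubgroup.card_dvd_of_le hZL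
    rwa [hZ] at h
  have hLne : Nat.card L.toAddSubgroup ≠ p ^ 2 := by
    intro h
    apply h1
    have htop : L.toAddSubgroup = ⊤ := by
      apply AddSubgroup.eq_top_of_card_eq
      rw [h, hcard]
    rw [eq_top_iff]
    intro z _
    have : z ∈ L.toAddSubgroup := by rw [htop]; trivial
    exact this
  have hLcard : Nat.card L.toAddSubgroup = p := by
    obtain ⟨i, hi, hpi⟩ := (Nat.dvd_prime_pow hp).1 hLdvd
    interval_cases i
    · rw [pow_zero] at hpi
      rw [hpi] at hZdvd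
      exact absurd (Nat.le_of_dvd one_pos hZdvd) (by have := hp.two_le; omega)
    · rw [hpi, pow_one]
    · exact absurd hpi hLne
  have heq : AddSubgroup.zmultiples x = L.toAddSubgroup :=
    AddSubgroup.eq_of_le_of_card_ge hZL (by rw [hLcard, hZ])
  have hyZ : y ∈ AddSubgroup.zmultiples x := by
    rw [heq]; exact hy
  obtain ⟨k, hk⟩ := AddSubgroup.mem_zmultiples_iff.1 hyZ
  exact ⟨k, hk.symm⟩

/-- The point form of the pair-level Mazur step gives the line form. -/
theorem stmt_G_of_point {p : ℕ} (hp : p.Prime) (hp2 : p ≠ 2) (h : Stmt_G_point p) :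
    Stmt_G p := by
  intro W hΔ L hL _ h1 h2Δ h2c h2 h3Δ h3c h3 ℓ hℓ hℓp hℓΔ hℓc hpm A hA x hx
  have : Fact p.Prime := ⟨hp⟩
  by_cases hx0 : x = 0
  · left
    rw [hx0]
    rfl
  · have hxP : (x : ((W.map (Int.castRingHom ℚ))⁄Qbar).Point) ≠ 0 := by
      intro h0
      exact hx0 (Subtype.ext h0)
    have hpx : p • (x : ((W.map (Int.castRingHom ℚ))⁄Qbar).Point) = 0 := by
      have h := x.2
      rw [Submodule.mem_torsionBy_iff] at h
      rw [← h, Nat.cast_smul_eq_nsmul]
    refine h W hΔ (x : ((W.map (Int.castRingHom ℚ))⁄Qbar).Point) ?_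
      (addOrderOf_eq_prime hpx hxP) h2Δ h2c (fun A hA => h2 A hA x hx) h3Δ h3c
      (fun A hA => h3 A hA x hx) ℓ hℓ hℓp hℓΔ hℓc hpm A hA
    intro σ
    obtain ⟨k, hk⟩ := exists_zsmul_eq_of_mem hp hp2 W hΔ L h1 hx hx0 (hL σ x hx)
    refine ⟨k, ?_⟩
    have h' : ((σ • x : Submodule.torsionBy ℤ ((W.map (Int.castRingHom ℚ))⁄Qbar).Point p) :
        ((W.map (Int.castRingHom ℚ))⁄Qbar).Point)
        = ((k • x : Submodule.torsionBy ℤ ((W.map (Int.castRingHom ℚ))⁄Qbar).Point p) :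
        ((W.map (Int.castRingHom ℚ))⁄Qbar).Point) := congrArg Subtype.val hk
    exact h'.trans (Submodule.coe_smul_of_tower k x)

end Fermat.Agent.S12.helper4647
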