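import Fermat.Agent.S12.helper4404_PmCof
import Fermat.Agent.S12.helper4647_PointForm
import Fermat.Agent.Lib.helper54_Frobenius

/-!
# S12 leaf PM-COF, spec form (helper4404)

`leafPmCof : Fermat.Agent.S12.helper4647.LeafPmCof` — a cofixed line of a Frey curve lies in
the zero component at every odd prime `ℓ ≠ p` dividing `a b c` with `¬ p ∣ ℓ ^ 2 - 1`.

Proof: if a point `x` of the line `N` is not in the zero component at `A ∣ ℓ`, take a Frobenius
element `σ` at `A` (`Lib.helper54.exists_isFrobeniusAt`) and a `p`-torsion point `Q ∉ N`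
(`N ≠ ⊤`).  Every `σ • z - z` lies in `N = ℤ x` (`helper4647.exists_zsmul_eq_of_mem`), so
`pm_cof_frey` gives `p ∣ ℓ - 1 ∨ p ∣ ℓ + 1`, hence `p ∣ ℓ ^ 2 - 1`.
-/

set_option autoImplicit false

namespace Fermat.Agent.S12.helper4404

open WeierstrassCurve WeierstrassCurve.Affine WeierstrassCurve.Affine.Point

/-- **Leaf (PM-COF)** in the exact shape of the S12 spec. -/
theorem leafPmCof : Fermat.Agent.S12.helper4647.LeafPmCof := by
  intro P hp N hN ℓ hℓ hℓ2 hℓp hℓabc hpm A hA x hx
  by_contra hx0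
  obtain ⟨-, -, htop, hcof⟩ := hN
  have hp2 : P.p ≠ 2 := by omega
  -- `x ≠ 0`
  have hxne : x ≠ 0 := by
    intro h0
    apply hx0
    left
    rw [h0]
    rfl
  -- a torsion point outside the line
  obtain ⟨Q, hQ⟩ : ∃ Q, Q ∉ N := by
    by_contra h
    exact htop (eq_top_iff.2 fun z _ => by_contra fun hz => h ⟨z, hz⟩)
  obtain ⟨σ, hσ⟩ := Fermat.Agent.Lib.helper54.exists_isFrobeniusAt hℓ A hA
  have htors : ∀ z : Submodule.torsionBy ℤ
      ((P.freyCurveInt.map (Int.castRingHom ℚ))⁄(AlgebraicClosure ℚ)).Point P.p,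
      P.p • (z : ((P.freyCurveInt.map (Int.castRingHom ℚ))⁄(AlgebraicClosure ℚ)).Point) = 0 := by
    intro z
    have h := z.2
    rw [Submodule.mem_torsionBy_iff] at h
    rw [← h, Nat.cast_smul_eq_nsmul]
  have key := pm_cof_frey P hℓ hℓ2 hℓp hℓabc A hA σ hσ
    (x : ((P.freyCurveInt.map (Int.castRingHom ℚ))⁄(AlgebraicClosure ℚ)).Point)
    (Q : ((P.freyCurveInt.map (Int.castRingHom ℚ))⁄(AlgebraicClosure ℚ)).Point)
    (htors x) hx0 (htors Q) ?_ ?_
  · exact hpm (dvd_sq_sub_one key)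
  · intro k h0
    apply hQ
    have h1 : Q + k • x = 0 := by
      apply Subtype.ext
      rw [Submodule.coe_add, Submodule.coe_smul_of_tower, Submodule.coe_zero]
      exact h0
    have h2 : Q = -(k • x) := eq_neg_of_add_eq_zero_left h1
    rw [h2]
    exact N.neg_mem (N.toAddSubmonoid.nsmul_mem hx k)
  · intro k
    obtain ⟨i, hi⟩ := Fermat.Agent.S12.helper4647.exists_zsmul_eq_of_mem P.pp hp2
      P.freyCurveInt (Fermat.Agent.S12.helper4647.freyCurveInt_Δ_ne_zero P) N htop hx hxne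
      (hcof σ (Q + k • x))
    refine ⟨i, ?_⟩
    have h' := congrArg Subtype.val hi
    rw [Submodule.coe_smul_of_tower] at h'
    rw [← h']
    rfl

end Fermat.Agent.S12.helper4404
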