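import Fermat.Agent.S15.helper3201_Spec
import Fermat.Agent.S12.helper4647_PointForm

/-!
# S12 (helper4647): the cusp-`∞` twin of the top of the Mazur block

`Stmt_G_point p` (the point form of the pair-level Mazur step consumed by S12, see
`helper4647_PointForm`) from the block Props of the S15 top Spec of record
(`Fermat.Agent.S15.helper3201`, file `S15/helper3201_Spec.lean`):

* `Stmt_RedInputs`, `Stmt_RedHeckeW`, `Stmt_Div1` — the SAME Props that close the frozen S15;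
* `Stmt_S17`, `Stmt_S18`, `Stmt_Places`, `Stmt_GalHecke` — theorems on main;
* ONE Prop of its own, `Stmt_CuspBridgeTwin`: the twin of `helper3201.Stmt_CuspBridge` with
  "`Q` is Galois-fixed" weakened to "the line `⟨Q⟩` is Galois-stable", the two cusp types
  exchanged (zero component at `2` and `3`; the assumption to refute is "`Q` NOT in the zero
  component at `A ∣ ℓ`").

No `Stmt_LPM` is needed: the binder `p ∣ ℓ ^ 2 - 1` of `Stmt_G_point` plays its role.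

Contents.
* `false_of_bridge_classes` : the Eisenstein-descent contradiction for ANY class `c` (nonzero,
  killed by `p - 1`, rational, Eisenstein) and ANY rational class `D` with `red D = 0` over `2`
  and `3` and `red (D + c) = 0` at one place over `ℓ`, `p ∣ ℓ ± 1` (the endgame of
  `helper3201.result_of`, stated for the pair `(c, D)`).
* `Stmt_CuspBridgeTwin`, `stmt_G_point_of` : the twin top.
* `BridgeForLine`, `cuspBridgeTwin_of_bridgeForLine` : the unconditional line form of the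
  bridge (one rational class `D` with both cusp types) implies the twin Prop (with `-c`).
* `cuspBridgeTwin_of_sub` : the shape "`red (D - c) = 0`, Eisenstein written `(q + 1) • c`"
  implies the twin Prop (with `-c`).
-/

set_option autoImplicit false

open WeierstrassCurve WeierstrassCurve.Affine
open ModularCurve

namespace Fermat.Agent.S12.helper4647

open Fermat.Agent.S15.helper3201

/-- **The endgame of the Mazur block for a pair of classes.**  Let `c` be a nonzero rational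
Eisenstein class of `J₀(p)` killed by `p - 1` and `D` a rational class whose reduction vanishes
at every place over `2` and over `3`, and such that `D + c` reduces to `0` at a place `A` over
a prime `ℓ ≠ p` with `p ∣ ℓ - 1` or `p ∣ ℓ + 1`.  Contradiction. -/
theorem false_of_bridge_classes (hRI : Stmt_RedInputs) (hRH : Stmt_RedHeckeW)
    (hDIV : Stmt_Div1) (hS17 : Stmt_S17) (hS18 : Stmt_S18) (hPl : Stmt_Places)
    (hGH : Stmt_GalHecke)
    {p : ℕ} [NeZero p] (hp : p.Prime) (hp' : p ∉ ({2, 3, 5, 7, 13} : Finset ℕ))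
    {c : JZero p} (hc0 : c ≠ 0) (hpc : (p - 1) • c = 0) (hcRat : IsRat p c) (hcEis : IsEis p c)
    {ℓ : ℕ} (hℓ : ℓ.Prime) (hℓp : ℓ ≠ p) (hℓbig : p ∣ ℓ - 1 ∨ p ∣ ℓ + 1)
    (A : ValuationSubring Qb) (hA : A.LiesOverPrime ℓ)
    {D : JZero p} (hDrat : IsRat p D)
    (hD2 : ∀ A₂ : ValuationSubring Qb, A₂.LiesOverPrime 2 → reductionModL A₂ p D = 0)
    (hD3 : ∀ A₃ : ValuationSubring Qb, A₃.LiesOverPrime 3 → reductionModL A₃ p D = 0)
    (hDℓ : reductionModL A p (D + c) = 0) : False := by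
  -- small primes
  have hp5 : 5 ≤ p := by
    have h2 := hp.two_le
    simp only [Finset.mem_insert, Finset.mem_singleton, not_or] at hp'
    obtain ⟨n2, n3, n5, n7, n13⟩ := hp'
    by_contra hlt
    have : p = 2 ∨ p = 3 ∨ p = 4 := by omega
    rcases this with h | h | h
    · exact n2 h
    · exact n3 h
    · rw [h] at hp; exact absurd hp (by decide)
  -- the order of `c` and the Eisenstein prime `r`
  have hp1 : p - 1 ≠ 0 := by omega
  have hord0 : addOrderOf c ≠ 0 := by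
    intro h
    have hdvd : addOrderOf c ∣ p - 1 := addOrderOf_dvd_of_nsmul_eq_zero hpc
    rw [h] at hdvd
    exact hp1 (Nat.eq_zero_of_zero_dvd hdvd)
  obtain ⟨r, hr, hrc, hdivr⟩ := hDIV p hp hp' c hc0 hpc hcRat hcEis
  have hrp1 : r ∣ p - 1 := hrc.trans (addOrderOf_dvd_of_nsmul_eq_zero hpc)
  have hrle : r ≤ p - 1 := Nat.le_of_dvd (by omega) hrp1
  have hrp : r ≠ p := by omega
  -- `ℓ` is large
  have hℓge : p ≤ ℓ + 1 := by
    rcases hℓbig with h | h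
    · have hpos : 0 < ℓ - 1 := by have := hℓ.two_le; omega
      have := Nat.le_of_dvd hpos h
      omega
    · exact Nat.le_of_dvd (by omega) h
  have hℓne : ℓ ≠ p - 1 := by
    intro h
    have hodd : p % 2 = 1 := by
      rcases hp.eq_two_or_odd with h2' | h2'
      · omega
      · exact h2'
    have h2dvd : 2 ∣ ℓ := by rw [h]; omega
    have : ℓ = 2 := ((Nat.prime_dvd_prime_iff_eq Nat.prime_two hℓ).mp h2dvd).symm
    omega
  have hℓr : ℓ ≠ r := by omega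
  have hℓ2 : ℓ ≠ 2 := by omega
  have hℓ3 : ℓ ≠ 3 := by omega
  -- the auxiliary prime `s ∈ {2, 3}`, `s ≠ r`, and a place over it
  obtain ⟨s, hs, hsr, hsp, hsℓ, hDs⟩ : ∃ s : ℕ, s.Prime ∧ s ≠ r ∧ s ≠ p ∧ s ≠ ℓ ∧
      ∀ As : ValuationSubring Qb, As.LiesOverPrime s → reductionModL As p D = 0 := by
    by_cases hr2 : r = 2
    · exact ⟨3, Nat.prime_three, by omega, by omega, fun h => hℓ3 h.symm, hD3⟩
    · exact ⟨2, Nat.prime_two, fun h => hr2 h.symm, by omega, fun h => hℓ2 h.symm, hD2⟩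
  obtain ⟨As, hAs⟩ := hPl s hs
  -- kernel stability (weak form)
  have hmono : ∀ ℓ' ∈ ({s, ℓ} : Finset ℕ),
      Algebra.adjoin ℤ (heckeAway p {s, ℓ}) ≤ Algebra.adjoin ℤ (heckeAway p {ℓ'}) := by
    intro ℓ' hℓ'S
    refine Algebra.adjoin_mono ?_
    rintro T ⟨q, hqp, hqS, rfl⟩
    exact ⟨q, hqp, fun hq => hqS (by rw [Finset.mem_singleton] at hq; rw [hq]; exact hℓ'S), rfl⟩
  -- injectivity on `r`-power torsion
  have hinj : ∀ (ℓ' : ℕ), ℓ'.Prime → ℓ' ≠ p → ℓ' ≠ r →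
      ∀ A' : ValuationSubring Qb, A'.LiesOverPrime ℓ' →
        ∀ x : JZero p, (∃ j : ℕ, r ^ j • x = 0) → reductionModL A' p x = 0 → x = 0 := by
    intro ℓ' hℓ' hℓ'p hℓ'r A' hA' x ⟨j, hj⟩ hx
    have : Fact ℓ'.Prime := ⟨hℓ'⟩
    refine hS18 p (fun h => hℓ'p ((Nat.prime_dvd_prime_iff_eq hℓ' hp).mp h)) A' hA'
      (hRI p hp ℓ' hℓ' hℓ'p A' hA') (r ^ j) ?_ x hj hx
    intro h
    exact hℓ'r ((Nat.prime_dvd_prime_iff_eq hℓ' hr).mp (hℓ'.dvd_of_dvd_pow h))
  -- the Mordell–Weil group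
  have hMfg : (FixedPoints.addSubgroup GQ (JZero p)).FG :=
    (AddGroup.fg_iff_addSubgroup_fg _).mp (hS17 p hp hp5)
  have hmem : ∀ x : JZero p, x ∈ FixedPoints.addSubgroup GQ (JZero p) ↔ IsRat p x :=
    fun x => Iff.rfl
  -- the class of descent operators
  let P : (JZero p →+ JZero p) → Prop := fun t =>
    ∃ t' ∈ Algebra.adjoin ℤ (heckeAway p {s, ℓ}), t = (t' : Module.End ℤ (JZero p)).toAddMonoidHom
  have hP1 : P (AddMonoidHom.id (JZero p)) :=
    ⟨1, Subalgebra.one_mem _, by ext x; rfl⟩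
  have hPc : ∀ t₁ t₂ : JZero p →+ JZero p, P t₁ → P t₂ → P (t₂.comp t₁) := by
    rintro _ _ ⟨a, ha, rfl⟩ ⟨b, hb, rfl⟩
    exact ⟨b * a, Subalgebra.mul_mem _ hb ha, by ext x; rfl⟩
  have hPM : ∀ t : JZero p →+ JZero p, P t →
      ∀ m ∈ FixedPoints.addSubgroup GQ (JZero p), t m ∈ FixedPoints.addSubgroup GQ (JZero p) := by
    rintro _ ⟨a, ha, rfl⟩ x hx σ
    have := galois_comm_of_mem_adjoin hGH {s, ℓ} ha σ x
    rw [(hmem x).mp hx σ] at this
    exact this.symm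
  have hker : ∀ (ℓ' : ℕ), ℓ'.Prime → ℓ' ≠ p → ℓ' ≠ r → ℓ' ∈ ({s, ℓ} : Finset ℕ) →
      ∀ A' : ValuationSubring Qb, A'.LiesOverPrime ℓ' →
        ∃ m' : ℕ, ¬ r ∣ m' ∧ ∀ x ∈ FixedPoints.addSubgroup GQ (JZero p),
          reductionModL A' p x = 0 → ∀ t : JZero p →+ JZero p, P t →
            reductionModL A' p (m' • t x) = 0 := by
    intro ℓ' hℓ' hℓ'p hℓ'r hℓ'S A' hA'
    obtain ⟨m', hm', hk⟩ := hRH p hp r hr ℓ' hℓ' hℓ'p hℓ'r A' hA'
    refine ⟨m', hm', ?_⟩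
    rintro x hx hx0 _ ⟨a, ha, rfl⟩
    exact hk x ((hmem x).mp hx) hx0 a (hmono ℓ' hℓ'S ha)
  refine endgame_w (FixedPoints.addSubgroup GQ (JZero p)) hMfg r hr
    (reductionModL As p) (reductionModL A p)
    (hinj s hs hsp hsr As hAs) (hinj ℓ hℓ hℓp hℓr A hA) P hP1 hPc hPM
    (hker s hs hsp hsr (by simp) As hAs) (hker ℓ hℓ hℓp hℓr (by simp) A hA)
    c ((hmem c).mpr hcRat) hord0 hrc ?_ D ((hmem D).mpr hDrat) (hDs As hAs) hDℓ
  intro m hm
  obtain ⟨t, ht, E, hE, htc, θ, m', hθ, hθj, hm', hem⟩ := hdivr {s, ℓ} m ((hmem m).mp hm)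
  exact ⟨t.toAddMonoidHom, ⟨t, ht, rfl⟩, E, hE, htc, θ, (hmem θ).mpr hθ, m', (hmem m').mpr hm',
    hθj, hem⟩

/-- **[CB], twin** (class level; the twin of `helper3201.Stmt_CuspBridge`).  There is a nonzero
rational Eisenstein class `c` killed by `p - 1` such that for a point `Q` of order `p` whose
line is Galois-stable, lying in the zero component at `2` and at `3` (both multiplicative), and
a prime `ℓ ≠ p` of multiplicative reduction at which `Q` does NOT lie in the zero component at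
the place `A`, there is a rational class `D` which reduces to `0` at every place over `2` and
over `3` and with `D + c` reducing to `0` at `A`.

[`c = (∞) - (0)` up to sign convention, `D = (x) - (cusp of the zero-component type)`, `x` the
moduli point of `(W, ⟨Q⟩)`; `D` may depend on `(ℓ, A)`.] -/
def Stmt_CuspBridgeTwin : Prop :=
  ∀ (p : ℕ) [NeZero p], p.Prime → p ∉ ({2, 3, 5, 7, 13} : Finset ℕ) →
    ∃ c : JZero p, c ≠ 0 ∧ (p - 1) • c = 0 ∧ IsRat p c ∧ IsEis p c ∧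
      ∀ (W : WeierstrassCurve ℤ), W.Δ ≠ 0 →
        ∀ (Q : ((W.map (Int.castRingHom ℚ))⁄Qb).Point),
        (∀ σ : GQ, ∃ k : ℤ, σ • Q = k • Q) → addOrderOf Q = p →
        (2 : ℤ) ∣ W.Δ → ¬ (2 : ℤ) ∣ W.c₄ →
        (∀ A : ValuationSubring Qb, A.LiesOverPrime 2 → W.InZeroComponentAt A Q) →
        (3 : ℤ) ∣ W.Δ → ¬ (3 : ℤ) ∣ W.c₄ →
        (∀ A : ValuationSubring Qb, A.LiesOverPrime 3 → W.InZeroComponentAt A Q) →
        ∀ (ℓ : ℕ), ℓ.Prime → ℓ ≠ p → (ℓ : ℤ) ∣ W.Δ → ¬ (ℓ : ℤ) ∣ W.c₄ →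
        ∀ (A : ValuationSubring Qb), A.LiesOverPrime ℓ → ¬ W.InZeroComponentAt A Q →
          ∃ D : JZero p, IsRat p D ∧
            (∀ A₂ : ValuationSubring Qb, A₂.LiesOverPrime 2 → reductionModL A₂ p D = 0) ∧
            (∀ A₃ : ValuationSubring Qb, A₃.LiesOverPrime 3 → reductionModL A₃ p D = 0) ∧
            reductionModL A p (D + c) = 0

/-- `p ∣ ℓ ^ 2 - 1` gives `p ∣ ℓ - 1` or `p ∣ ℓ + 1`. -/
theorem dvd_pred_or_dvd_succ_of_dvd_sq_sub_one {p ℓ : ℕ} (hp : p.Prime) (hℓ : 1 ≤ ℓ)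
    (h : p ∣ ℓ ^ 2 - 1) : p ∣ ℓ - 1 ∨ p ∣ ℓ + 1 := by
  have h1 : ℓ ^ 2 - 1 = (ℓ - 1) * (ℓ + 1) := by
    obtain ⟨m, rfl⟩ : ∃ m, ℓ = m + 1 := ⟨ℓ - 1, by omega⟩
    have h2 : (m + 1) ^ 2 = m * (m + 1 + 1) + 1 := by ring
    rw [h2]
    simp
  rw [h1] at h
  exact (Nat.Prime.dvd_mul hp).mp h

/-- **TOP SPEC of the S12 twin of the Mazur block**: the point form of the pair-level Mazur
step from the twin cusp bridge and the block Props of the S15 top Spec of record. -/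
theorem stmt_G_point_of (hCB : Stmt_CuspBridgeTwin) (hRI : Stmt_RedInputs)
    (hRH : Stmt_RedHeckeW) (hDIV : Stmt_Div1) (hS17 : Stmt_S17) (hS18 : Stmt_S18)
    (hPl : Stmt_Places) (hGH : Stmt_GalHecke)
    {p : ℕ} (hp : p.Prime) (hp' : p ∉ ({2, 3, 5, 7, 13} : Finset ℕ)) : Stmt_G_point p := by
  intro W hΔ Q hQstab hQord h2Δ h2c₄ h2 h3Δ h3c₄ h3 ℓ hℓ hℓp hℓΔ hℓc₄ hpm A hA
  by_contra hQ0
  have : NeZero p := ⟨hp.ne_zero⟩
  obtain ⟨c, hc0, hpc, hcRat, hcEis, hbridge⟩ := hCB p hp hp'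
  obtain ⟨D, hDrat, hD2, hD3, hDℓ⟩ :=
    hbridge W hΔ Q hQstab hQord h2Δ h2c₄ h2 h3Δ h3c₄ h3 ℓ hℓ hℓp hℓΔ hℓc₄ A hA hQ0
  exact false_of_bridge_classes hRI hRH hDIV hS17 hS18 hPl hGH hp hp' hc0 hpc hcRat hcEis hℓ hℓp
    (dvd_pred_or_dvd_succ_of_dvd_sq_sub_one hp hℓ.one_lt.le hpm) A hA hDrat hD2 hD3 hDℓ

/-- `Stmt_G_point p` for `p ≥ 17`, in the form consumed by the final assembly of S12. -/
theorem stmt_G_point_of_ge (hCB : Stmt_CuspBridgeTwin) (hRI : Stmt_RedInputs)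
    (hRH : Stmt_RedHeckeW) (hDIV : Stmt_Div1) (hS17 : Stmt_S17) (hS18 : Stmt_S18)
    (hPl : Stmt_Places) (hGH : Stmt_GalHecke)
    (p : ℕ) (hp : p.Prime) (h17 : 17 ≤ p) : Stmt_G_point p := by
  refine stmt_G_point_of hCB hRI hRH hDIV hS17 hS18 hPl hGH hp ?_
  simp only [Finset.mem_insert, Finset.mem_singleton, not_or]
  omega

/-! ### Adapters for the twin cusp bridge -/

/-- The negative of an Eisenstein class is Eisenstein. -/
theorem isEis_neg {p : ℕ} [NeZero p] {c : JZero p} (h : IsEis p c) : IsEis p (-c) := by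
  intro q hq
  rw [map_neg, h q hq, neg_nsmul]

/-- The negative of a rational class is rational. -/
theorem isRat_neg {p : ℕ} {c : JZero p} (h : IsRat p c) : IsRat p (-c) := by
  intro σ
  rw [smul_neg, h σ]

/-- The bridge in its unconditional LINE form (the shape `BridgeForLine` of chat #68 /
`helper6647.Stmt_BridgeLine`): for a point `Q` of order `p` whose line is Galois-stable, ONE
rational class `D` with both cusp types at every prime of multiplicative reduction. -/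
def BridgeForLine (p : ℕ) [NeZero p] (c : JZero p) : Prop :=
  ∀ (W : WeierstrassCurve ℤ), W.Δ ≠ 0 →
    ∀ (Q : ((W.map (Int.castRingHom ℚ))⁄Qb).Point),
    (∀ σ : GQ, ∃ k : ℤ, σ • Q = k • Q) → addOrderOf Q = p →
      ∃ D : JZero p, IsRat p D ∧
        ∀ (s : ℕ), s.Prime → s ≠ p → (s : ℤ) ∣ W.Δ → ¬ (s : ℤ) ∣ W.c₄ →
          ∀ A : ValuationSubring Qb, A.LiesOverPrime s →
            (¬ W.InZeroComponentAt A Q → reductionModL A p D = 0) ∧
            (W.InZeroComponentAt A Q → reductionModL A p (D + c) = 0)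

/-- The line form of the bridge implies the Galois-fixed form of the S15 top Spec. -/
theorem bridgeFor_of_bridgeForLine {p : ℕ} [NeZero p] {c : JZero p} (h : BridgeForLine p c) :
    BridgeFor p c := by
  intro W hΔ Q hQfix hQord
  exact h W hΔ Q (fun σ => ⟨1, by rw [hQfix σ, one_zsmul]⟩) hQord

/-- The unconditional line form of the bridge gives the twin cusp bridge (with the class
`-c` and the bridge class `D + c`). -/
theorem cuspBridgeTwin_of_bridgeForLine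
    (h : ∀ (p : ℕ) [NeZero p], p.Prime → p ∉ ({2, 3, 5, 7, 13} : Finset ℕ) →
      ∃ c : JZero p, IsCuspClass p c ∧ BridgeForLine p c) : Stmt_CuspBridgeTwin := by
  intro p _ hp hp'
  have hp2ne : (2 : ℕ) ≠ p := by
    rintro rfl; exact hp' (by simp)
  have hp3ne : (3 : ℕ) ≠ p := by
    rintro rfl; exact hp' (by simp)
  obtain ⟨c, ⟨hcRat, hpc, hc0, hcEis⟩, hbr⟩ := h p hp hp'
  refine ⟨-c, neg_ne_zero.mpr hc0, by rw [neg_nsmul, hpc, neg_zero], isRat_neg hcRat,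
    isEis_neg hcEis, ?_⟩
  intro W hΔ Q hQstab hQord h2Δ h2c₄ h2 h3Δ h3c₄ h3 ℓ hℓ hℓp hℓΔ hℓc₄ A hA hQ0
  obtain ⟨D, hD, hDs⟩ := hbr W hΔ Q hQstab hQord
  refine ⟨D + c, fun σ => by rw [smul_add, hD σ, hcRat σ], fun A₂ hA₂ => ?_, fun A₃ hA₃ => ?_, ?_⟩
  · exact (hDs 2 Nat.prime_two hp2ne (by exact_mod_cast h2Δ) (by exact_mod_cast h2c₄) A₂ hA₂).2
      (h2 A₂ hA₂)
  · exact (hDs 3 Nat.prime_three hp3ne (by exact_mod_cast h3Δ) (by exact_mod_cast h3c₄) A₃ hA₃).2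
      (h3 A₃ hA₃)
  · rw [add_neg_cancel_right]
    exact (hDs ℓ hℓ hℓp hℓΔ hℓc₄ A hA).1 hQ0

/-- The twin cusp bridge from the shape "`D - c` reduces to `0` at `A`", Eisenstein property
written `(q + 1) • c`, implicit `p` and `ℓ` (the binders of `helper6647.Stmt_CBTwin`). -/
theorem cuspBridgeTwin_of_sub
    (h : ∀ {p : ℕ} [NeZero p] (_hp : p.Prime) (_hp' : p ∉ ({2, 3, 5, 7, 13} : Finset ℕ)),
      ∃ c : JZero p, c ≠ 0 ∧ (p - 1) • c = 0 ∧
        (∀ σ : AlgebraicClosure ℚ ≃ₐ[ℚ] AlgebraicClosure ℚ, σ • c = c) ∧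
        (∀ q : Nat.Primes, (q : ℕ) ≠ p → heckeOperatorBar p q c = ((q : ℕ) + 1) • c) ∧
        ∀ (W : WeierstrassCurve ℤ) (_hΔ : W.Δ ≠ 0)
          (Q : ((W.map (Int.castRingHom ℚ))⁄(AlgebraicClosure ℚ)).Point)
          (_hQstab : ∀ σ : AlgebraicClosure ℚ ≃ₐ[ℚ] AlgebraicClosure ℚ, ∃ k : ℤ, σ • Q = k • Q)
          (_hQord : addOrderOf Q = p)
          (_h2Δ : (2 : ℤ) ∣ W.Δ) (_h2c₄ : ¬ (2 : ℤ) ∣ W.c₄)
          (_h2 : ∀ A : ValuationSubring (AlgebraicClosure ℚ), A.LiesOverPrime 2 →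
            W.InZeroComponentAt A Q)
          (_h3Δ : (3 : ℤ) ∣ W.Δ) (_h3c₄ : ¬ (3 : ℤ) ∣ W.c₄)
          (_h3 : ∀ A : ValuationSubring (AlgebraicClosure ℚ), A.LiesOverPrime 3 →
            W.InZeroComponentAt A Q)
          {ℓ : ℕ} (_hℓ : ℓ.Prime) (_hℓp : ℓ ≠ p) (_hℓΔ : (ℓ : ℤ) ∣ W.Δ)
          (_hℓc₄ : ¬ (ℓ : ℤ) ∣ W.c₄)
          (A : ValuationSubring (AlgebraicClosure ℚ)) (_hA : A.LiesOverPrime ℓ)
          (_hout : ¬ W.InZeroComponentAt A Q),
          ∃ D : JZero p, (∀ σ : AlgebraicClosure ℚ ≃ₐ[ℚ] AlgebraicClosure ℚ, σ • D = D) ∧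
            (∀ A₂ : ValuationSubring (AlgebraicClosure ℚ), A₂.LiesOverPrime 2 →
              reductionModL A₂ p D = 0) ∧
            (∀ A₃ : ValuationSubring (AlgebraicClosure ℚ), A₃.LiesOverPrime 3 →
              reductionModL A₃ p D = 0) ∧
            reductionModL A p (D - c) = 0) : Stmt_CuspBridgeTwin := by
  intro p _ hp hp'
  obtain ⟨c, hc0, hpc, hcRat, hcEis, hbr⟩ := h hp hp'
  have hcEis' : IsEis p c := by
    intro q hq
    rw [hcEis q hq, add_comm]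
  refine ⟨-c, neg_ne_zero.mpr hc0, by rw [neg_nsmul, hpc, neg_zero], isRat_neg hcRat,
    isEis_neg hcEis', ?_⟩
  intro W hΔ Q hQstab hQord h2Δ h2c₄ h2 h3Δ h3c₄ h3 ℓ hℓ hℓp hℓΔ hℓc₄ A hA hQ0
  obtain ⟨D, hD, hD2, hD3, hDℓ⟩ :=
    hbr W hΔ Q hQstab hQord h2Δ h2c₄ h2 h3Δ h3c₄ h3 hℓ hℓp hℓΔ hℓc₄ A hA hQ0
  exact ⟨D, hD, hD2, hD3, by rw [← sub_eq_add_neg]; exact hDℓ⟩

end Fermat.Agent.S12.helper4647
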