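/-
S12 leaf (b1) (helper483): `3 ∣ a b c` for a Frey curve with a cofixed line, `p ≥ 17`.

Design: no node calculus, no reduction of points.  At a prime `ℓ ≠ p` of good reduction a
Frobenius element `σ` at a place over `ℓ` satisfies `σ² - a_ℓ σ + ℓ = 0` on `E[p]`
(`S58.helper5765.frob_relation_of_frobCH` with `Lib.helper1844.frobCH_all`, both on main).
If `N` is a cofixed line (`σ x - x ∈ N` for all `x`), the relation gives
`(ℓ + 1 - a_ℓ) • x ∈ N` for every `x`, hence `p ∣ ℓ + 1 - a_ℓ` because `N ≠ ⊤`.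
For `ℓ = 3` the trivial bound `|a_3| ≤ 3` (`S58.helper1790.abs_apOfModel_le`) gives
`1 ≤ 4 - a_3 ≤ 7 < p`: contradiction.  So `3` is a bad prime of the Frey curve: `3 ∣ a b c`.
-/
import Mathlib
import Fermat.Agent.S12.helper4647_Spec
import Fermat.Agent.S58.helper5765_FrobTors
import Fermat.Agent.S58.helper1790_TrivBound
import Fermat.Agent.Lib.helper1844_FrobGenAll
import Fermat.Agent.Lib.helper54_Frobenius

set_option autoImplicit false

namespace Fermat.Agent.S12.helper483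

open WeierstrassCurve WeierstrassCurve.Affine WeierstrassCurve.Affine.Point

local notation "Qb" => AlgebraicClosure ℚ

/-- **Cofixed line at a good prime.**  If the `p`-torsion of an integral model `W` has a proper
submodule `N` with `σ x - x ∈ N` for all `σ`, `x`, then `p ∣ ℓ + 1 - a_ℓ(W)` for every prime
`ℓ ≠ p` of good reduction. -/
theorem dvd_of_cofixed_good (W : WeierstrassCurve ℤ) (p : ℕ) (hp : p.Prime) (ℓ : ℕ)
    [Fact ℓ.Prime] (hℓp : ℓ ≠ p) (hgood : W.IsGoodPrimeFor ℓ)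
    (N : Submodule (ZMod p)
      (Submodule.torsionBy ℤ ((W.map (Int.castRingHom ℚ))⁄Qb).Point p))
    (htop : N ≠ ⊤)
    (hcof : ∀ (σ : Qb ≃ₐ[ℚ] Qb)
      (x : Submodule.torsionBy ℤ ((W.map (Int.castRingHom ℚ))⁄Qb).Point p), σ • x - x ∈ N) :
    (p : ℤ) ∣ (ℓ : ℤ) + 1 - W.apOfModel ℓ := by
  have hℓ : ℓ.Prime := Fact.out
  by_contra hnd
  apply htop
  obtain ⟨A, hA⟩ := Fermat.Agent.Lib.helper54.exists_liesOverPrime hℓ
  obtain ⟨σ, hσ⟩ := Fermat.Agent.Lib.helper54.exists_isFrobeniusAt hℓ A hA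
  have hcop : Nat.Coprime p ℓ := (Nat.coprime_primes hp hℓ).mpr (Ne.symm hℓp)
  -- Bezout for `p` and `k = ℓ + 1 - a_ℓ`
  have hpi : Prime (p : ℤ) := Nat.prime_iff_prime_int.mp hp
  have hco : IsCoprime ((ℓ : ℤ) + 1 - W.apOfModel ℓ) (p : ℤ) :=
    ((Prime.coprime_iff_not_dvd hpi).mpr hnd).symm
  obtain ⟨u, v, huv⟩ := hco
  rw [eq_top_iff]
  intro x _
  have hrel := Fermat.Agent.S58.helper5765.frob_relation_of_frobCH W ℓ hgood
    (fun K _ _ _ _ => Fermat.Agent.Lib.helper1844.frobCH_all ℓ W hgood K) A hA σ hσ p hcop x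
  have h1 : σ • x - x ∈ N := hcof σ x
  have h2 : σ • σ • x - σ • x ∈ N := hcof σ (σ • x)
  have hk : ((ℓ : ℤ) + 1 - W.apOfModel ℓ) • x ∈ N := by
    have e : ((ℓ : ℤ) + 1 - W.apOfModel ℓ) • x =
        W.apOfModel ℓ • (σ • x - x) - (σ • σ • x - σ • x) - (σ • x - x) := by
      have e2 : ((ℓ : ℤ) + 1 - W.apOfModel ℓ) • x =
          (ℓ : ℤ) • x + x - W.apOfModel ℓ • x := by
        rw [sub_smul, add_smul, one_smul]
      rw [e2, smul_sub]
      have hrel' : (ℓ : ℤ) • x = W.apOfModel ℓ • σ • x - σ • σ • x := by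
        have := hrel
        rw [sub_add_eq_add_sub, sub_eq_zero] at this
        rw [← this]
        abel
      rw [hrel']
      abel
    rw [e]
    refine N.sub_mem (N.sub_mem ?_ h2) h1
    exact N.toAddSubgroup.zsmul_mem h1 _
  have hpx : (p : ℤ) • x = 0 := Submodule.smul_torsionBy (p : ℤ) x
  have hx : x = u • (((ℓ : ℤ) + 1 - W.apOfModel ℓ) • x) + v • ((p : ℤ) • x) := by
    rw [smul_smul, smul_smul, ← add_smul, huv, one_smul]
  rw [hx, hpx, smul_zero, add_zero]
  exact N.toAddSubgroup.zsmul_mem hk _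

/-- **Leaf (b1)**, verbatim `helper4647.LeafThreeDvd`: a Frey curve with `p ≥ 17` and a cofixed
line has `3 ∣ a b c`. -/
theorem leafThreeDvd : Fermat.Agent.S12.helper4647.LeafThreeDvd := by
  intro P hp N hN
  by_contra h3
  have : Fact (Nat.Prime 3) := ⟨Nat.prime_three⟩
  have hgood : P.freyCurveInt.IsGoodPrimeFor 3 := by
    intro hd
    have hΔ := Fermat.Agent.S12.helper4647.freyCurveInt_Δ P
    have h1 : (3 : ℤ) ∣ (P.a * P.b * P.c) ^ (2 * P.p) := by
      rw [← hΔ]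
      exact Dvd.dvd.mul_right (by exact_mod_cast hd) _
    exact h3 (Int.prime_three.dvd_of_dvd_pow h1)
  have hdvd := dvd_of_cofixed_good P.freyCurveInt P.p P.pp 3 (by omega) hgood N hN.2.2.1
    hN.2.2.2
  have hb := abs_le.mp (Fermat.Agent.S58.helper1790.abs_apOfModel_le P.freyCurveInt 3)
  have hpos : (0 : ℤ) < ((3 : ℕ) : ℤ) + 1 - P.freyCurveInt.apOfModel 3 := by
    push_cast
    omega
  have hle := Int.le_of_dvd hpos hdvd
  push_cast at hle hb
  omega

end Fermat.Agent.S12.helper483
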