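import Mathlib
import Fermat.Prelude.Def_FLTPrelim_FreyPackage
import Fermat.Prelude.Def_FLTPrelim_GaloisRep
import Fermat.Prelude.Def_FLTPrelim_Ramification
import Fermat.Prelude.Def_FLTPrelim_CofixedLine
import Fermat.Prelude.Def_EllipticCurve_ZeroComponentAt
import Fermat.Agent.S13.helper613_Skeleton
import Fermat.Agent.S13.helper613_TorsionCount
import Fermat.Agent.Lib.helper822_TorsionFinite
import Fermat.Agent.S13.helper965_UnipTwo
import Fermat.Agent.S13.helper965_Ker
import Fermat.Agent.S13.helper4507_NoFixed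
import Fermat.Agent.S13.helper836_NodeVal
import Fermat.Agent.S58.helper6024_Unram
import Fermat.Agent.Lib.helper872_QbarPlaces
import Fermat.Agent.S04.helper4_Wiring

/-!
# S12, leaf (a): a Galois-stable line of the Frey curve is toric at `2` (helper770)

For a Frey package `P`, a Galois-stable line `N` of `E[p]` (`E` the Frey curve) and a valuation
subring `A` of `ℚ̄` over `2`, every nonzero point of `N` has a unit `x`-coordinate in the minimal
model `y² + xy = x³ + a₂x² + a₄x`; hence it lies in the zero component at `A`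
(`WeierstrassCurve.InZeroComponentAt` for the integral model `P.freyCurveInt`).

Proof.  Inertia at `A` is unipotent on `E[p]` (`S13.helper965.unip_two`), hence fixes the stable
line `N` pointwise (`S13.helper613.unipotent_fix_line`), so the `x`-coordinate of a point of `N`
is inertia-fixed and its valuation is an integral power of `v 2`
(`S58.helper6024.exists_zpow_valuation_eq`).  The kernel of reduction has no `p`-torsion
(`S13.helper965.ker_point`).  In the node region the node-valuation theorem in arbitrary residue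
characteristic (`S13.helper836.nodeVal_gen`) gives `v x ^ p = v a₄ ^ (2 j)`, `v a₄ < v x < 1`,
which is impossible because `p ∤ 2 v₂(a₄) = 2 p v₂(b) - 8` (`S13.helper4507.freyH_cop`).
-/

set_option autoImplicit false

open WeierstrassCurve WeierstrassCurve.Affine WeierstrassCurve.Affine.Point

namespace Fermat.Agent.S12.helper770

local notation "Qbar" => AlgebraicClosure ℚ

/-- The body of `WeierstrassCurve.InZeroComponentAt`, for an integral model `W` and a rational
curve `W'` (to be used with `W' = W.map (Int.castRingHom ℚ)`). -/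
def ZC (W : WeierstrassCurve ℤ) (W' : WeierstrassCurve ℚ) (A : ValuationSubring Qbar)
    (Q : (W'⁄Qbar).Point) : Prop :=
  Q = 0 ∨ ∃ (x y : Qbar) (h : (W'⁄Qbar).toAffine.Nonsingular x y),
    Q = .some x y h ∧
      (x ∉ A ∨ ∃ (hx : x ∈ A) (hy : y ∈ A),
        (W.map (Int.castRingHom (IsLocalRing.ResidueField A))).toAffine.Nonsingular
          (IsLocalRing.residue A ⟨x, hx⟩) (IsLocalRing.residue A ⟨y, hy⟩))

theorem zc_iff (W : WeierstrassCurve ℤ) (A : ValuationSubring Qbar)
    (Q : ((W.map (Int.castRingHom ℚ))⁄Qbar).Point) :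
    ZC W (W.map (Int.castRingHom ℚ)) A Q ↔ W.InZeroComponentAt A Q :=
  Iff.rfl

/-! ### The Frey curve over `ℚ̄` -/

section Frey

variable (P : FreyPackage)

theorem frey_a₁ : ((P.freyCurve)⁄Qbar).a₁ = 1 := by
  simp [WeierstrassCurve.baseChange, FreyPackage.freyCurve]

theorem frey_a₃ : ((P.freyCurve)⁄Qbar).a₃ = 0 := by
  simp [WeierstrassCurve.baseChange, FreyPackage.freyCurve]

theorem frey_a₆ : ((P.freyCurve)⁄Qbar).a₆ = 0 := by
  simp [WeierstrassCurve.baseChange, FreyPackage.freyCurve]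

theorem frey_a₂ : ((P.freyCurve)⁄Qbar).a₂ = ((P.freyCurveInt.a₂ : ℤ) : Qbar) := by
  rw [← Fermat.Agent.S04.helper4.freyCurveInt_map P]
  simp [WeierstrassCurve.baseChange]

theorem frey_a₄ : ((P.freyCurve)⁄Qbar).a₄ = ((P.freyCurveInt.a₄ : ℤ) : Qbar) := by
  rw [← Fermat.Agent.S04.helper4.freyCurveInt_map P]
  simp [WeierstrassCurve.baseChange]

theorem frey_a₄_rat : ((P.freyCurve)⁄Qbar).a₄ = algebraMap ℚ Qbar P.freyCurve.a₄ := by
  simp [WeierstrassCurve.baseChange]

theorem frey_b₂ : ((P.freyCurve)⁄Qbar).b₂ = ((P.b ^ P.p - P.a ^ P.p : ℤ) : Qbar) := by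
  simp only [WeierstrassCurve.b₂, WeierstrassCurve.baseChange, WeierstrassCurve.map_a₁,
    WeierstrassCurve.map_a₂, FreyPackage.freyCurve, map_one, map_div₀, map_sub, map_pow,
    map_intCast, map_ofNat]
  push_cast
  ring

/-- The Frey curve is in shape `η² = ξ (ξ² + al ξ + be)` with `ξ = x`, `4 al = b^p - a^p`,
`be = a₄`. -/
theorem frey_shape : Fermat.Agent.S05.helper305.Shape ((P.freyCurve)⁄Qbar) 0
    (((P.b ^ P.p - P.a ^ P.p : ℤ) : Qbar) / 4) ((P.freyCurve)⁄Qbar).a₄ where
  two_ne := two_ne_zero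
  hb2 := by rw [frey_b₂]; ring
  hb4 := by
    simp only [WeierstrassCurve.b₄, frey_a₁, frey_a₃]
    ring
  hb6 := by
    simp only [WeierstrassCurve.b₆, frey_a₃, frey_a₆]
    ring

theorem frey_a₄_ne_zero : ((P.freyCurve)⁄Qbar).a₄ ≠ 0 := by
  rw [frey_a₄_rat]
  exact (map_ne_zero _).mpr (Fermat.Agent.S13.helper965.frey_a₄_ne_zero P)

theorem padicValRat_frey_a₄ : padicValRat 2 P.freyCurve.a₄ = Fermat.Agent.S13.helper4507.freyH P := by
  have h := Fermat.Agent.S13.helper4507.frey_a4_val P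
  have e : ((P.freyCurve)⁄ℚ).a₄ = P.freyCurve.a₄ := by
    simp [WeierstrassCurve.baseChange]
  rwa [e] at h

/-- **Local statement at `2`.**  A `p`-torsion point of the Frey curve whose `x`-coordinate is
fixed by the inertia group of a valuation subring `A` over `2` has a unit `x`-coordinate. -/
theorem valuation_x_eq_one (A : ValuationSubring Qbar) (hA : A.LiesOverPrime 2)
    {x y : Qbar} (h : ((P.freyCurve)⁄Qbar).toAffine.Nonsingular x y)
    (hT : P.p • (Point.some x y h : ((P.freyCurve)⁄Qbar).Point) = 0)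
    (hfix : ∀ σ ∈ A.inertiaSubgroupIn ℚ, σ x = x) : A.valuation x = 1 := by
  have hp5 := P.hp5
  have hp2 : ¬ 2 ∣ P.p := by
    intro h2
    have := (Nat.prime_dvd_prime_iff_eq Nat.prime_two P.pp).mp h2
    omega
  have hvp : A.valuation ((P.p : ℕ) : Qbar) = 1 :=
    Fermat.Agent.S05.helper4205.valuation_natCast_eq_one Nat.prime_two hA hp2
  -- integrality of the coefficients
  have hb2 : A.valuation ((P.freyCurve)⁄Qbar).b₂ ≤ 1 := by
    rw [frey_b₂]
    exact (A.valuation_le_one_iff _).mpr (Fermat.Agent.S05.helper4205.vs_intCast_mem A _)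
  have ha4 : A.valuation ((P.freyCurve)⁄Qbar).a₄ ≤ 1 := by
    rw [frey_a₄]
    exact (A.valuation_le_one_iff _).mpr (Fermat.Agent.S05.helper4205.vs_intCast_mem A _)
  -- no `p`-torsion in the kernel of reduction
  have hle : A.valuation x ≤ 1 := by
    by_contra hcon
    have h1 := Fermat.Agent.S13.helper965.ker_point A.valuation (frey_a₃ P) (frey_a₆ P) hb2 ha4 h
      (not_le.mp hcon) hT
    rw [hvp] at h1
    exact lt_irrefl _ h1
  refine le_antisymm hle (not_lt.mp fun hlt => ?_)
  -- the node region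
  set t := A.valuation ((2 : ℕ) : Qbar) with ht
  have ht1 : t < 1 := (ValuationSubring.mem_nonunits_iff A).mp hA
  have ht0 : 0 < t := by
    rw [ht, zero_lt_iff, Ne, Valuation.zero_iff]
    norm_num
  have hbe : A.valuation ((P.freyCurve)⁄Qbar).a₄ = t ^ Fermat.Agent.S13.helper4507.freyH P := by
    rw [frey_a₄_rat, Fermat.Agent.Lib.helper872.valuation_rat Nat.prime_two A hA _
      (Fermat.Agent.S13.helper965.frey_a₄_ne_zero P), padicValRat_frey_a₄]
  have hH := Fermat.Agent.S13.helper4507.freyH_pos P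
  have hcop := Fermat.Agent.S13.helper4507.freyH_cop P
  have hbe1 : A.valuation ((P.freyCurve)⁄Qbar).a₄ < 1 := by
    rw [hbe]
    exact (zpow_lt_one_iff_right_of_lt_one₀ ht0 ht1).mpr (by omega)
  have hal : A.valuation (4 * (((P.b ^ P.p - P.a ^ P.p : ℤ) : Qbar) / 4)) = 1 := by
    rw [mul_div_cancel₀ _ (by norm_num : (4 : Qbar) ≠ 0)]
    exact Fermat.Agent.S05.helper4205.valuation_intCast_eq_one Nat.prime_two hA
      (by exact_mod_cast Fermat.Agent.S13.helper4507.frey_beta_odd P)
  obtain ⟨hbx, j, hj⟩ := Fermat.Agent.S13.helper836.nodeVal_gen A.valuation (frey_shape P) hal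
    hbe1 (frey_a₄_ne_zero P) P.hp_odd h (by rwa [sub_zero]) hT
  rw [sub_zero] at hbx hj
  have hx0 : x ≠ 0 := by
    rintro rfl
    rw [_root_.map_zero] at hbx
    exact not_lt_zero hbx
  obtain ⟨m, hm⟩ := Fermat.Agent.S58.helper6024.exists_zpow_valuation_eq A Nat.prime_two hA x
    hfix hx0
  rw [← ht] at hm
  rw [hm, hbe] at hbx hj
  rw [hm] at hlt
  have hm0 : 0 < m := (zpow_lt_one_iff_right_of_lt_one₀ ht0 ht1).mp hlt
  have hmH : m < Fermat.Agent.S13.helper4507.freyH P :=
    (zpow_lt_zpow_iff_right_of_lt_one₀ ht0 ht1).mp hbx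
  have hexp : m * (P.p : ℤ) = Fermat.Agent.S13.helper4507.freyH P * (2 * j) := by
    apply zpow_right_injective₀ ht0 ht1.ne
    show t ^ (m * (P.p : ℤ)) = t ^ (Fermat.Agent.S13.helper4507.freyH P * (2 * j))
    rw [zpow_mul, zpow_mul, zpow_natCast]
    exact hj
  -- arithmetic: `p ∣ j`, so `m ≥ 2 h`
  have hpZ : Prime (P.p : ℤ) := Nat.prime_iff_prime_int.mp P.pp
  have hdvd : (P.p : ℤ) ∣ (2 * Fermat.Agent.S13.helper4507.freyH P) * j :=
    ⟨m, by rw [mul_comm (P.p : ℤ) m, hexp]; ring⟩
  rcases hpZ.dvd_or_dvd hdvd with h1 | ⟨j', rfl⟩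
  · exact hcop h1
  · have hp0 : (P.p : ℤ) ≠ 0 := by exact_mod_cast P.pp.ne_zero
    have hm2 : m = 2 * j' * Fermat.Agent.S13.helper4507.freyH P := by
      apply mul_right_cancel₀ hp0
      rw [hexp]; ring
    have hj' : 0 < j' := by
      by_contra hcon
      have : j' ≤ 0 := not_lt.mp hcon
      nlinarith
    nlinarith

/-- A point of the Frey curve with unit `x`-coordinate at a valuation subring over `2` has
integral coordinates and nonsingular reduction on the integral model. -/
theorem nonsingular_residue_of_valuation_x_eq_one (A : ValuationSubring Qbar)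
    (hA : A.LiesOverPrime 2) {x y : Qbar} (h : ((P.freyCurve)⁄Qbar).toAffine.Nonsingular x y)
    (hx1 : A.valuation x = 1) :
    ∃ (hx : x ∈ A) (hy : y ∈ A),
      (P.freyCurveInt.map (Int.castRingHom (IsLocalRing.ResidueField A))).toAffine.Nonsingular
        (IsLocalRing.residue A ⟨x, hx⟩) (IsLocalRing.residue A ⟨y, hy⟩) := by
  have hx : x ∈ A := (A.valuation_le_one_iff x).mp hx1.le
  have ha2 : A.valuation ((P.freyCurve)⁄Qbar).a₂ ≤ 1 := by
    rw [frey_a₂]
    exact (A.valuation_le_one_iff _).mpr (Fermat.Agent.S05.helper4205.vs_intCast_mem A _)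
  have ha4 : A.valuation ((P.freyCurve)⁄Qbar).a₄ ≤ 1 := by
    rw [frey_a₄]
    exact (A.valuation_le_one_iff _).mpr (Fermat.Agent.S05.helper4205.vs_intCast_mem A _)
  have hy1 : A.valuation y ≤ 1 :=
    Fermat.Agent.S13.helper965.val_y_le_one A.valuation (frey_a₃ P) (frey_a₆ P)
      (by rw [frey_a₁, map_one]) ha2 ha4 h.1 hx1.le
  have hy : y ∈ A := (A.valuation_le_one_iff y).mp hy1
  refine ⟨hx, hy, ?_⟩
  -- the equation, in `ℚ̄`, in `A`, and in the residue field
  have heq : y ^ 2 + x * y = x ^ 3 + ((P.freyCurveInt.a₂ : ℤ) : Qbar) * x ^ 2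
      + ((P.freyCurveInt.a₄ : ℤ) : Qbar) * x := by
    have h1 := (WeierstrassCurve.Affine.equation_iff x y).mp h.1
    rw [frey_a₁, frey_a₃, frey_a₆, frey_a₂, frey_a₄] at h1
    linear_combination h1
  have heqA : (⟨y, hy⟩ : A) ^ 2 + ⟨x, hx⟩ * ⟨y, hy⟩ = (⟨x, hx⟩ : A) ^ 3
      + ((P.freyCurveInt.a₂ : ℤ) : A) * ⟨x, hx⟩ ^ 2 + ((P.freyCurveInt.a₄ : ℤ) : A) * ⟨x, hx⟩ := by
    apply Subtype.ext
    push_cast
    exact heq
  have heqk := congrArg (IsLocalRing.residue A) heqA
  simp only [map_add, map_mul, map_pow, map_intCast] at heqk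
  have e1 : P.freyCurveInt.a₁ = 1 := rfl
  have e3 : P.freyCurveInt.a₃ = 0 := rfl
  have e6 : P.freyCurveInt.a₆ = 0 := rfl
  rw [WeierstrassCurve.Affine.nonsingular_iff]
  refine ⟨?_, Or.inr ?_⟩
  · rw [WeierstrassCurve.Affine.equation_iff]
    simp only [WeierstrassCurve.map_a₁, WeierstrassCurve.map_a₂, WeierstrassCurve.map_a₃,
      WeierstrassCurve.map_a₄, WeierstrassCurve.map_a₆, e1, e3, e6, map_one, _root_.map_zero,
      eq_intCast]
    linear_combination heqk
  · simp only [WeierstrassCurve.map_a₁, WeierstrassCurve.map_a₃, e1, e3, map_one, _root_.map_zero]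
    intro hcon
    have h2 : IsLocalRing.residue A ((2 : A) * ⟨y, hy⟩ + ⟨x, hx⟩) = 0 := by
      rw [map_add, map_mul, map_ofNat]
      linear_combination hcon
    rw [IsLocalRing.residue_eq_zero_iff, ValuationSubring.valuation_lt_one_iff] at h2
    have h3 : A.valuation (2 * y + x) = 1 := by
      have h2y : A.valuation (2 * y) < A.valuation x := by
        rw [hx1, map_mul]
        have ht1 : A.valuation (2 : Qbar) < 1 := by
          have : A.valuation ((2 : ℕ) : Qbar) < 1 := (ValuationSubring.mem_nonunits_iff A).mp hA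
          simpa using this
        exact lt_of_le_of_lt (mul_le_of_le_one_right' hy1) ht1
      rw [add_comm, Valuation.map_add_eq_of_lt_left _ h2y, hx1]
    have h4 : (((2 : A) * ⟨y, hy⟩ + ⟨x, hx⟩ : A) : Qbar) = 2 * y + x := by
      push_cast
      rfl
    rw [h4, h3] at h2
    exact lt_irrefl _ h2

open Fermat.Agent.S13.helper613 in
/-- **Toric at `2`**: every point of a Galois-stable line of the `p`-torsion of the Frey curve
lies in the zero component at every valuation subring of `ℚ̄` over `2`. -/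
theorem zc_of_mem_stable_line (N : Submodule (ZMod P.p) (Vp P)) (hN : IsGaloisStable ℚ N)
    (h0 : N ≠ ⊥) (h1 : N ≠ ⊤) (A : ValuationSubring Qbar) (hA : A.LiesOverPrime 2)
    (Q : Vp P) (hQ : Q ∈ N) :
    ZC P.freyCurveInt P.freyCurve A (Q : ((P.freyCurve)⁄Qbar).Point) := by
  classical
  have : Fact P.p.Prime := ⟨P.pp⟩
  have : Finite (Vp P) := Fermat.Agent.Lib.helper822.finite_torsionBy _ P.p P.pp.ne_zero
  have hcard := card_eq_sq_of_proper_submodule (Fermat.Agent.S13.helper613.frey_card_le P) N h0 h1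
  have hV := finrank_eq_two hcard
  have hfixQ : ∀ σ ∈ A.inertiaSubgroupIn ℚ, σ • Q = Q := fun σ hσ =>
    unipotent_fix_line hV N hN h0 h1 σ (Fermat.Agent.S13.helper965.unip_two P A hA σ hσ) Q hQ
  have hT : P.p • (Q : ((P.freyCurve)⁄Qbar).Point) = 0 := by
    have := Q.2
    rw [Submodule.mem_torsionBy_iff, natCast_zsmul] at this
    exact this
  have hfixP : ∀ σ ∈ A.inertiaSubgroupIn ℚ,
      Point.map (W' := P.freyCurve) σ.toAlgHom (Q : ((P.freyCurve)⁄Qbar).Point) = Q :=
    fun σ hσ => congrArg Subtype.val (hfixQ σ hσ)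
  generalize (Q : ((P.freyCurve)⁄Qbar).Point) = R at hT hfixP
  cases R with
  | zero => exact Or.inl rfl
  | some x y h =>
    refine Or.inr ⟨x, y, h, rfl, Or.inr ?_⟩
    have hfix : ∀ σ ∈ A.inertiaSubgroupIn ℚ, σ x = x := by
      intro σ hσ
      have h1 := hfixP σ hσ
      rw [Point.map_some] at h1
      injection h1
    exact nonsingular_residue_of_valuation_x_eq_one P A hA h (valuation_x_eq_one P A hA h hT hfix)

end Frey

/-- **Leaf (a) of the S12 wiring**, on the integral model: for a Frey package `P` and a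
Galois-stable line `N` of the `p`-torsion of `P.freyCurveInt` over `ℚ̄`, every point of `N` is in
the zero component at every valuation subring of `ℚ̄` over `2`. -/
theorem inZeroComponentAt_two (P : FreyPackage)
    (N : Submodule (ZMod P.p)
      (Submodule.torsionBy ℤ ((P.freyCurveInt.map (Int.castRingHom ℚ))⁄Qbar).Point P.p))
    (hN : IsGaloisStable ℚ N) (h0 : N ≠ ⊥) (h1 : N ≠ ⊤)
    (A : ValuationSubring Qbar) (hA : A.LiesOverPrime 2) (Q) (hQ : Q ∈ N) :
    P.freyCurveInt.InZeroComponentAt A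
      (Q : ((P.freyCurveInt.map (Int.castRingHom ℚ))⁄Qbar).Point) := by
  have key : ∀ (W' : WeierstrassCurve ℚ), W' = P.freyCurve →
      ∀ (N : Submodule (ZMod P.p) (Submodule.torsionBy ℤ (W'⁄Qbar).Point P.p)),
        IsGaloisStable ℚ N → N ≠ ⊥ → N ≠ ⊤ →
        ∀ Q ∈ N, ZC P.freyCurveInt W' A (Q : (W'⁄Qbar).Point) := by
    rintro W' rfl N hN h0 h1 Q hQ
    exact zc_of_mem_stable_line P N hN h0 h1 A hA Q hQ
  exact (zc_iff P.freyCurveInt A _).mp
    (key _ (Fermat.Agent.S04.helper4.freyCurveInt_map P) N hN h0 h1 Q hQ)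

end Fermat.Agent.S12.helper770
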