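import Fermat.Agent.S12.helper770_LeafTwo
import Fermat.Agent.S12.helper4647_Spec

/-!
# S12, leaf (a) in the shape of the S12 spec of helper4647 (helper770)

`leafTwo : Fermat.Agent.S12.helper4647.LeafTwo`, verbatim.  The cofixed hypothesis and the bound
`17 ≤ p` are not used: `helper770.inZeroComponentAt_two` holds for every Galois-stable line.
-/

set_option autoImplicit false

namespace Fermat.Agent.S12.helper770

theorem leafTwo : Fermat.Agent.S12.helper4647.LeafTwo := by
  intro P _ N hN A hA x hx
  exact inZeroComponentAt_two P N hN.1 hN.2.1 hN.2.2.1 A hA x hx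

end Fermat.Agent.S12.helper770
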